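/-
S52 piece (E) (helper75): over a field in which `2` and `3` are invertible, every Weierstrass
curve `W` has the same number of (nonsingular) points as the short Weierstrass curve
`y² = x³ - 27 c₄ x - 54 c₆`; explicit bijection `(x, y) ↦ (36 x + 3 b₂, 108 (2 y + a₁ x + a₃))`.
Consequence: `apOfModel W ℓ` is the trace of Frobenius of the short model for every prime `ℓ ≥ 5`.
-/
import Mathlib
import Fermat.Prelude.Def_FLTPrelim_Modularity
import Fermat.Agent.S52.Iface

set_option autoImplicit false

open WeierstrassCurve WeierstrassCurve.Affine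

namespace Fermat.Agent.S52

section Field

variable {F : Type*} [Field F] (W : WeierstrassCurve F)

/-- The short model `y² = x³ - 27 c₄ x - 54 c₆` of a Weierstrass curve. -/
def shortModel : WeierstrassCurve F := shortW (-27 * W.c₄) (-54 * W.c₆)

/-- `x`-coordinate of the image of a point on the short model. -/
def toShortX (x : F) : F := 36 * x + 3 * W.b₂

/-- `y`-coordinate of the image of a point on the short model. -/
def toShortY (x y : F) : F := 108 * (2 * y + W.a₁ * x + W.a₃)

/-- `x`-coordinate of the preimage of a point of the short model. -/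
noncomputable def ofShortX (X : F) : F := (X - 3 * W.b₂) / 36

/-- `y`-coordinate of the preimage of a point of the short model. -/
noncomputable def ofShortY (X Y : F) : F := (Y / 108 - W.a₁ * ofShortX W X - W.a₃) / 2

variable {W}

lemma shortModel_equation_iff (X Y : F) :
    (shortModel W).toAffine.Equation X Y ↔ Y ^ 2 = X ^ 3 + (-27 * W.c₄) * X + (-54 * W.c₆) := by
  rw [Affine.equation_iff]
  simp [shortModel, shortW]

lemma shortModel_nonsingular_iff (X Y : F) :
    (shortModel W).toAffine.Nonsingular X Y ↔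
      (shortModel W).toAffine.Equation X Y ∧ (3 * X ^ 2 + (-27 * W.c₄) ≠ 0 ∨ 2 * Y ≠ 0) := by
  rw [Affine.nonsingular_iff]
  simp only [shortModel, shortW]
  constructor
  · rintro ⟨h, h' | h'⟩
    · refine ⟨h, Or.inl ?_⟩
      intro h0
      apply h'
      linear_combination (-1 : F) * h0
    · refine ⟨h, Or.inr ?_⟩
      intro h0
      apply h'
      linear_combination h0
  · rintro ⟨h, h' | h'⟩
    · refine ⟨h, Or.inl ?_⟩
      intro h0
      apply h'
      linear_combination (-1 : F) * h0
    · refine ⟨h, Or.inr ?_⟩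
      intro h0
      apply h'
      linear_combination h0

lemma toShort_equation {x y : F} (h : W.toAffine.Equation x y) :
    (shortModel W).toAffine.Equation (toShortX W x) (toShortY W x y) := by
  rw [shortModel_equation_iff]
  rw [Affine.equation_iff] at h
  simp only [toShortX, toShortY, WeierstrassCurve.c₄, WeierstrassCurve.c₆, WeierstrassCurve.b₂,
    WeierstrassCurve.b₄, WeierstrassCurve.b₆]
  linear_combination (46656 : F) * h

lemma toShort_nonsingular (h2 : (2 : F) ≠ 0) (h3 : (3 : F) ≠ 0) {x y : F}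
    (h : W.toAffine.Nonsingular x y) :
    (shortModel W).toAffine.Nonsingular (toShortX W x) (toShortY W x y) := by
  rw [shortModel_nonsingular_iff]
  rw [Affine.nonsingular_iff] at h
  obtain ⟨he, hns⟩ := h
  refine ⟨toShort_equation he, ?_⟩
  by_cases hη : 2 * y + W.a₁ * x + W.a₃ = 0
  · left
    have hx : W.a₁ * y ≠ 3 * x ^ 2 + 2 * W.a₂ * x + W.a₄ := by
      rcases hns with h' | h'
      · exact h'
      · exact absurd (by linear_combination hη) h'
    intro h0
    apply hx
    have h1296 : (1296 : F) ≠ 0 := by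
      have : (1296 : F) = 2 ^ 4 * 3 ^ 4 := by norm_num
      rw [this]
      exact mul_ne_zero (pow_ne_zero _ h2) (pow_ne_zero _ h3)
    have key : (1296 : F) * (W.a₁ * y - (3 * x ^ 2 + 2 * W.a₂ * x + W.a₄)) = 0 := by
      simp only [toShortX, WeierstrassCurve.c₄, WeierstrassCurve.b₂, WeierstrassCurve.b₄] at h0
      linear_combination (-1 : F) * h0 + (648 * W.a₁) * hη
    have := (mul_eq_zero.mp key).resolve_left h1296
    linear_combination this
  · right
    have h216 : (216 : F) ≠ 0 := by
      have : (216 : F) = 2 ^ 3 * 3 ^ 3 := by norm_num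
      rw [this]
      exact mul_ne_zero (pow_ne_zero _ h2) (pow_ne_zero _ h3)
    have : 2 * toShortY W x y = 216 * (2 * y + W.a₁ * x + W.a₃) := by
      simp only [toShortY]; ring
    rw [this]
    exact mul_ne_zero h216 hη

lemma ofShort_toShort_X (h2 : (2 : F) ≠ 0) (h3 : (3 : F) ≠ 0) (x : F) :
    ofShortX W (toShortX W x) = x := by
  have h36 : (36 : F) ≠ 0 := by
    have : (36 : F) = 2 ^ 2 * 3 ^ 2 := by norm_num
    rw [this]
    exact mul_ne_zero (pow_ne_zero _ h2) (pow_ne_zero _ h3)
  simp only [ofShortX, toShortX]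
  field_simp
  ring

lemma ofShort_toShort_Y (h2 : (2 : F) ≠ 0) (h3 : (3 : F) ≠ 0) (x y : F) :
    ofShortY W (toShortX W x) (toShortY W x y) = y := by
  have h108 : (108 : F) ≠ 0 := by
    have : (108 : F) = 2 ^ 2 * 3 ^ 3 := by norm_num
    rw [this]
    exact mul_ne_zero (pow_ne_zero _ h2) (pow_ne_zero _ h3)
  simp only [ofShortY, ofShort_toShort_X h2 h3, toShortY]
  field_simp
  ring

lemma toShort_ofShort_X (h2 : (2 : F) ≠ 0) (h3 : (3 : F) ≠ 0) (X : F) :
    toShortX W (ofShortX W X) = X := by
  have h36 : (36 : F) ≠ 0 := by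
    have : (36 : F) = 2 ^ 2 * 3 ^ 2 := by norm_num
    rw [this]
    exact mul_ne_zero (pow_ne_zero _ h2) (pow_ne_zero _ h3)
  simp only [ofShortX, toShortX]
  field_simp
  ring

lemma toShort_ofShort_Y (h2 : (2 : F) ≠ 0) (h3 : (3 : F) ≠ 0) (X Y : F) :
    toShortY W (ofShortX W X) (ofShortY W X Y) = Y := by
  have h108 : (108 : F) ≠ 0 := by
    have : (108 : F) = 2 ^ 2 * 3 ^ 3 := by norm_num
    rw [this]
    exact mul_ne_zero (pow_ne_zero _ h2) (pow_ne_zero _ h3)
  simp only [ofShortY, toShortY]
  field_simp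
  ring

lemma ofShort_nonsingular (h2 : (2 : F) ≠ 0) (h3 : (3 : F) ≠ 0) {X Y : F}
    (h : (shortModel W).toAffine.Nonsingular X Y) :
    W.toAffine.Nonsingular (ofShortX W X) (ofShortY W X Y) := by
  have h6 : (46656 : F) ≠ 0 := by
    have : (46656 : F) = 2 ^ 6 * 3 ^ 6 := by norm_num
    rw [this]
    exact mul_ne_zero (pow_ne_zero _ h2) (pow_ne_zero _ h3)
  have h216 : (216 : F) ≠ 0 := by
    have : (216 : F) = 2 ^ 3 * 3 ^ 3 := by norm_num
    rw [this]
    exact mul_ne_zero (pow_ne_zero _ h2) (pow_ne_zero _ h3)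
  have h1296 : (1296 : F) ≠ 0 := by
    have : (1296 : F) = 2 ^ 4 * 3 ^ 4 := by norm_num
    rw [this]
    exact mul_ne_zero (pow_ne_zero _ h2) (pow_ne_zero _ h3)
  set x := ofShortX W X with hx
  set y := ofShortY W X Y with hy
  have hX : X = toShortX W x := (toShort_ofShort_X h2 h3 X).symm
  have hY : Y = toShortY W x y := (toShort_ofShort_Y h2 h3 X Y).symm
  rw [shortModel_nonsingular_iff, shortModel_equation_iff] at h
  obtain ⟨he, hns⟩ := h
  rw [Affine.nonsingular_iff, Affine.equation_iff]
  have heq : y ^ 2 + W.a₁ * x * y + W.a₃ * y = x ^ 3 + W.a₂ * x ^ 2 + W.a₄ * x + W.a₆ := by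
    have key : (46656 : F) * (y ^ 2 + W.a₁ * x * y + W.a₃ * y
        - (x ^ 3 + W.a₂ * x ^ 2 + W.a₄ * x + W.a₆)) = 0 := by
      rw [hX, hY] at he
      simp only [toShortX, toShortY, WeierstrassCurve.c₄, WeierstrassCurve.c₆,
        WeierstrassCurve.b₂, WeierstrassCurve.b₄, WeierstrassCurve.b₆] at he
      linear_combination he
    have := (mul_eq_zero.mp key).resolve_left h6
    linear_combination this
  refine ⟨heq, ?_⟩
  by_contra hcon
  push Not at hcon
  obtain ⟨hc1, hc2⟩ := hcon
  rcases hns with h' | h'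
  · apply h'
    rw [hX]
    simp only [toShortX, WeierstrassCurve.c₄, WeierstrassCurve.b₂, WeierstrassCurve.b₄]
    linear_combination (-1296 : F) * hc1 + (648 * W.a₁) * hc2
  · apply h'
    rw [hY]
    simp only [toShortY]
    linear_combination (216 : F) * hc2

variable (W)

/-- The explicit bijection between the points of `W` and the points of its short model. -/
noncomputable def toShortEquiv (h2 : (2 : F) ≠ 0) (h3 : (3 : F) ≠ 0) :
    W.toAffine.Point ≃ (shortModel W).toAffine.Point where
  toFun P :=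
    match P with
    | .zero => .zero
    | .some x y h => .some (toShortX W x) (toShortY W x y) (toShort_nonsingular h2 h3 h)
  invFun Q :=
    match Q with
    | .zero => .zero
    | .some X Y h => .some (ofShortX W X) (ofShortY W X Y) (ofShort_nonsingular h2 h3 h)
  left_inv P := by
    cases P with
    | zero => rfl
    | some x y h =>
      simp only
      congr 1
      · exact ofShort_toShort_X h2 h3 x
      · exact ofShort_toShort_Y h2 h3 x y
  right_inv Q := by
    cases Q with
    | zero => rfl
    | some X Y h =>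
      simp only
      congr 1
      · exact toShort_ofShort_X h2 h3 X
      · exact toShort_ofShort_Y h2 h3 X Y

theorem card_eq_card_shortModel (h2 : (2 : F) ≠ 0) (h3 : (3 : F) ≠ 0) :
    W.card = (shortModel W).card :=
  Nat.card_congr (toShortEquiv W h2 h3)

theorem traceOfFrobenius_eq_shortModel (h2 : (2 : F) ≠ 0) (h3 : (3 : F) ≠ 0) :
    W.traceOfFrobenius = (shortModel W).traceOfFrobenius := by
  simp only [WeierstrassCurve.traceOfFrobenius, card_eq_card_shortModel W h2 h3]

end Field

/-- (E): for a prime `ℓ ≥ 5`, `a_ℓ` of an integral Weierstrass curve is the trace of Frobenius of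
the short model `y² = x³ - 27 c₄ x - 54 c₆` over `ZMod ℓ`. No good-reduction hypothesis. -/
theorem apOfModel_eq_shortW (W : WeierstrassCurve ℤ) (ℓ : ℕ) [Fact ℓ.Prime] (hℓ : 5 ≤ ℓ) :
    W.apOfModel ℓ =
      (shortW (-27 * ((W.c₄ : ℤ) : ZMod ℓ)) (-54 * ((W.c₆ : ℤ) : ZMod ℓ))).traceOfFrobenius := by
  have hprime : ℓ.Prime := Fact.out
  have h2 : ((2 : ℕ) : ZMod ℓ) ≠ 0 := by
    rw [Ne, ZMod.natCast_eq_zero_iff]
    intro h
    have := Nat.le_of_dvd (by norm_num) h
    omega
  have h3 : ((3 : ℕ) : ZMod ℓ) ≠ 0 := by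
    rw [Ne, ZMod.natCast_eq_zero_iff]
    intro h
    have := Nat.le_of_dvd (by norm_num) h
    omega
  have h2' : (2 : ZMod ℓ) ≠ 0 := by exact_mod_cast h2
  have h3' : (3 : ZMod ℓ) ≠ 0 := by exact_mod_cast h3
  rw [WeierstrassCurve.apOfModel, traceOfFrobenius_eq_shortModel _ h2' h3']
  simp only [shortModel, WeierstrassCurve.reductionMod, WeierstrassCurve.map_c₄,
    WeierstrassCurve.map_c₆, eq_intCast]

end Fermat.Agent.S52
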