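/-
S52 piece (D1), abstract part (helper6): perturbing an integral Weierstrass model so that
`c₄` and `c₆` change by prescribed multiples of `1728`, without changing the reduction modulo
the primes dividing the perturbation.

For integers `d₄ d₆` the model
`W' = [a₁, a₂, a₃, a₄ - 36 d₄, a₆ - 3 b₂ d₄ - 2 d₆]`
has `c₄' = c₄ + 1728 d₄`, `c₆' = c₆ + 1728 d₆`, and `W' ≡ W` modulo every `ℓ` dividing `d₄` and
`d₆` (so the same `a_ℓ`, and `Δ' ≡ Δ`, `c₄' ≡ c₄`).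
-/
import Mathlib
import Fermat.Prelude.Def_FLTPrelim_Modularity

set_option autoImplicit false

open WeierstrassCurve

namespace Fermat.Agent.S52

/-- The perturbed integral model: `c₄` moves by `1728 d₄`, `c₆` by `1728 d₆`. -/
def perturbW (W : WeierstrassCurve ℤ) (d₄ d₆ : ℤ) : WeierstrassCurve ℤ :=
  ⟨W.a₁, W.a₂, W.a₃, W.a₄ - 36 * d₄, W.a₆ - 3 * W.b₂ * d₄ - 2 * d₆⟩

section basic

variable (W : WeierstrassCurve ℤ) (d₄ d₆ : ℤ)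

@[simp] lemma perturbW_a₁ : (perturbW W d₄ d₆).a₁ = W.a₁ := rfl
@[simp] lemma perturbW_a₂ : (perturbW W d₄ d₆).a₂ = W.a₂ := rfl
@[simp] lemma perturbW_a₃ : (perturbW W d₄ d₆).a₃ = W.a₃ := rfl
lemma perturbW_a₄ : (perturbW W d₄ d₆).a₄ = W.a₄ - 36 * d₄ := rfl
lemma perturbW_a₆ : (perturbW W d₄ d₆).a₆ = W.a₆ - 3 * W.b₂ * d₄ - 2 * d₆ := rfl

lemma perturbW_b₂ : (perturbW W d₄ d₆).b₂ = W.b₂ := rfl

lemma perturbW_b₄ : (perturbW W d₄ d₆).b₄ = W.b₄ - 72 * d₄ := by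
  simp only [WeierstrassCurve.b₄, perturbW]
  ring

lemma perturbW_b₆ : (perturbW W d₄ d₆).b₆ = W.b₆ - 12 * W.b₂ * d₄ - 8 * d₆ := by
  simp only [WeierstrassCurve.b₆, WeierstrassCurve.b₂, perturbW]
  ring

lemma perturbW_c₄ : (perturbW W d₄ d₆).c₄ = W.c₄ + 1728 * d₄ := by
  simp only [WeierstrassCurve.c₄, perturbW_b₂, perturbW_b₄]
  ring

lemma perturbW_c₆ : (perturbW W d₄ d₆).c₆ = W.c₆ + 1728 * d₆ := by
  simp only [WeierstrassCurve.c₆, perturbW_b₂, perturbW_b₄, perturbW_b₆]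
  ring

lemma perturbW_zero_zero : perturbW W 0 0 = W := by
  ext <;> simp [perturbW]

/-- The perturbed model has the same reduction modulo every `ℓ` dividing `d₄` and `d₆`. -/
lemma perturbW_reductionMod {ℓ : ℕ} (h4 : (ℓ : ℤ) ∣ d₄) (h6 : (ℓ : ℤ) ∣ d₆) :
    (perturbW W d₄ d₆).reductionMod ℓ = W.reductionMod ℓ := by
  have e4 : ((d₄ : ℤ) : ZMod ℓ) = 0 := (ZMod.intCast_zmod_eq_zero_iff_dvd d₄ ℓ).2 h4
  have e6 : ((d₆ : ℤ) : ZMod ℓ) = 0 := (ZMod.intCast_zmod_eq_zero_iff_dvd d₆ ℓ).2 h6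
  ext <;> simp [WeierstrassCurve.reductionMod, perturbW, e4, e6]

lemma perturbW_apOfModel {ℓ : ℕ} (h4 : (ℓ : ℤ) ∣ d₄) (h6 : (ℓ : ℤ) ∣ d₆) :
    (perturbW W d₄ d₆).apOfModel ℓ = W.apOfModel ℓ := by
  simp only [WeierstrassCurve.apOfModel, perturbW_reductionMod W d₄ d₆ h4 h6]

end basic

/-- (D1, abstract form) Given target invariants `c₄' ≡ c₄`, `c₆' ≡ c₆` modulo `1728 M`, there is
an integral model `W'` with these invariants and with the same reduction as `W` modulo every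
divisor of `M`. -/
theorem exists_model_of_congr (W : WeierstrassCurve ℤ) (M c₄' c₆' : ℤ)
    (h4 : 1728 * M ∣ c₄' - W.c₄) (h6 : 1728 * M ∣ c₆' - W.c₆) :
    ∃ W' : WeierstrassCurve ℤ, W'.c₄ = c₄' ∧ W'.c₆ = c₆' ∧
      1728 * W'.Δ = c₄' ^ 3 - c₆' ^ 2 ∧
      (∀ ℓ : ℕ, (ℓ : ℤ) ∣ M → W'.reductionMod ℓ = W.reductionMod ℓ) ∧
      (∀ ℓ : ℕ, (ℓ : ℤ) ∣ M → W'.apOfModel ℓ = W.apOfModel ℓ) := by
  obtain ⟨k₄, hk₄⟩ := h4
  obtain ⟨k₆, hk₆⟩ := h6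
  refine ⟨perturbW W (M * k₄) (M * k₆), ?_, ?_, ?_, ?_, ?_⟩
  · rw [perturbW_c₄]; linarith
  · rw [perturbW_c₆]; linarith
  · have hc4 : (perturbW W (M * k₄) (M * k₆)).c₄ = c₄' := by rw [perturbW_c₄]; linarith
    have hc6 : (perturbW W (M * k₄) (M * k₆)).c₆ = c₆' := by rw [perturbW_c₆]; linarith
    rw [← hc4, ← hc6]
    exact (perturbW W (M * k₄) (M * k₆)).c_relation
  · intro ℓ hℓ
    exact perturbW_reductionMod W _ _ (Dvd.dvd.mul_right hℓ k₄) (Dvd.dvd.mul_right hℓ k₆)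
  · intro ℓ hℓ
    exact perturbW_apOfModel W _ _ (Dvd.dvd.mul_right hℓ k₄) (Dvd.dvd.mul_right hℓ k₆)

/-- Reductions agree modulo `ℓ` ⇒ discriminants agree modulo `ℓ`. -/
lemma dvd_Δ_iff_of_reductionMod_eq {W W' : WeierstrassCurve ℤ} {ℓ : ℕ}
    (h : W'.reductionMod ℓ = W.reductionMod ℓ) : (ℓ : ℤ) ∣ W'.Δ ↔ (ℓ : ℤ) ∣ W.Δ := by
  have h1 : ((W'.Δ : ℤ) : ZMod ℓ) = ((W.Δ : ℤ) : ZMod ℓ) := by
    have := congrArg WeierstrassCurve.Δ h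
    simpa [WeierstrassCurve.reductionMod, WeierstrassCurve.map_Δ] using this
  rw [← ZMod.intCast_zmod_eq_zero_iff_dvd, ← ZMod.intCast_zmod_eq_zero_iff_dvd, h1]

/-- Reductions agree modulo `ℓ` ⇒ the invariants `c₄` agree modulo `ℓ`. -/
lemma dvd_c₄_iff_of_reductionMod_eq {W W' : WeierstrassCurve ℤ} {ℓ : ℕ}
    (h : W'.reductionMod ℓ = W.reductionMod ℓ) : (ℓ : ℤ) ∣ W'.c₄ ↔ (ℓ : ℤ) ∣ W.c₄ := by
  have h1 : ((W'.c₄ : ℤ) : ZMod ℓ) = ((W.c₄ : ℤ) : ZMod ℓ) := by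
    have := congrArg WeierstrassCurve.c₄ h
    simpa [WeierstrassCurve.reductionMod, WeierstrassCurve.map_c₄] using this
  rw [← ZMod.intCast_zmod_eq_zero_iff_dvd, ← ZMod.intCast_zmod_eq_zero_iff_dvd, h1]

/-- (D1, abstract form with Rubin–Silverberg-type data) Let `W` be a semistable integral model
with `Δ ≠ 0`, and let `t` be divisible by `1728 * 30 * Δ`. Suppose integers `rH rT rF` satisfy
`rH ≡ -c₄`, `rT ≡ -c₆`, `rF ≡ 1` modulo `t`, the relation `rT² + rH³ = (c₆² - c₄³) rF⁵`, and the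
coprimality `ℓ ∤ t, ℓ ∣ rF ⇒ ℓ ∤ rH`. Then there is a semistable integral model `W'` with
`c₄' = -rH`, `c₆' = -rT`, `Δ' = Δ rF⁵ ≠ 0` which agrees with `W` modulo every prime dividing
`t` (in particular modulo `2`, `3`, `5` and the bad primes of `W`). -/
theorem exists_perturbed_model (W : WeierstrassCurve ℤ) (hΔ : W.Δ ≠ 0)
    (hW : W.IsSemistableModel) (t rH rT rF : ℤ) (ht : 1728 * 30 * W.Δ ∣ t)
    (hH : t ∣ rH - (-W.c₄)) (hT : t ∣ rT - (-W.c₆)) (hF : t ∣ rF - 1)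
    (hrel : rT ^ 2 + rH ^ 3 = ((-W.c₆) ^ 2 + (-W.c₄) ^ 3) * rF ^ 5)
    (hcop : ∀ ℓ : ℕ, ℓ.Prime → ¬ (ℓ : ℤ) ∣ t → (ℓ : ℤ) ∣ rF → ¬ (ℓ : ℤ) ∣ rH) :
    ∃ W' : WeierstrassCurve ℤ, W'.c₄ = -rH ∧ W'.c₆ = -rT ∧ W'.Δ = W.Δ * rF ^ 5 ∧ W'.Δ ≠ 0 ∧
      W'.IsSemistableModel ∧
      (∀ ℓ : ℕ, ℓ.Prime → (ℓ : ℤ) ∣ t → W'.reductionMod ℓ = W.reductionMod ℓ) ∧
      (∀ ℓ : ℕ, ℓ.Prime → (ℓ : ℤ) ∣ t → W'.apOfModel ℓ = W.apOfModel ℓ) := by
  obtain ⟨s, hs⟩ := ht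
  set M : ℤ := 30 * W.Δ * s with hM
  have htM : t = 1728 * M := by rw [hs, hM]; ring
  have h4 : 1728 * M ∣ (-rH) - W.c₄ := by
    rw [← htM]
    have : (-rH) - W.c₄ = -(rH - (-W.c₄)) := by ring
    rw [this]
    exact (dvd_neg).2 hH
  have h6 : 1728 * M ∣ (-rT) - W.c₆ := by
    rw [← htM]
    have : (-rT) - W.c₆ = -(rT - (-W.c₆)) := by ring
    rw [this]
    exact (dvd_neg).2 hT
  obtain ⟨W', hc4, hc6, hrelΔ, hred, hap⟩ := exists_model_of_congr W M (-rH) (-rT) h4 h6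
  -- primes dividing `t` divide `M`
  have hprime_dvd : ∀ ℓ : ℕ, ℓ.Prime → (ℓ : ℤ) ∣ t → (ℓ : ℤ) ∣ M := by
    intro ℓ hℓ hdvd
    have hℓ' : Prime (ℓ : ℤ) := Nat.prime_iff_prime_int.mp hℓ
    rw [htM] at hdvd
    rcases hℓ'.dvd_or_dvd hdvd with h | h
    · -- `ℓ ∣ 1728 = 2^6 * 3^3`
      have h1728 : (1728 : ℤ) = 2 ^ 6 * 3 ^ 3 := by norm_num
      rw [h1728] at h
      have h30 : (ℓ : ℤ) ∣ 30 := by
        rcases hℓ'.dvd_or_dvd h with h2 | h3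
        · exact (hℓ'.dvd_of_dvd_pow h2).trans ⟨15, by norm_num⟩
        · exact (hℓ'.dvd_of_dvd_pow h3).trans ⟨10, by norm_num⟩
      rw [hM, mul_assoc]
      exact Dvd.dvd.mul_right h30 _
    · exact h
  have hΔ' : W'.Δ = W.Δ * rF ^ 5 := by
    have h1 : 1728 * W'.Δ = 1728 * (W.Δ * rF ^ 5) := by
      rw [hrelΔ]
      have h2 := W.c_relation
      have h3 : (-rH) ^ 3 - (-rT) ^ 2 = -(rT ^ 2 + rH ^ 3) := by ring
      rw [h3, hrel]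
      linear_combination (-(rF ^ 5)) * h2
    exact mul_left_cancel₀ (by norm_num : (1728 : ℤ) ≠ 0) h1
  have hrF : rF ≠ 0 := by
    intro h0
    rw [h0, zero_sub] at hF
    have hu : IsUnit t := isUnit_of_dvd_unit hF (isUnit_one.neg)
    have h1728 : (1728 : ℤ) ∣ t := ⟨M, htM⟩
    have hu' : IsUnit (1728 : ℤ) := isUnit_of_dvd_unit h1728 hu
    rw [Int.isUnit_iff] at hu'
    rcases hu' with h | h <;> norm_num at h
  have hΔ'0 : W'.Δ ≠ 0 := by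
    rw [hΔ']
    exact mul_ne_zero hΔ (pow_ne_zero _ hrF)
  refine ⟨W', hc4, hc6, hΔ', hΔ'0, ?_, ?_, ?_⟩
  · intro p hp hpΔ'
    have hp' : Prime (p : ℤ) := Nat.prime_iff_prime_int.mp hp
    by_cases hpt : (p : ℤ) ∣ t
    · have hr := hred p (hprime_dvd p hp hpt)
      rw [dvd_c₄_iff_of_reductionMod_eq hr]
      exact hW p hp ((dvd_Δ_iff_of_reductionMod_eq hr).1 hpΔ')
    · have hpΔ : ¬ (p : ℤ) ∣ W.Δ := by
        intro h
        apply hpt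
        rw [hs]
        exact Dvd.dvd.mul_right (Dvd.dvd.mul_left h _) _
      rw [hΔ'] at hpΔ'
      have hpF : (p : ℤ) ∣ rF := by
        rcases hp'.dvd_or_dvd hpΔ' with h | h
        · exact absurd h hpΔ
        · exact hp'.dvd_of_dvd_pow h
      rw [hc4, dvd_neg]
      exact hcop p hp hpt hpF
  · intro ℓ hℓ hdvd
    exact hred ℓ (hprime_dvd ℓ hℓ hdvd)
  · intro ℓ hℓ hdvd
    exact hap ℓ (hprime_dvd ℓ hℓ hdvd)

end Fermat.Agent.S52
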