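/-
S52 (3-5 switch), piece (D2c) (helper91):
if the mod-3 representation of an integral Weierstrass curve `W` is reducible, then the quartic
`Z^4 - 6 c₄ Z^2 - 8 c₆ Z - 3 c₄^2` has an INTEGER root (`Z = 12 x + b₂` for a rational root `x` of `ψ₃`).
-/
import Fermat.Agent.S51.T3
import Fermat.Prelude.Def_FLTPrelim_ModularRep

set_option autoImplicit false

open WeierstrassCurve

namespace Fermat.Agent.S52

/-- The key polynomial identity: with `Z = 12 x + b₂`,
`Z^4 - 6 c₄ Z^2 - 8 c₆ Z - 3 c₄^2 = 6912 ψ₃(x)`. -/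
theorem psi3_quartic_identity {R : Type*} [CommRing R] (W : WeierstrassCurve R) (x : R) :
    (12 * x + W.b₂) ^ 4 - 6 * W.c₄ * (12 * x + W.b₂) ^ 2 - 8 * W.c₆ * (12 * x + W.b₂)
        - 3 * W.c₄ ^ 2
      = 6912 * (3 * x ^ 4 + W.b₂ * x ^ 3 + 3 * W.b₄ * x ^ 2 + 3 * W.b₆ * x + W.b₈) := by
  have hb := W.b_relation
  simp only [WeierstrassCurve.c₄, WeierstrassCurve.c₆]
  linear_combination (-1728) * hb

/-- A rational root of a monic integral quartic `Z^4 + a Z^2 + b Z + c` is an integer. -/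
theorem exists_int_of_rat_root_quartic (a b c : ℤ) (z : ℚ)
    (hz : z ^ 4 + (a : ℚ) * z ^ 2 + (b : ℚ) * z + (c : ℚ) = 0) :
    ∃ Z : ℤ, (Z : ℚ) = z := by
  have hint : IsIntegral ℤ z := by
    refine ⟨Polynomial.X ^ 4 + Polynomial.C a * Polynomial.X ^ 2 + Polynomial.C b * Polynomial.X
      + Polynomial.C c, ?_, ?_⟩
    · have h1 : (Polynomial.C a * Polynomial.X ^ 2 + Polynomial.C b * Polynomial.X
          + Polynomial.C c : Polynomial ℤ).degree < 4 := by
        refine lt_of_le_of_lt (Polynomial.degree_add_le _ _) (max_lt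
          (lt_of_le_of_lt (Polynomial.degree_add_le _ _) (max_lt ?_ ?_)) ?_)
        · exact lt_of_le_of_lt (Polynomial.degree_C_mul_X_pow_le 2 a) (by norm_num)
        · exact lt_of_le_of_lt (Polynomial.degree_C_mul_X_le b) (by norm_num)
        · exact lt_of_le_of_lt Polynomial.degree_C_le (by norm_num)
      have : (Polynomial.X ^ 4 + Polynomial.C a * Polynomial.X ^ 2 + Polynomial.C b * Polynomial.X
          + Polynomial.C c : Polynomial ℤ)
          = Polynomial.X ^ 4 + (Polynomial.C a * Polynomial.X ^ 2 + Polynomial.C b * Polynomial.X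
            + Polynomial.C c) := by ring
      rw [this]
      exact Polynomial.monic_X_pow_add h1
    · simp only [Polynomial.eval₂_add, Polynomial.eval₂_mul, Polynomial.eval₂_pow,
        Polynomial.eval₂_X, Polynomial.eval₂_C]
      simpa using hz
  obtain ⟨Z, hZ⟩ := IsIntegrallyClosed.isIntegral_iff.mp hint
  exact ⟨Z, by simpa using hZ⟩

/-- (D2c) If the mod-3 representation of `W` is not irreducible, the quartic
`Z^4 - 6 c₄ Z^2 - 8 c₆ Z - 3 c₄^2` has an integer root. -/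
theorem exists_int_root_quartic_of_not_irreducible_three (W : WeierstrassCurve ℤ) (hΔ : W.Δ ≠ 0)
    (h : ¬ W.ModRepIsIrreducible 3) :
    ∃ Z : ℤ, Z ^ 4 - 6 * W.c₄ * Z ^ 2 - 8 * W.c₆ * Z - 3 * W.c₄ ^ 2 = 0 := by
  set E : WeierstrassCurve ℚ := W.map (Int.castRingHom ℚ) with hE
  have hΔE : E.Δ ≠ 0 := by
    rw [hE, WeierstrassCurve.map_Δ]
    simpa using hΔ
  obtain ⟨x, hx⟩ := Fermat.Agent.S51.T3_exists_root E hΔE h
  have hid := psi3_quartic_identity E x
  rw [hx, mul_zero] at hid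
  have hc4 : E.c₄ = ((W.c₄ : ℤ) : ℚ) := by rw [hE, WeierstrassCurve.map_c₄]; simp
  have hc6 : E.c₆ = ((W.c₆ : ℤ) : ℚ) := by rw [hE, WeierstrassCurve.map_c₆]; simp
  have hz : (12 * x + E.b₂) ^ 4 + ((-6 * W.c₄ : ℤ) : ℚ) * (12 * x + E.b₂) ^ 2
      + ((-8 * W.c₆ : ℤ) : ℚ) * (12 * x + E.b₂) + ((-3 * W.c₄ ^ 2 : ℤ) : ℚ) = 0 := by
    push_cast
    rw [← hc4, ← hc6]
    linear_combination hid
  obtain ⟨Z, hZ⟩ := exists_int_of_rat_root_quartic _ _ _ _ hz
  refine ⟨Z, ?_⟩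
  have : ((Z ^ 4 - 6 * W.c₄ * Z ^ 2 - 8 * W.c₆ * Z - 3 * W.c₄ ^ 2 : ℤ) : ℚ) = 0 := by
    push_cast
    rw [hZ, ← hc4, ← hc6]
    linear_combination hid
  exact_mod_cast this

/-- Same statement under the name used by helper51's (identical, earlier) version of this file. -/
theorem exists_int_root_of_not_irreducible (W : WeierstrassCurve ℤ) (hΔ : W.Δ ≠ 0)
    (h : ¬ W.ModRepIsIrreducible 3) :
    ∃ Z : ℤ, Z ^ 4 - 6 * W.c₄ * Z ^ 2 - 8 * W.c₆ * Z - 3 * W.c₄ ^ 2 = 0 :=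
  exists_int_root_quartic_of_not_irreducible_three W hΔ h

end Fermat.Agent.S52
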