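import Fermat.Agent.S52.RSRel.T2

/-!
# S52: the discriminant relation of the Rubin–Silverberg family (helper52)

`rsT² + rsH³ = (T² + H³) rsF⁵`, proved in stages (`RSRel/F2 … T2`) to keep the peak memory of
`ring` small.
-/

set_option autoImplicit false
set_option maxHeartbeats 0
set_option maxRecDepth 1000000

namespace Fermat.Agent.S52

variable {R : Type*} [CommRing R]

theorem rs_rel_expanded (H T t : R) :
    rsT2 H T t + rsH3 H T t = (T ^ 2 + H ^ 3) * rsF5 H T t := by
  simp only [rsT2, rsH3, rsF5]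
  ring

/-- The discriminant relation for the Rubin–Silverberg family. -/
theorem rs_rel (H T t : R) :
    rsT H T t ^ 2 + rsH H T t ^ 3 = (T ^ 2 + H ^ 3) * rsF H T t ^ 5 := by
  have e1 : rsH H T t ^ 3 = rsH3 H T t := by
    rw [← rsH2_mul_eq, ← rsH_sq_eq]; ring
  have e2 : rsF H T t ^ 5 = rsF5 H T t := by
    rw [← rsF4_mul_eq, ← rsF2_sq_eq, ← rsF_sq_eq]; ring
  rw [rsT_sq_eq, e1, e2]
  exact rs_rel_expanded H T t

end Fermat.Agent.S52
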