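import Fermat.Agent.S52.Iface3
import Fermat.Agent.S52.Perturb
import Fermat.Agent.S52.Psi3
import Fermat.Agent.S52.ShortModel
import Fermat.Agent.S52.RSRel

/-!
# S52 (3-5 switch): final assembly from the inputs (helper72)

`s52_of_inputs : KleinCongr → NoSection → RSCoprime → (frozen statement of S52)`.

The curve `W'` is the member `W_t` of the Rubin–Silverberg family of `W`, for a suitable
`t = |1728 · 30 · Δ| · s`:
* `W_t` is semistable with `Δ ≠ 0` and agrees with `W` modulo all primes dividing `t` (D1);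
* for `ℓ ∤ t` (so `ℓ ≥ 7`) both `a_ℓ` are traces of short models (E) and these are congruent
  modulo `5` (C);
* if `ρ₃(W_t)` were reducible for all `s`, the quartic would have an integer root for every `s`
  (D2c), hence a root in `ℚ[t]` (D2a), contradicting (D2b).
-/

set_option autoImplicit false

open WeierstrassCurve Polynomial

namespace Fermat.Agent.S52

/-- casting the Rubin–Silverberg polynomials to `ZMod ℓ` -/
theorem rs_cast (ℓ : ℕ) (H₀ T₀ t : ℤ) :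
    ((rsH H₀ T₀ t : ℤ) : ZMod ℓ) = rsH (H₀ : ZMod ℓ) (T₀ : ZMod ℓ) (t : ZMod ℓ) ∧
    ((rsT H₀ T₀ t : ℤ) : ZMod ℓ) = rsT (H₀ : ZMod ℓ) (T₀ : ZMod ℓ) (t : ZMod ℓ) ∧
    ((rsF H₀ T₀ t : ℤ) : ZMod ℓ) = rsF (H₀ : ZMod ℓ) (T₀ : ZMod ℓ) (t : ZMod ℓ) := by
  have h := rs_map (Int.castRingHom (ZMod ℓ)) H₀ T₀ t
  simpa only [eq_intCast] using h

/-- a prime not dividing a multiple of `30` is at least `7` -/
theorem seven_le_of_prime_not_dvd (ℓ : ℕ) (hℓ : ℓ.Prime) (t : ℤ) (h30 : (30 : ℤ) ∣ t)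
    (hℓt : ¬ (ℓ : ℤ) ∣ t) : 7 ≤ ℓ := by
  by_contra hlt
  have hle : ℓ ≤ 6 := by omega
  have h2 : (2 : ℤ) ∣ t := (by norm_num : (2 : ℤ) ∣ 30).trans h30
  have h3 : (3 : ℤ) ∣ t := (by norm_num : (3 : ℤ) ∣ 30).trans h30
  have h5 : (5 : ℤ) ∣ t := (by norm_num : (5 : ℤ) ∣ 30).trans h30
  interval_cases ℓ
  · exact absurd hℓ (by norm_num)
  · exact absurd hℓ (by norm_num)
  · exact hℓt (by exact_mod_cast h2)
  · exact hℓt (by exact_mod_cast h3)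
  · exact absurd hℓ (by norm_num)
  · exact hℓt (by exact_mod_cast h5)
  · exact absurd hℓ (by norm_num)

/-- **S52 from its inputs.** -/
theorem s52_of_inputs (hC : KleinCongr) (hG : NoSection) (hcop : RSCoprime)
    (W : WeierstrassCurve ℤ) (hΔ : W.Δ ≠ 0) (hW : W.IsSemistableModel) :
    ∃ W' : WeierstrassCurve ℤ, W'.Δ ≠ 0 ∧ W'.IsSemistableModel ∧ W'.ModRepIsIrreducible 3 ∧
      ∀ ℓ : ℕ, ℓ.Prime → W.IsGoodPrimeFor ℓ → W'.IsGoodPrimeFor ℓ → ℓ ≠ 5 →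
        (5 : ℤ) ∣ (W'.apOfModel ℓ - W.apOfModel ℓ) := by
  -- invariants
  obtain ⟨H₀, hH₀⟩ : ∃ H₀ : ℤ, H₀ = -W.c₄ := ⟨_, rfl⟩
  obtain ⟨T₀, hT₀⟩ : ∃ T₀ : ℤ, T₀ = -W.c₆ := ⟨_, rfl⟩
  have hD : T₀ ^ 2 + H₀ ^ 3 = -(1728 * W.Δ) := by
    have h := W.c_relation
    rw [hH₀, hT₀]
    linear_combination h
  have hD0 : T₀ ^ 2 + H₀ ^ 3 ≠ 0 := by
    rw [hD]
    exact neg_ne_zero.2 (mul_ne_zero (by norm_num) hΔ)
  -- the modulus
  obtain ⟨M₀, hM₀⟩ : ∃ M₀ : ℕ, M₀ = (1728 * 30 * W.Δ).natAbs := ⟨_, rfl⟩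
  have hM₀pos : 0 < M₀ := by
    rw [hM₀]
    exact Int.natAbs_pos.2 (mul_ne_zero (by norm_num) hΔ)
  obtain ⟨s, -, hnoroot⟩ :=
    rsQuartic_exists_no_int_root H₀ T₀ hD0 (hG H₀ T₀ hD0) M₀ hM₀pos 1
  obtain ⟨t, ht⟩ : ∃ t : ℤ, t = (M₀ : ℤ) * s := ⟨_, rfl⟩
  rw [← ht] at hnoroot
  have htdvd : 1728 * 30 * W.Δ ∣ t := by
    have h1 : (1728 * 30 * W.Δ) ∣ (M₀ : ℤ) := by
      rw [hM₀]
      exact Int.dvd_natAbs.2 dvd_rfl
    rw [ht]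
    exact Dvd.dvd.mul_right h1 _
  have h30t : (30 : ℤ) ∣ t := (Dvd.intro_left (1728 : ℤ) rfl |>.mul_right W.Δ).trans htdvd
  have hDt : (T₀ ^ 2 + H₀ ^ 3) ∣ t := by
    rw [hD]
    refine (neg_dvd).2 ?_
    have : 1728 * W.Δ ∣ 1728 * 30 * W.Δ := ⟨30, by ring⟩
    exact this.trans htdvd
  -- the perturbed model
  obtain ⟨W', hc4, hc6, hΔ', hΔ'0, hss, -, hap⟩ :=
    exists_perturbed_model W hΔ hW t (rsH H₀ T₀ t) (rsT H₀ T₀ t) (rsF H₀ T₀ t) htdvd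
      ⟨rsHq H₀ T₀ t, by rw [rsH_eq, hH₀]; ring⟩ ⟨rsTq H₀ T₀ t, by rw [rsT_eq, hT₀]; ring⟩
      ⟨rsFq H₀ T₀ t, by rw [rsF_eq]; ring⟩
      (by rw [← hH₀, ← hT₀]; exact rs_rel H₀ T₀ t)
      (fun ℓ hℓ hℓt hℓF => hcop H₀ T₀ t ℓ hℓ (fun h => hℓt (h.trans h30t))
        (fun h => hℓt (h.trans hDt)) hℓt hℓF)
  refine ⟨W', hΔ'0, hss, ?_, ?_⟩
  · -- irreducibility of the mod 3 representation
    by_contra h3
    obtain ⟨Z, hZ⟩ := exists_int_root_quartic_of_not_irreducible_three W' hΔ'0 h3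
    rw [hc4, hc6] at hZ
    apply hnoroot Z
    simp only [rsQuarticAt]
    linear_combination hZ
  · -- the congruence modulo 5
    intro ℓ hℓ _ hgW' _
    by_cases hℓt : (ℓ : ℤ) ∣ t
    · rw [hap ℓ hℓ hℓt, sub_self]
      exact dvd_zero _
    · have hℓ7 : 7 ≤ ℓ := seven_le_of_prime_not_dvd ℓ hℓ t h30t hℓt
      have : Fact ℓ.Prime := ⟨hℓ⟩
      obtain ⟨eH, eT, eF⟩ := rs_cast ℓ H₀ T₀ t
      have hDmod : (T₀ : ZMod ℓ) ^ (2 : ℕ) + (H₀ : ZMod ℓ) ^ (3 : ℕ) ≠ 0 := by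
        intro h0
        apply hℓt
        have h1 : (((T₀ ^ 2 + H₀ ^ 3 : ℤ)) : ZMod ℓ) = 0 := by push_cast; exact h0
        exact ((ZMod.intCast_zmod_eq_zero_iff_dvd _ ℓ).1 h1).trans hDt
      have hFmod : rsF (H₀ : ZMod ℓ) (T₀ : ZMod ℓ) (t : ZMod ℓ) ≠ 0 := by
        intro h0
        rw [← eF] at h0
        have h1 := (ZMod.intCast_zmod_eq_zero_iff_dvd _ ℓ).1 h0
        apply hgW'
        rw [hΔ']
        exact Dvd.dvd.mul_left (Dvd.dvd.pow h1 (by norm_num)) _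
      have key := hC ℓ hℓ7 (H₀ : ZMod ℓ) (T₀ : ZMod ℓ) (t : ZMod ℓ) hDmod hFmod
      rw [apOfModel_eq_shortW W' ℓ (by omega), apOfModel_eq_shortW W ℓ (by omega), hc4, hc6]
      have e1 : -27 * (((-rsH H₀ T₀ t : ℤ)) : ZMod ℓ)
          = 27 * rsH (H₀ : ZMod ℓ) (T₀ : ZMod ℓ) (t : ZMod ℓ) := by
        rw [← eH]; push_cast; ring
      have e2 : -54 * (((-rsT H₀ T₀ t : ℤ)) : ZMod ℓ)
          = 54 * rsT (H₀ : ZMod ℓ) (T₀ : ZMod ℓ) (t : ZMod ℓ) := by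
        rw [← eT]; push_cast; ring
      have e3 : -27 * ((W.c₄ : ℤ) : ZMod ℓ) = 27 * (H₀ : ZMod ℓ) := by
        rw [hH₀]; push_cast; ring
      have e4 : -54 * ((W.c₆ : ℤ) : ZMod ℓ) = 54 * (T₀ : ZMod ℓ) := by
        rw [hT₀]; push_cast; ring
      rw [e1, e2, e3, e4]
      exact key

end Fermat.Agent.S52
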