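import Fermat.Agent.S51.TorsionFive

/-!
# S52: `5`-torsion of a Weierstrass curve over a field with `2 ≠ 0`, `5 ≠ 0` (helper48)

Characteristic-free version of `S51/TorsionFive.lean` (which assumes `CharZero`):

* `torsionFive_zsmul_some_eq_zero_iff` : `5 • P = 0 ↔ Ψ₅(x(P)) = 0` for affine `P`, if `2 ≠ 0`;
* `torsionFive_card_le` : `#E(F)[5] ≤ 25` if `2 ≠ 0` and `5 ≠ 0` in `F`;
* `torsionFive_exists_eq_zsmul_add` : in an abelian group with `#G[5] ≤ 25`, if `P` has order `5`
  and `Q ∉ ⟨P⟩` is killed by `5`, then every `R` killed by `5` is `a • P + b • Q`.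
-/

set_option autoImplicit false

open Polynomial

namespace Fermat.Agent.S52

open WeierstrassCurve WeierstrassCurve.Affine Fermat.Agent.S51Torsion

section Curve

variable {F : Type*} [Field F] {W : WeierstrassCurve.Affine F}

/-- If `2P = 0` (i.e. `Ψ₂Sq(x) = 0`) at a nonsingular point then `Ψ₃(x) ≠ 0` (`2 ≠ 0`). -/
lemma torsionFive_psi3F_ne_zero (h2 : (2 : F) ≠ 0) {x y : F} (h : W.Nonsingular x y)
    (hf : fF W x = 0) : psi3F W x ≠ 0 := by
  have hw : 2 * y + W.a₁ * x + W.a₃ = 0 := by
    have := fF_eq_sq h.1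
    rw [hf] at this
    exact (sq_eq_zero_iff.mp this.symm)
  have hX : W.a₁ * y - (3 * x ^ 2 + 2 * W.a₂ * x + W.a₄) ≠ 0 := by
    rcases ((nonsingular_iff' x y).mp h).2 with h1 | h1
    · exact h1
    · exact absurd hw h1
  intro h3
  have h16 := ident_psi3 W x
  rw [h3, hf] at h16
  have hd : (12 * x ^ 2 + 2 * W.b₂ * x + 2 * W.b₄)
      = -4 * (W.a₁ * y - (3 * x ^ 2 + 2 * W.a₂ * x + W.a₄)) := by
    simp only [WeierstrassCurve.b₂, WeierstrassCurve.b₄]
    linear_combination (2 * W.a₁) * hw
  rw [hd] at h16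
  have h16ne : (16 : F) ≠ 0 := by
    have : (16 : F) = 2 ^ 4 := by norm_num
    rw [this]
    exact pow_ne_zero 4 h2
  have : (W.a₁ * y - (3 * x ^ 2 + 2 * W.a₂ * x + W.a₄)) ^ 2 = 0 := by
    have h16' : (16 : F) * (W.a₁ * y - (3 * x ^ 2 + 2 * W.a₂ * x + W.a₄)) ^ 2 = 0 := by
      linear_combination h16
    rcases mul_eq_zero.mp h16' with h0 | h0
    · exact absurd h0 h16ne
    · exact h0
  exact hX (sq_eq_zero_iff.mp this)

variable [DecidableEq F]

/-- `3P = 0 ↔ Ψ₃(x(P)) = 0` for an affine point `P` (`2 ≠ 0`). -/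
theorem torsionFive_three_zsmul_some_eq_zero_iff (h2 : (2 : F) ≠ 0) {x y : F}
    (h : W.Nonsingular x y) :
    (3 : ℤ) • (Point.some x y h) = 0 ↔ psi3F W x = 0 := by
  rw [three_zsmul_eq_zero_iff_add_self]
  by_cases hy : y = W.negY x y
  · have hPP : Point.some x y h + Point.some x y h = 0 := Point.add_self_of_Y_eq hy
    have hf : fF W x = 0 := (eq_negY_iff h.1).mp hy
    rw [hPP]
    constructor
    · intro h0
      exact absurd (neg_eq_zero.mp h0.symm) (Point.some_ne_zero h)
    · intro h3
      exact absurd h3 (torsionFive_psi3F_ne_zero h2 h hf)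
  · have hPP := Point.add_self_of_Y_ne (h₁ := h) hy
    have hf : fF W x ≠ 0 := fun h0 => hy ((eq_negY_iff h.1).mpr h0)
    have hdup := dup_X h.1 hy
    rw [phiF_eq] at hdup
    constructor
    · intro h2
      rw [hPP, Point.neg_some, Point.some.injEq] at h2
      rw [h2.1] at hdup
      linear_combination hdup
    · intro hψ
      rw [hψ, sub_zero] at hdup
      have hx : W.addX x x (W.slope x x y y) = x := mul_right_cancel₀ hf hdup
      rw [hPP]
      rcases (Point.X_eq_iff (h₁ := nonsingular_add h h fun hxy => hy hxy.right) (h₂ := h)).mp hx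
        with h1 | h1
      · exfalso
        rw [← hPP] at h1
        have : Point.some x y h = 0 := by
          have := congrArg (fun Q => Q - Point.some x y h) h1
          simp at this
        exact Point.some_ne_zero h this
      · exact h1

/-- `5P = 0 ↔ Ψ₅(x(P)) = 0` for an affine point `P` (`2 ≠ 0`). -/
theorem torsionFive_zsmul_some_eq_zero_iff (h2 : (2 : F) ≠ 0) {x y : F}
    (h : W.Nonsingular x y) :
    (5 : ℤ) • (Point.some x y h) = 0 ↔ psi5F W x = 0 := by
  rw [five_zsmul_eq_zero_iff]
  have hP0 : Point.some x y h ≠ 0 := Point.some_ne_zero h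
  rcases double_cases h with ⟨hf, hPP⟩ | ⟨hf, x₂, y₂, h₂, hPP, hdup⟩
  · -- `2P = 0`
    rw [hPP, add_zero]
    constructor
    · intro h0
      exact absurd (neg_eq_zero.mp h0.symm) hP0
    · intro h5
      exfalso
      have h3 := torsionFive_psi3F_ne_zero h2 h hf
      simp only [psi5F, hf] at h5
      have : psi3F W x ^ 3 = 0 := by linear_combination -h5
      exact h3 (pow_eq_zero_iff (by norm_num) |>.mp this)
  · rw [hPP]
    have hQ0 : Point.some x₂ y₂ h₂ ≠ 0 := Point.some_ne_zero h₂
    have hfd := fF_double hdup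
    have hpd := phiF_double hdup
    -- if `Ψ₃(x) = 0` then `2P = -P`
    have h3P : psi3F W x = 0 → Point.some x₂ y₂ h₂ = -Point.some x y h := by
      intro h3
      have := (torsionFive_three_zsmul_some_eq_zero_iff h2 h).mpr h3
      rw [three_zsmul_eq_zero_iff_add_self, hPP] at this
      exact this
    rcases double_cases h₂ with ⟨hf₂, hQQ⟩ | ⟨hf₂, x₄, y₄, h₄, hQQ, hdup₂⟩
    · -- `4P = 0`
      rw [hQQ]
      have hpre : pre4F W x = 0 := by
        rw [hf₂, zero_mul] at hfd
        exact pow_eq_zero_iff (by norm_num) |>.mp hfd.symm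
      constructor
      · intro h0
        exact absurd (neg_eq_zero.mp h0.symm) hP0
      · intro h5
        exfalso
        simp only [psi5F, hpre, zero_mul, zero_sub, neg_eq_zero] at h5
        have h3 : psi3F W x = 0 := pow_eq_zero_iff (by norm_num) |>.mp h5
        have hQ := h3P h3
        have := grp_aux1 _ _ hQ hQQ
        rw [hPP] at this
        exact hQ0 this
    · rw [hQQ]
      constructor
      · intro h4
        rw [Point.neg_some, Point.some.injEq] at h4
        have hx4 : x₄ = x := h4.1
        rw [hx4] at hdup₂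
        have hprod : psi3F W x * psi5F W x = 0 := by
          have : (phiF W x₂ - x * fF W x₂) * fF W x ^ 4 = 0 := by
            rw [hdup₂, sub_self, zero_mul]
          rw [this] at hpd
          exact neg_eq_zero.mp hpd.symm
        rcases mul_eq_zero.mp hprod with h3 | h5
        · exfalso
          have hQ := h3P h3
          have h4' : Point.some x₂ y₂ h₂ + Point.some x₂ y₂ h₂ = -Point.some x y h := by
            rw [hQQ, Point.neg_some, Point.some.injEq]
            exact ⟨hx4, h4.2⟩
          exact hP0 (grp_aux2 _ _ hQ h4')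
        · exact h5
      · intro h5
        have hx4 : x₄ = x := by
          have h1 : (phiF W x₂ - x * fF W x₂) * fF W x ^ 4 = 0 := by
            rw [hpd, h5, mul_zero, neg_zero]
          have h2 : phiF W x₂ - x * fF W x₂ = 0 := by
            rcases mul_eq_zero.mp h1 with h2 | h2
            · exact h2
            · exact absurd (pow_eq_zero_iff (by norm_num) |>.mp h2) hf
          have h3 : x₄ * fF W x₂ = x * fF W x₂ := by
            rw [hdup₂]; linear_combination h2
          exact mul_right_cancel₀ hf₂ h3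
        rcases (Point.X_eq_iff (h₁ := h₄) (h₂ := h)).mp hx4 with h1 | h1
        · exfalso
          have h3 : psi3F W x = 0 := by
            apply (torsionFive_three_zsmul_some_eq_zero_iff h2 h).mp
            rw [three_zsmul_eq_zero_iff_add_self, hPP]
            have hQQ' : Point.some x₂ y₂ h₂ + Point.some x₂ y₂ h₂ = Point.some x y h := by
              rw [hQQ, h1]
            exact grp_aux3 _ _ hPP hQQ'
          have hpre : pre4F W x = 0 := by
            simp only [psi5F, h3] at h5
            have h6 : pre4F W x * fF W x ^ 2 = 0 := by linear_combination h5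
            rcases mul_eq_zero.mp h6 with h7 | h7
            · exact h7
            · exact absurd (pow_eq_zero_iff (by norm_num) |>.mp h7) hf
          rw [hpre] at hfd
          have h8 : fF W x₂ * fF W x ^ 3 = 0 := by rw [hfd]; ring
          rcases mul_eq_zero.mp h8 with h9 | h9
          · exact hf₂ h9
          · exact absurd (pow_eq_zero_iff (by norm_num) |>.mp h9) hf
        · exact h1

omit [DecidableEq F] in
lemma torsionFive_natDegree_preΨ' (h5 : (5 : F) ≠ 0) : (W.preΨ' 5).natDegree = 12 := by
  have h5' : ((5 : ℕ) : F) ≠ 0 := by exact_mod_cast h5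
  rw [W.natDegree_preΨ' h5']
  have : ¬ Even 5 := by decide
  simp [this]

/-- `E(F)[5]` has at most `25` elements, if `2 ≠ 0` and `5 ≠ 0` in `F`. -/
theorem torsionFive_card_le (h2 : (2 : F) ≠ 0) (h5 : (5 : F) ≠ 0) :
    Finite (Submodule.torsionBy ℤ W.Point ((5 : ℕ) : ℤ)) ∧
      Nat.card (Submodule.torsionBy ℤ W.Point ((5 : ℕ) : ℤ)) ≤ 25 := by
  have h5' : ((5 : ℕ) : F) ≠ 0 := by exact_mod_cast h5
  have := card_torsionBy_le (W := W) ((5 : ℕ) : ℤ) (W.preΨ' 5) (W.preΨ'_ne_zero h5') (by
    intro x y h h0
    rw [eval_preΨ'_five]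
    exact (torsionFive_zsmul_some_eq_zero_iff h2 h).mp (by simpa using h0))
  rw [torsionFive_natDegree_preΨ' h5] at this
  exact this

end Curve

end Fermat.Agent.S52
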