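import Mathlib

/-!
# S52: a group with `#G[5] ≤ 25` containing independent `P, Q` of order `5` has `G[5] = ⟨P, Q⟩`
(helper48)

* `torsionFive_exists_fin` : every `R` with `5 • R = 0` is `a • P + b • Q` with `a, b < 5`;
* `torsionFive_exists_eq_zsmul_add` : the same with integer coefficients.
-/

set_option autoImplicit false

namespace Fermat.Agent.S52

variable {G : Type*} [AddCommGroup G]

/-- An integer `d` with `|d| < 5`, `d ≠ 0`, and `d • X ∈ H`, `5 • X = 0` gives `X ∈ H`. -/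
lemma torsionFive_mem_of_zsmul_mem (H : AddSubgroup G) {X : G} (h5 : (5 : ℤ) • X = 0) {d : ℤ}
    (hd0 : d ≠ 0) (hd : |d| < 5) (hX : d • X ∈ H) : X ∈ H := by
  have hcop : IsCoprime d 5 := by
    have h5p : Prime (5 : ℤ) := by
      rw [Int.prime_iff_natAbs_prime]; norm_num
    rw [isCoprime_comm]
    refine (Prime.coprime_iff_not_dvd h5p).mpr fun hdvd => ?_
    have := Int.le_of_dvd (abs_pos.mpr hd0) ((dvd_abs _ _).mpr hdvd)
    omega
  obtain ⟨u, v, huv⟩ := hcop
  have : X = u • (d • X) + v • ((5 : ℤ) • X) := by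
    rw [smul_smul, smul_smul, ← add_smul, huv, one_smul]
  rw [this, h5, smul_zero, add_zero]
  exact H.zsmul_mem hX u

theorem torsionFive_exists_fin {P Q : G} (hP : (5 : ℤ) • P = 0) (hQ : (5 : ℤ) • Q = 0)
    (hP0 : P ≠ 0) (hQP : Q ∉ AddSubgroup.zmultiples P)
    (hfin : Finite (Submodule.torsionBy ℤ G ((5 : ℕ) : ℤ)))
    (hcard : Nat.card (Submodule.torsionBy ℤ G ((5 : ℕ) : ℤ)) ≤ 25)
    {R : G} (hR : (5 : ℤ) • R = 0) :
    ∃ a b : Fin 5, R = ((a : ℕ) : ℤ) • P + ((b : ℕ) : ℤ) • Q := by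
  classical
  let f : Fin 5 × Fin 5 → Submodule.torsionBy ℤ G ((5 : ℕ) : ℤ) := fun ab =>
    ⟨((ab.1 : ℕ) : ℤ) • P + ((ab.2 : ℕ) : ℤ) • Q, by
      rw [Submodule.mem_torsionBy_iff, smul_add, smul_comm, smul_comm _ _ Q]
      simp only [Nat.cast_ofNat]
      rw [hP, hQ, smul_zero, smul_zero, add_zero]⟩
  have hf : Function.Injective f := by
    rintro ⟨a, b⟩ ⟨a', b'⟩ h
    have h1 : ((a : ℕ) : ℤ) • P + ((b : ℕ) : ℤ) • Q = ((a' : ℕ) : ℤ) • P + ((b' : ℕ) : ℤ) • Q :=
      congrArg Subtype.val h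
    have h2 : (((b : ℕ) : ℤ) - ((b' : ℕ) : ℤ)) • Q = (((a' : ℕ) : ℤ) - ((a : ℕ) : ℤ)) • P := by
      rw [sub_smul, sub_smul, sub_eq_sub_iff_add_eq_add]
      rw [add_comm, ← h1, add_comm]
    have hb : b = b' := by
      by_contra hne
      apply hQP
      refine torsionFive_mem_of_zsmul_mem _ hQ (d := ((b : ℕ) : ℤ) - ((b' : ℕ) : ℤ)) ?_ ?_ ?_
      · intro h0
        apply hne
        apply Fin.ext
        have := sub_eq_zero.mp h0
        exact_mod_cast this
      · have hb5 := b.isLt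
        have hb5' := b'.isLt
        rw [abs_lt]
        constructor <;> omega
      · rw [h2]
        exact AddSubgroup.zsmul_mem _ (AddSubgroup.mem_zmultiples P) _
    subst hb
    rw [sub_self, zero_smul] at h2
    have ha : a = a' := by
      by_contra hne
      apply hP0
      have hmem : P ∈ (⊥ : AddSubgroup G) := by
        refine torsionFive_mem_of_zsmul_mem _ hP (d := ((a' : ℕ) : ℤ) - ((a : ℕ) : ℤ)) ?_ ?_ ?_
        · intro h0
          apply hne
          apply Fin.ext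
          have := sub_eq_zero.mp h0
          exact_mod_cast this.symm
        · have ha5 := a.isLt
          have ha5' := a'.isLt
          rw [abs_lt]
          constructor <;> omega
        · rw [← h2]
          exact AddSubgroup.zero_mem _
      exact (AddSubgroup.mem_bot).mp hmem
    subst ha
    rfl
  have hbij : Function.Bijective f := by
    refine hf.bijective_of_nat_card_le ?_
    refine hcard.trans ?_
    rw [Nat.card_eq_fintype_card, Fintype.card_prod, Fintype.card_fin]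
  obtain ⟨⟨a, b⟩, hab⟩ := hbij.2 ⟨R, by
    rw [Submodule.mem_torsionBy_iff]
    simpa using hR⟩
  exact ⟨a, b, (congrArg Subtype.val hab).symm⟩

theorem torsionFive_exists_eq_zsmul_add {P Q : G} (hP : (5 : ℤ) • P = 0) (hQ : (5 : ℤ) • Q = 0)
    (hP0 : P ≠ 0) (hQP : Q ∉ AddSubgroup.zmultiples P)
    (hfin : Finite (Submodule.torsionBy ℤ G ((5 : ℕ) : ℤ)))
    (hcard : Nat.card (Submodule.torsionBy ℤ G ((5 : ℕ) : ℤ)) ≤ 25)
    {R : G} (hR : (5 : ℤ) • R = 0) : ∃ a b : ℤ, R = a • P + b • Q := by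
  obtain ⟨a, b, h⟩ := torsionFive_exists_fin hP hQ hP0 hQP hfin hcard hR
  exact ⟨_, _, h⟩

/-- Variant: the hypothesis `Q ∉ ⟨P⟩` spelled out. -/
theorem torsionFive_exists_eq_zsmul_add' {P Q : G} (hP : (5 : ℤ) • P = 0) (hQ : (5 : ℤ) • Q = 0)
    (hP0 : P ≠ 0) (hQP : ∀ a : ℤ, Q ≠ a • P)
    (hfin : Finite (Submodule.torsionBy ℤ G ((5 : ℕ) : ℤ)))
    (hcard : Nat.card (Submodule.torsionBy ℤ G ((5 : ℕ) : ℤ)) ≤ 25)
    {R : G} (hR : (5 : ℤ) • R = 0) : ∃ a b : ℤ, R = a • P + b • Q :=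
  torsionFive_exists_eq_zsmul_add hP hQ hP0
    (fun hmem => by
      obtain ⟨a, ha⟩ := AddSubgroup.mem_zmultiples_iff.mp hmem
      exact hQP a ha.symm) hfin hcard hR

end Fermat.Agent.S52
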