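import Fermat.Agent.S52.Fibre
import Fermat.Agent.S52.Klein.Forms

/-!
# S52 piece (C-e), bridge: fibre of `(klH, klT)` is nonempty (in terms of helper52's Klein forms)
-/

set_option autoImplicit false

namespace Fermat.Agent.S52

variable {k : Type*} [Field k]

lemma fibH_eq_klH (u v : k) : fibH u v = klH u v := by
  simp only [fibH, klH, klHH]; ring

lemma fibT_eq_klT (u v : k) : fibT u v = klT u v := by
  simp only [fibT, klT, klTT]; ring

/-- On the fibre over `(H₀, T₀)` with `T₀² + H₀³ ≠ 0`, Klein's `f` does not vanish. -/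
lemma klf_ne_zero_of_fibre {u v H₀ T₀ : k} (hH : klH u v = H₀) (hT : klT u v = T₀)
    (h : T₀ ^ 2 + H₀ ^ 3 ≠ 0) : klf u v ≠ 0 := by
  intro hf
  apply h
  have := klT_sq_add_klH_cube u v
  rw [hf, hH, hT] at this
  rw [this]; ring

/-- **(C-e)** for Klein's forms: over an algebraically closed field with `2, 3, 5` invertible,
every `(H₀, T₀)` with `T₀² + H₀³ ≠ 0` equals `(klH u v, klT u v)` for some `u, v`
(and then automatically `klf u v ≠ 0`). -/
theorem klein_fibre_nonempty [IsAlgClosed k] (h2 : (2 : k) ≠ 0) (h3 : (3 : k) ≠ 0)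
    (h5 : (5 : k) ≠ 0) (H₀ T₀ : k) (h : T₀ ^ 2 + H₀ ^ 3 ≠ 0) :
    ∃ u v : k, klH u v = H₀ ∧ klT u v = T₀ ∧ klf u v ≠ 0 := by
  obtain ⟨u, v, hH, hT⟩ := fibre_nonempty h2 h3 h5 H₀ T₀ h
  rw [fibH_eq_klH] at hH
  rw [fibT_eq_klT] at hT
  exact ⟨u, v, hH, hT, klf_ne_zero_of_fibre hH hT h⟩

end Fermat.Agent.S52
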