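import Fermat.Agent.S52.NoSecAux
import Fermat.Agent.S52.Klein.Forms

/-!
# S52 (D2b): the end game of `NoSection` (helper72, for helper98's plan)

No polynomial `P ∈ L[x]` (`L` a field of characteristic `0`) satisfies
`P⁴ + 6 H(x,1) P² + 8 T(x,1) P - 3 H(x,1)² = 0`, where `H`, `T` are Klein's forms.
-/

set_option autoImplicit false

open Polynomial

namespace Fermat.Agent.S52

/-- The quartic relation for `P = p0 + p5 y + p10 y²` at the point `y` (`y = x⁵`). -/
def noSecF {L : Type*} [CommRing L] (p0 p5 p10 y : L) : L :=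
  rsQuarticAt (klHH y 1) (klTT y 1) (p0 + p5 * y + p10 * y ^ 2)

/-- The numerical heart: the four extreme coefficient equations are contradictory. -/
theorem noSec_numeric {L : Type*} [Field L] [CharZero L] (p0 p5 p10 : L)
    (E : ∀ y : L, noSecF p0 p5 p10 y = 0) : False := by
  have e0 := E (-4)
  have e1 := E (-3)
  have e2 := E (-2)
  have e3 := E (-1)
  have e4 := E 0
  have e5 := E 1
  have e6 := E 2
  have e7 := E 3
  have e8 := E 4
  simp only [noSecF, rsQuarticAt, klHH, klTT] at e0 e1 e2 e3 e4 e5 e6 e7 e8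
  have c0 : (p0 - 1) ^ 3 * (p0 + 3) = 0 := by linear_combination e4
  have c8 : (p10 - 1) ^ 3 * (p10 + 3) = 0 := by
    linear_combination (1 / 40320 : L) * (e0 - 8 * e1 + 28 * e2 - 56 * e3 + 70 * e4 - 56 * e5
      + 28 * e6 - 8 * e7 + e8)
  have c1 : 4 * p5 * (p0 - 1) ^ 2 * (p0 + 2) - 1368 * p0 ^ 2 - 4176 * p0 - 1368 = 0 := by
    linear_combination (1 / 840 : L) * (3 * e0 - 32 * e1 + 168 * e2 - 672 * e3 + 672 * e5
      - 168 * e6 + 32 * e7 - 3 * e8)
  have c7 : 4 * p5 * (p10 - 1) ^ 2 * (p10 + 2) + 1368 * p10 ^ 2 + 4176 * p10 + 1368 = 0 := by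
    linear_combination (1 / 10080 : L) * (-e0 + 6 * e1 - 14 * e2 + 14 * e3 - 14 * e5
      + 14 * e6 - 6 * e7 + e8)
  -- `p0 = -3`, `p5 = -18`
  have hp0 : p0 = -3 := by
    rcases mul_eq_zero.1 c0 with h | h
    · have h1 : p0 = 1 := by
        have := pow_eq_zero_iff (n := 3) (by norm_num) |>.1 h
        linear_combination this
      rw [h1] at c1
      norm_num at c1
    · linear_combination h
  have hp10 : p10 = -3 := by
    rcases mul_eq_zero.1 c8 with h | h
    · have h1 : p10 = 1 := by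
        have := pow_eq_zero_iff (n := 3) (by norm_num) |>.1 h
        linear_combination this
      rw [h1] at c7
      norm_num at c7
    · linear_combination h
  rw [hp0] at c1
  rw [hp10] at c7
  have h5a : p5 = -18 := by linear_combination (-1 / 64 : L) * c1
  have h5b : p5 = 18 := by linear_combination (-1 / 64 : L) * c7
  rw [h5a] at h5b
  norm_num at h5b

/-- naturality of `klHH` -/
theorem klHH_map {R S : Type*} [CommRing R] [CommRing S] (φ : R →+* S) (p q : R) :
    φ (klHH p q) = klHH (φ p) (φ q) := by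
  simp only [klHH, map_add, map_sub, map_mul, map_pow, map_neg, map_ofNat]

/-- naturality of `klTT` -/
theorem klTT_map {R S : Type*} [CommRing R] [CommRing S] (φ : R →+* S) (p q : R) :
    φ (klTT p q) = klTT (φ p) (φ q) := by
  simp only [klTT, map_add, map_sub, map_mul, map_pow, map_ofNat]

theorem klH_X_one_natDegree_le {L : Type*} [Field L] :
    (klH (X : L[X]) 1).natDegree ≤ 20 := by
  simp only [klH, klHH]
  compute_degree

theorem klT_X_one_natDegree_le {L : Type*} [Field L] :
    (klT (X : L[X]) 1).natDegree ≤ 30 := by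
  simp only [klT, klTT]
  compute_degree

theorem klH_X_one_comp {L : Type*} [Field L] (z : L) (hz : z ^ 5 = 1) :
    (klH (X : L[X]) 1).comp (C z * X) = klH (X : L[X]) 1 := by
  have h := klHH_map (Polynomial.compRingHom (C z * X)) ((X : L[X]) ^ 5) ((1 : L[X]) ^ 5)
  simp only [Polynomial.coe_compRingHom_apply] at h
  rw [klH, h]
  congr 1
  · rw [pow_comp, X_comp, mul_pow, ← C_pow, hz, C_1, one_mul]
  · simp

theorem klT_X_one_comp {L : Type*} [Field L] (z : L) (hz : z ^ 5 = 1) :
    (klT (X : L[X]) 1).comp (C z * X) = klT (X : L[X]) 1 := by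
  have h := klTT_map (Polynomial.compRingHom (C z * X)) ((X : L[X]) ^ 5) ((1 : L[X]) ^ 5)
  simp only [Polynomial.coe_compRingHom_apply] at h
  rw [klT, h]
  congr 1
  · rw [pow_comp, X_comp, mul_pow, ← C_pow, hz, C_1, one_mul]
  · simp

/-- A polynomial of degree `≤ 10` whose coefficients vanish away from multiples of `5`. -/
theorem noSec_eq_expand {L : Type*} [Field L] (P : L[X]) (hdeg : P.natDegree ≤ 10)
    (hcoeff : ∀ i, ¬ 5 ∣ i → P.coeff i = 0) :
    P = Polynomial.expand L 5 (C (P.coeff 0) + C (P.coeff 5) * X + C (P.coeff 10) * X ^ 2) := by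
  ext n
  simp only [map_add, map_mul, map_pow, Polynomial.expand_C, Polynomial.expand_X, coeff_add,
    coeff_C_mul, ← pow_mul, coeff_X_pow, coeff_C]
  by_cases h5 : 5 ∣ n
  · by_cases hn : n ≤ 10
    · obtain ⟨k, rfl⟩ := h5
      have hk : k ≤ 2 := by omega
      interval_cases k <;> simp
    · rw [Polynomial.coeff_eq_zero_of_natDegree_lt (by omega)]
      have h1 : n ≠ 0 := by omega
      have h2 : n ≠ 5 := by omega
      have h3 : n ≠ 10 := by omega
      simp [h1, h2, h3]
  · rw [hcoeff n h5]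
    have h1 : n ≠ 0 := fun h => h5 (h ▸ dvd_zero 5)
    have h2 : n ≠ 5 := fun h => h5 (h ▸ dvd_rfl)
    have h3 : n ≠ 10 := fun h => h5 (h ▸ ⟨2, rfl⟩)
    simp [h1, h2, h3]

/-- (Z) end game, given a primitive 5th root of unity. -/
theorem noSec_endgame_of_root {L : Type*} [Field L] [CharZero L] (z : L)
    (hz : IsPrimitiveRoot z 5) (P : L[X])
    (hP : rsQuarticAt (klH (X : L[X]) 1) (klT (X : L[X]) 1) P = 0) : False := by
  have hdeg : P.natDegree ≤ 10 :=
    noSec_natDegree_le _ _ P klH_X_one_natDegree_le klT_X_one_natDegree_le hP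
  have hcoeff := noSec_coeff_eq_zero z hz _ _ P (klH_X_one_comp z hz.pow_eq_one)
    (klT_X_one_comp z hz.pow_eq_one) hP
  have hPe := noSec_eq_expand P hdeg hcoeff
  obtain ⟨Pt, hPt⟩ : ∃ Pt : L[X],
      Pt = C (P.coeff 0) + C (P.coeff 5) * X + C (P.coeff 10) * X ^ 2 := ⟨_, rfl⟩
  rw [← hPt] at hPe
  -- undo the substitution `X ↦ X⁵`
  have hF : rsQuarticAt (klHH (X : L[X]) 1) (klTT (X : L[X]) 1) Pt = 0 := by
    apply Polynomial.expand_injective (R := L) (n := 5) (by norm_num)
    have h1 := rsQuarticAt_map (Polynomial.expand L 5 : L[X] →ₐ[L] L[X]).toRingHom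
      (klHH (X : L[X]) 1) (klTT (X : L[X]) 1) Pt
    have h2 := klHH_map (Polynomial.expand L 5 : L[X] →ₐ[L] L[X]).toRingHom (X : L[X]) 1
    have h3 := klTT_map (Polynomial.expand L 5 : L[X] →ₐ[L] L[X]).toRingHom (X : L[X]) 1
    simp only [AlgHom.toRingHom_eq_coe, RingHom.coe_coe, Polynomial.expand_X, map_one]
      at h1 h2 h3
    rw [h2, h3, ← hPe] at h1
    rw [h1, map_zero]
    simp only [klH, klT, one_pow] at hP
    exact hP
  -- evaluate
  refine noSec_numeric (P.coeff 0) (P.coeff 5) (P.coeff 10) fun y => ?_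
  have h1 := rsQuarticAt_map (Polynomial.evalRingHom y) (klHH (X : L[X]) 1)
    (klTT (X : L[X]) 1) Pt
  have h2 := klHH_map (Polynomial.evalRingHom y) (X : L[X]) 1
  have h3 := klTT_map (Polynomial.evalRingHom y) (X : L[X]) 1
  simp only [coe_evalRingHom, eval_X, eval_one] at h1 h2 h3
  rw [h2, h3, hF, eval_zero] at h1
  have h4 : Pt.eval y = P.coeff 0 + P.coeff 5 * y + P.coeff 10 * y ^ 2 := by
    rw [hPt]; simp
  rw [noSecF, ← h4]
  exact h1.symm

theorem klH_map {R S : Type*} [CommRing R] [CommRing S] (φ : R →+* S) (u v : R) :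
    φ (klH u v) = klH (φ u) (φ v) := by
  simp only [klH, klHH_map, map_pow]

theorem klT_map {R S : Type*} [CommRing R] [CommRing S] (φ : R →+* S) (u v : R) :
    φ (klT u v) = klT (φ u) (φ v) := by
  simp only [klT, klTT_map, map_pow]

/-- (Z) end game: no polynomial root of the quartic of Klein's forms `H(x, 1)`, `T(x, 1)`
over a field of characteristic zero. -/
theorem noSec_endgame {L : Type*} [Field L] [CharZero L] (P : L[X])
    (hP : rsQuarticAt (klH (X : L[X]) 1) (klT (X : L[X]) 1) P = 0) : False := by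
  have : NeZero ((5 : ℕ) : L) := ⟨Nat.cast_ne_zero.2 (by norm_num)⟩
  obtain ⟨z, hz⟩ := HasEnoughRootsOfUnity.exists_primitiveRoot (AlgebraicClosure L) 5
  have hchar : CharZero (AlgebraicClosure L) :=
    charZero_of_injective_algebraMap (algebraMap L (AlgebraicClosure L)).injective
  refine noSec_endgame_of_root z hz (P.map (algebraMap L (AlgebraicClosure L))) ?_
  have h1 := rsQuarticAt_map (mapRingHom (algebraMap L (AlgebraicClosure L)))
    (klH (X : L[X]) 1) (klT (X : L[X]) 1) P
  have h2 := klH_map (mapRingHom (algebraMap L (AlgebraicClosure L))) (X : L[X]) 1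
  have h3 := klT_map (mapRingHom (algebraMap L (AlgebraicClosure L))) (X : L[X]) 1
  simp only [coe_mapRingHom, Polynomial.map_X, Polynomial.map_one] at h1 h2 h3
  rw [h2, h3, hP, Polynomial.map_zero] at h1
  exact h1.symm

end Fermat.Agent.S52
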