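import Fermat.Agent.S52.Iface3
import Fermat.Agent.S52.NoSecEnd
import Fermat.Agent.S52.FibreKlein

/-!
# S52 (D2b): `NoSection` from the line identities (helper72)

Moebius transfer: a root `Q ∈ L[t]` of the Rubin–Silverberg quartic along the line
`w₀ + t J∇f(w₀)` gives a root `P ∈ L[x]` of the quartic of Klein's forms `H(x,1)`, `T(x,1)`,
which does not exist (`noSec_endgame`).
-/

set_option autoImplicit false

open Polynomial

namespace Fermat.Agent.S52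

/-- weighted homogeneity of the quartic -/
theorem rsQuarticAt_smul {R : Type*} [CommRing R] (c H T Z : R) :
    rsQuarticAt (c ^ 20 * H) (c ^ 30 * T) (c ^ 10 * Z) = c ^ 40 * rsQuarticAt H T Z := by
  simp only [rsQuarticAt]; ring

theorem rsH_natDegree_le {L : Type*} [Field L] (H₀ T₀ : L) :
    (rsH (C H₀) (C T₀) (X : L[X])).natDegree ≤ 20 := by
  simp only [rsH]
  compute_degree

theorem rsT_natDegree_le {L : Type*} [Field L] (H₀ T₀ : L) :
    (rsT (C H₀) (C T₀) (X : L[X])).natDegree ≤ 30 := by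
  simp only [rsT]
  compute_degree

/-- The transferred polynomial (up to the constant `D⁻¹⁰`). -/
noncomputable def noSecP1 {L : Type*} [Field L] (u₀ v₀ J₁ J₂ : L) (Q : L[X]) : L[X] :=
  ∑ i ∈ Finset.range 11,
    C (Q.coeff i) * (C u₀ - C v₀ * X) ^ i * (C J₂ * X - C J₁) ^ (10 - i)

theorem noSecP1_eval {L : Type*} [Field L] (u₀ v₀ J₁ J₂ : L) (Q : L[X])
    (hdeg : Q.natDegree ≤ 10) (x : L) (hc : J₂ * x - J₁ ≠ 0) :
    (noSecP1 u₀ v₀ J₁ J₂ Q).eval x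
      = (J₂ * x - J₁) ^ 10 * Q.eval ((u₀ - v₀ * x) / (J₂ * x - J₁)) := by
  rw [noSecP1, Polynomial.eval_finsetSum,
    Polynomial.eval_eq_sum_range' (Nat.lt_succ_of_le hdeg), Finset.mul_sum]
  refine Finset.sum_congr rfl fun i hi => ?_
  have hi' : i ≤ 10 := Nat.lt_succ_iff.1 (Finset.mem_range.1 hi)
  simp only [eval_mul, eval_C, eval_pow, eval_sub, eval_X]
  have e : (J₂ * x - J₁) ^ 10 = (J₂ * x - J₁) ^ (10 - i) * (J₂ * x - J₁) ^ i := by
    rw [← pow_add]; congr 1; omega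
  have hci : (J₂ * x - J₁) ^ i ≠ 0 := pow_ne_zero i hc
  have hr : (J₂ * x - J₁) ^ i * ((u₀ - v₀ * x) ^ i / (J₂ * x - J₁) ^ i)
      = (u₀ - v₀ * x) ^ i := by
    field_simp
  rw [e, div_pow]
  linear_combination (-(Q.coeff i * (J₂ * x - J₁) ^ (10 - i))) * hr

/-- Core of the Moebius transfer. -/
theorem noSec_transfer {L : Type*} [Field L] [CharZero L] (u₀ v₀ : L) (hf : klf u₀ v₀ ≠ 0)
    (hlineH : ∀ t : L, klH (klU u₀ v₀ t) (klV u₀ v₀ t) = rsH (klH u₀ v₀) (klT u₀ v₀) t)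
    (hlineT : ∀ t : L, klT (klU u₀ v₀ t) (klV u₀ v₀ t) = rsT (klH u₀ v₀) (klT u₀ v₀) t)
    (Q : L[X])
    (hQ : rsQuarticAt (rsH (C (klH u₀ v₀)) (C (klT u₀ v₀)) (X : L[X]))
      (rsT (C (klH u₀ v₀)) (C (klT u₀ v₀)) (X : L[X])) Q = 0) : False := by
  obtain ⟨J₁, hJ₁⟩ : ∃ J₁ : L, J₁ = u₀ * klA (u₀ ^ 5) (v₀ ^ 5) := ⟨_, rfl⟩
  obtain ⟨J₂, hJ₂⟩ : ∃ J₂ : L, J₂ = -(v₀ * klB (u₀ ^ 5) (v₀ ^ 5)) := ⟨_, rfl⟩
  obtain ⟨D, hD⟩ : ∃ D : L, D = u₀ * J₂ - v₀ * J₁ := ⟨_, rfl⟩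
  have hD12 : D = -12 * klf u₀ v₀ := by
    have := klA_add_klB (u₀ ^ 5) (v₀ ^ 5)
    rw [hD, hJ₁, hJ₂, klf]
    linear_combination (-(u₀ * v₀)) * this
  have hD0 : D ≠ 0 := by
    rw [hD12]
    exact mul_ne_zero (by norm_num) hf
  have hdeg : Q.natDegree ≤ 10 :=
    noSec_natDegree_le _ _ Q (rsH_natDegree_le _ _) (rsT_natDegree_le _ _) hQ
  -- the relation pointwise
  have hQt : ∀ t : L, rsQuarticAt (rsH (klH u₀ v₀) (klT u₀ v₀) t)
      (rsT (klH u₀ v₀) (klT u₀ v₀) t) (Q.eval t) = 0 := by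
    intro t
    have h1 := rsQuarticAt_map (Polynomial.evalRingHom t)
      (rsH (C (klH u₀ v₀)) (C (klT u₀ v₀)) (X : L[X]))
      (rsT (C (klH u₀ v₀)) (C (klT u₀ v₀)) (X : L[X])) Q
    have h2 := (rs_map (Polynomial.evalRingHom t) (C (klH u₀ v₀)) (C (klT u₀ v₀)) (X : L[X])).1
    have h3 := (rs_map (Polynomial.evalRingHom t) (C (klH u₀ v₀)) (C (klT u₀ v₀)) (X : L[X])).2.1
    simp only [coe_evalRingHom, eval_C, eval_X] at h1 h2 h3
    rw [h2, h3, hQ, eval_zero] at h1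
    exact h1.symm
  -- the transferred polynomial
  obtain ⟨P, hP⟩ : ∃ P : L[X], P = C (D⁻¹ ^ 10) * noSecP1 u₀ v₀ J₁ J₂ Q := ⟨_, rfl⟩
  have hroot : ∀ x : L, J₂ * x - J₁ ≠ 0 →
      (rsQuarticAt (klH (X : L[X]) 1) (klT (X : L[X]) 1) P).eval x = 0 := by
    intro x hc
    obtain ⟨t, ht⟩ : ∃ t : L, t = (u₀ - v₀ * x) / (J₂ * x - J₁) := ⟨_, rfl⟩
    obtain ⟨c, hcdef⟩ : ∃ c : L, c = (J₂ * x - J₁) / D := ⟨_, rfl⟩
    have hPx : P.eval x = c ^ 10 * Q.eval t := by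
      rw [hP, eval_mul, eval_C, noSecP1_eval u₀ v₀ J₁ J₂ Q hdeg x hc, ← ht, hcdef, div_pow,
        inv_pow]
      field_simp
    have hct : c * t = (u₀ - v₀ * x) / D := by
      rw [hcdef, ht]
      field_simp
    have hcU : c * klU u₀ v₀ t = x := by
      have h1 : c * klU u₀ v₀ t = c * u₀ + (c * t) * J₁ := by rw [klU, hJ₁]; ring
      rw [h1, hct, hcdef]
      field_simp
      rw [hD]
      ring
    have hcV : c * klV u₀ v₀ t = 1 := by
      have h1 : c * klV u₀ v₀ t = c * v₀ + (c * t) * J₂ := by rw [klV, hJ₂]; ring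
      rw [h1, hct, hcdef]
      field_simp
      rw [hD]
      ring
    have hH : klH x 1 = c ^ 20 * rsH (klH u₀ v₀) (klT u₀ v₀) t := by
      rw [← hlineH t, ← klH_smul, hcU, hcV]
    have hT : klT x 1 = c ^ 30 * rsT (klH u₀ v₀) (klT u₀ v₀) t := by
      rw [← hlineT t, ← klT_smul, hcU, hcV]
    have h1 := rsQuarticAt_map (Polynomial.evalRingHom x) (klH (X : L[X]) 1)
      (klT (X : L[X]) 1) P
    have h2 := klH_map (Polynomial.evalRingHom x) (X : L[X]) 1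
    have h3 := klT_map (Polynomial.evalRingHom x) (X : L[X]) 1
    simp only [coe_evalRingHom, eval_X, eval_one] at h1 h2 h3
    rw [h1, h2, h3, hH, hT, hPx, rsQuarticAt_smul, hQt t, mul_zero]
  -- infinitely many roots
  have hzero : rsQuarticAt (klH (X : L[X]) 1) (klT (X : L[X]) 1) P = 0 := by
    apply Polynomial.eq_zero_of_infinite_isRoot
    have hfin : ({x : L | J₂ * x - J₁ = 0}).Finite := by
      apply Set.Subsingleton.finite
      intro x hx y hy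
      simp only [Set.mem_ofPred_eq] at hx hy
      by_contra hxy
      have h1 : J₂ * (x - y) = 0 := by linear_combination hx - hy
      rcases mul_eq_zero.1 h1 with h | h
      · have h2 : J₁ = 0 := by rw [h] at hx; linear_combination -hx
        apply hD0
        rw [hD, h, h2]; ring
      · exact hxy (sub_eq_zero.1 h)
    refine Set.Infinite.mono ?_ hfin.infinite_compl
    intro x hx
    exact hroot x hx
  exact noSec_endgame P hzero

/-- **(D2b)** `NoSection` from the line identities over `AlgebraicClosure ℚ`. -/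
theorem noSection_of_line
    (hlineH : ∀ u v t : AlgebraicClosure ℚ,
      klH (klU u v t) (klV u v t) = rsH (klH u v) (klT u v) t)
    (hlineT : ∀ u v t : AlgebraicClosure ℚ,
      klT (klU u v t) (klV u v t) = rsT (klH u v) (klT u v) t) : NoSection := by
  intro H₀ T₀ hD Q hQ
  have h2 : (2 : AlgebraicClosure ℚ) ≠ 0 := by norm_num
  have h3 : (3 : AlgebraicClosure ℚ) ≠ 0 := by norm_num
  have h5 : (5 : AlgebraicClosure ℚ) ≠ 0 := by norm_num
  have hD' : ((T₀ : ℤ) : AlgebraicClosure ℚ) ^ 2 + ((H₀ : ℤ) : AlgebraicClosure ℚ) ^ 3 ≠ 0 := by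
    have : (((T₀ ^ 2 + H₀ ^ 3 : ℤ)) : AlgebraicClosure ℚ) ≠ 0 := Int.cast_ne_zero.2 hD
    simpa using this
  obtain ⟨u₀, v₀, hH, hT, hf⟩ := klein_fibre_nonempty h2 h3 h5
    ((H₀ : ℤ) : AlgebraicClosure ℚ) ((T₀ : ℤ) : AlgebraicClosure ℚ) hD'
  refine noSec_transfer u₀ v₀ hf (hlineH u₀ v₀) (hlineT u₀ v₀)
    (Q.map (algebraMap ℚ (AlgebraicClosure ℚ))) ?_
  have h1 := rsQuarticAt_map (mapRingHom (algebraMap ℚ (AlgebraicClosure ℚ)))
    (rsH (C (H₀ : ℚ)) (C (T₀ : ℚ)) (X : ℚ[X])) (rsT (C (H₀ : ℚ)) (C (T₀ : ℚ)) (X : ℚ[X])) Q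
  have h4 := (rs_map (mapRingHom (algebraMap ℚ (AlgebraicClosure ℚ)))
    (C (H₀ : ℚ)) (C (T₀ : ℚ)) (X : ℚ[X])).1
  have h6 := (rs_map (mapRingHom (algebraMap ℚ (AlgebraicClosure ℚ)))
    (C (H₀ : ℚ)) (C (T₀ : ℚ)) (X : ℚ[X])).2.1
  have e1 : (mapRingHom (algebraMap ℚ (AlgebraicClosure ℚ))) (C (H₀ : ℚ))
      = C ((H₀ : ℤ) : AlgebraicClosure ℚ) := by
    rw [coe_mapRingHom, Polynomial.map_C, map_intCast]
  have e2 : (mapRingHom (algebraMap ℚ (AlgebraicClosure ℚ))) (C (T₀ : ℚ))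
      = C ((T₀ : ℤ) : AlgebraicClosure ℚ) := by
    rw [coe_mapRingHom, Polynomial.map_C, map_intCast]
  have e3 : (mapRingHom (algebraMap ℚ (AlgebraicClosure ℚ))) (X : ℚ[X]) = X := by
    rw [coe_mapRingHom, Polynomial.map_X]
  rw [e1, e2, e3] at h4 h6
  rw [h4, h6, hQ, map_zero] at h1
  rw [hH, hT]
  exact h1.symm

end Fermat.Agent.S52
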