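import Mathlib

/-!
# Rubin–Silverberg polynomials for the 5-congruent family (generated by helper52's python CAS)

`rsH H T t`, `rsT H T t`, `rsF H T t` are the polynomials in `ℤ[H,T,t]` with
`H(w + t J∇f(w)) = rsH (H w) (T w) t`, `T(w + t J∇f(w)) = rsT (H w) (T w) t`,
`f(w + t J∇f(w)) = f(w) * rsF (H w) (T w) t` for Klein's icosahedral forms `f, H, T`.
-/

set_option autoImplicit false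

namespace Fermat.Agent.S52

variable {R : Type*} [CommRing R]

/-- Rubin–Silverberg polynomial `rsH` (degree 20 in `t`). -/
def rsH (H T t : R) : R :=
  H - 20 * T * t - 190 * H ^ (2 : ℕ) * t ^ (2 : ℕ) + 1140 * H * T * t ^ (3 : ℕ)
    - 855 * H ^ (3 : ℕ) * t ^ (4 : ℕ) - 5700 * T ^ (2 : ℕ) * t ^ (4 : ℕ)
    - 15504 * H ^ (2 : ℕ) * T * t ^ (5 : ℕ) - 102600 * H ^ (4 : ℕ) * t ^ (6 : ℕ)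
    - 63840 * H * T ^ (2 : ℕ) * t ^ (6 : ℕ) + 259920 * H ^ (3 : ℕ) * T * t ^ (7 : ℕ)
    + 182400 * T ^ (3 : ℕ) * t ^ (7 : ℕ) - 1000350 * H ^ (5 : ℕ) * t ^ (8 : ℕ)
    - 1126320 * H ^ (2 : ℕ) * T ^ (2 : ℕ) * t ^ (8 : ℕ) + 7736040 * H ^ (4 : ℕ) * T * t ^ (9 : ℕ)
    + 7904000 * H * T ^ (3 : ℕ) * t ^ (9 : ℕ) + 10003500 * H ^ (6 : ℕ) * t ^ (10 : ℕ)
    - 5619744 * H ^ (3 : ℕ) * T ^ (2 : ℕ) * t ^ (10 : ℕ) - 15808000 * T ^ (4 : ℕ) * t ^ (10 : ℕ)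
    - 54685800 * H ^ (5 : ℕ) * T * t ^ (11 : ℕ)
    - 54853760 * H ^ (2 : ℕ) * T ^ (3 : ℕ) * t ^ (11 : ℕ) - 45015750 * H ^ (7 : ℕ) * t ^ (12 : ℕ)
    - 7202520 * H ^ (4 : ℕ) * T ^ (2 : ℕ) * t ^ (12 : ℕ) + 37939200 * H * T ^ (4 : ℕ) * t ^ (12 : ℕ)
    + 35089200 * H ^ (6 : ℕ) * T * t ^ (13 : ℕ)
    - 23201280 * H ^ (3 : ℕ) * T ^ (3 : ℕ) * t ^ (13 : ℕ) - 58368000 * T ^ (5 : ℕ) * t ^ (13 : ℕ)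
    - 207765000 * H ^ (8 : ℕ) * t ^ (14 : ℕ) - 495188640 * H ^ (5 : ℕ) * T ^ (2 : ℕ) * t ^ (14 : ℕ)
    - 287462400 * H ^ (2 : ℕ) * T ^ (4 : ℕ) * t ^ (14 : ℕ)
    + 415530000 * H ^ (7 : ℕ) * T * t ^ (15 : ℕ)
    + 882458496 * H ^ (4 : ℕ) * T ^ (3 : ℕ) * t ^ (15 : ℕ)
    + 466944000 * H * T ^ (5 : ℕ) * t ^ (15 : ℕ) - 77911875 * H ^ (9 : ℕ) * t ^ (16 : ℕ)
    - 714711600 * H ^ (6 : ℕ) * T ^ (2 : ℕ) * t ^ (16 : ℕ)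
    - 1220474880 * H ^ (3 : ℕ) * T ^ (4 : ℕ) * t ^ (16 : ℕ) - 583680000 * T ^ (6 : ℕ) * t ^ (16 : ℕ)
    - 353200500 * H ^ (8 : ℕ) * T * t ^ (17 : ℕ)
    - 715080960 * H ^ (5 : ℕ) * T ^ (3 : ℕ) * t ^ (17 : ℕ)
    - 361881600 * H ^ (2 : ℕ) * T ^ (5 : ℕ) * t ^ (17 : ℕ) - 779118750 * H ^ (10 : ℕ) * t ^ (18 : ℕ)
    - 2182917600 * H ^ (7 : ℕ) * T ^ (2 : ℕ) * t ^ (18 : ℕ)
    - 2026391040 * H ^ (4 : ℕ) * T ^ (4 : ℕ) * t ^ (18 : ℕ)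
    - 622592000 * H * T ^ (6 : ℕ) * t ^ (18 : ℕ) + 694372500 * H ^ (9 : ℕ) * T * t ^ (19 : ℕ)
    + 2044414080 * H ^ (6 : ℕ) * T ^ (3 : ℕ) * t ^ (19 : ℕ)
    + 2005401600 * H ^ (3 : ℕ) * T ^ (5 : ℕ) * t ^ (19 : ℕ) + 655360000 * T ^ (7 : ℕ) * t ^ (19 : ℕ)
    + 184528125 * H ^ (11 : ℕ) * t ^ (20 : ℕ) + 549301500 * H ^ (8 : ℕ) * T ^ (2 : ℕ) * t ^ (20 : ℕ)
    + 544997376 * H ^ (5 : ℕ) * T ^ (4 : ℕ) * t ^ (20 : ℕ)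
    + 180224000 * H ^ (2 : ℕ) * T ^ (6 : ℕ) * t ^ (20 : ℕ)

/-- Rubin–Silverberg polynomial `rsT` (degree 30 in `t`). -/
def rsT (H T t : R) : R :=
  T + 30 * H ^ (2 : ℕ) * t - 435 * H * T * t ^ (2 : ℕ) - 1160 * H ^ (3 : ℕ) * t ^ (3 : ℕ)
    + 2900 * T ^ (2 : ℕ) * t ^ (3 : ℕ) + 27405 * H ^ (2 : ℕ) * T * t ^ (4 : ℕ)
    + 95526 * H ^ (4 : ℕ) * t ^ (5 : ℕ) - 46980 * H * T ^ (2 : ℕ) * t ^ (5 : ℕ)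
    - 437175 * H ^ (3 : ℕ) * T * t ^ (6 : ℕ) + 156600 * T ^ (3 : ℕ) * t ^ (6 : ℕ)
    + 1879200 * H ^ (5 : ℕ) * t ^ (7 : ℕ) + 3915000 * H ^ (2 : ℕ) * T ^ (2 : ℕ) * t ^ (7 : ℕ)
    - 8554275 * H ^ (4 : ℕ) * T * t ^ (8 : ℕ) - 14407200 * H * T ^ (3 : ℕ) * t ^ (8 : ℕ)
    + 24312150 * H ^ (6 : ℕ) * t ^ (9 : ℕ) + 42021000 * H ^ (3 : ℕ) * T ^ (2 : ℕ) * t ^ (9 : ℕ)
    + 32016000 * T ^ (4 : ℕ) * t ^ (9 : ℕ) - 246633255 * H ^ (5 : ℕ) * T * t ^ (10 : ℕ)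
    - 216588240 * H ^ (2 : ℕ) * T ^ (3 : ℕ) * t ^ (10 : ℕ) - 162081000 * H ^ (7 : ℕ) * t ^ (11 : ℕ)
    + 1352475900 * H ^ (4 : ℕ) * T ^ (2 : ℕ) * t ^ (11 : ℕ)
    + 1459929600 * H * T ^ (4 : ℕ) * t ^ (11 : ℕ) + 4131714825 * H ^ (6 : ℕ) * T * t ^ (12 : ℕ)
    + 1612005600 * H ^ (3 : ℕ) * T ^ (3 : ℕ) * t ^ (12 : ℕ)
    - 2433216000 * T ^ (5 : ℕ) * t ^ (12 : ℕ) + 6928962750 * H ^ (8 : ℕ) * t ^ (13 : ℕ)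
    - 5235216300 * H ^ (5 : ℕ) * T ^ (2 : ℕ) * t ^ (13 : ℕ)
    - 12044419200 * H ^ (2 : ℕ) * T ^ (4 : ℕ) * t ^ (13 : ℕ)
    - 43190534475 * H ^ (7 : ℕ) * T * t ^ (14 : ℕ)
    - 43045111800 * H ^ (4 : ℕ) * T ^ (3 : ℕ) * t ^ (14 : ℕ)
    + 79575287760 * H ^ (6 : ℕ) * T ^ (2 : ℕ) * t ^ (15 : ℕ)
    + 79420170240 * H ^ (3 : ℕ) * T ^ (4 : ℕ) * t ^ (15 : ℕ)
    - 176688550125 * H ^ (8 : ℕ) * T * t ^ (16 : ℕ)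
    - 474659611200 * H ^ (5 : ℕ) * T ^ (3 : ℕ) * t ^ (16 : ℕ)
    - 297825638400 * H ^ (2 : ℕ) * T ^ (5 : ℕ) * t ^ (16 : ℕ)
    - 311803323750 * H ^ (10 : ℕ) * t ^ (17 : ℕ)
    - 77604382800 * H ^ (7 : ℕ) * T ^ (2 : ℕ) * t ^ (17 : ℕ)
    + 935084908800 * H ^ (4 : ℕ) * T ^ (4 : ℕ) * t ^ (17 : ℕ)
    + 700766208000 * H * T ^ (6 : ℕ) * t ^ (17 : ℕ) + 1694131392375 * H ^ (9 : ℕ) * T * t ^ (18 : ℕ)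
    + 2776512362400 * H ^ (6 : ℕ) * T ^ (3 : ℕ) * t ^ (18 : ℕ)
    + 303665356800 * H ^ (3 : ℕ) * T ^ (5 : ℕ) * t ^ (18 : ℕ)
    - 778629120000 * T ^ (7 : ℕ) * t ^ (18 : ℕ) + 328214025000 * H ^ (11 : ℕ) * t ^ (19 : ℕ)
    - 3481840250100 * H ^ (8 : ℕ) * T ^ (2 : ℕ) * t ^ (19 : ℕ)
    - 8100765158400 * H ^ (5 : ℕ) * T ^ (4 : ℕ) * t ^ (19 : ℕ)
    - 4290656256000 * H ^ (2 : ℕ) * T ^ (6 : ℕ) * t ^ (19 : ℕ)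
    - 2874607835625 * H ^ (10 : ℕ) * T * t ^ (20 : ℕ)
    - 2424887357760 * H ^ (7 : ℕ) * T ^ (3 : ℕ) * t ^ (20 : ℕ)
    + 3892110842880 * H ^ (4 : ℕ) * T ^ (5 : ℕ) * t ^ (20 : ℕ)
    + 3442360320000 * H * T ^ (7 : ℕ) * t ^ (20 : ℕ) - 2215444668750 * H ^ (12 : ℕ) * t ^ (21 : ℕ)
    - 3077188825500 * H ^ (9 : ℕ) * T ^ (2 : ℕ) * t ^ (21 : ℕ)
    - 2709129888000 * H ^ (6 : ℕ) * T ^ (4 : ℕ) * t ^ (21 : ℕ)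
    - 5125838438400 * H ^ (3 : ℕ) * T ^ (6 : ℕ) * t ^ (21 : ℕ)
    - 3278438400000 * T ^ (8 : ℕ) * t ^ (21 : ℕ) + 1403114956875 * H ^ (11 : ℕ) * T * t ^ (22 : ℕ)
    - 1724509423800 * H ^ (8 : ℕ) * T ^ (3 : ℕ) * t ^ (22 : ℕ)
    - 7701051801600 * H ^ (5 : ℕ) * T ^ (5 : ℕ) * t ^ (22 : ℕ)
    - 4573421568000 * H ^ (2 : ℕ) * T ^ (7 : ℕ) * t ^ (22 : ℕ)
    - 7705894500000 * H ^ (13 : ℕ) * t ^ (23 : ℕ)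
    - 33414470973000 * H ^ (10 : ℕ) * T ^ (2 : ℕ) * t ^ (23 : ℕ)
    - 49888700928000 * H ^ (7 : ℕ) * T ^ (4 : ℕ) * t ^ (23 : ℕ)
    - 30337884979200 * H ^ (4 : ℕ) * T ^ (6 : ℕ) * t ^ (23 : ℕ)
    - 6157762560000 * H * T ^ (8 : ℕ) * t ^ (23 : ℕ)
    + 5089101159375 * H ^ (12 : ℕ) * T * t ^ (24 : ℕ)
    + 22687218914400 * H ^ (9 : ℕ) * T ^ (3 : ℕ) * t ^ (24 : ℕ)
    + 35246094796800 * H ^ (6 : ℕ) * T ^ (5 : ℕ) * t ^ (24 : ℕ)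
    + 22779445248000 * H ^ (3 : ℕ) * T ^ (7 : ℕ) * t ^ (24 : ℕ)
    + 5131468800000 * T ^ (9 : ℕ) * t ^ (24 : ℕ) - 17627233668750 * H ^ (14 : ℕ) * t ^ (25 : ℕ)
    - 70097953635000 * H ^ (11 : ℕ) * T ^ (2 : ℕ) * t ^ (25 : ℕ)
    - 105528606261120 * H ^ (8 : ℕ) * T ^ (4 : ℕ) * t ^ (25 : ℕ)
    - 71274600677376 * H ^ (5 : ℕ) * T ^ (6 : ℕ) * t ^ (25 : ℕ)
    - 18216714240000 * H ^ (2 : ℕ) * T ^ (8 : ℕ) * t ^ (25 : ℕ)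
    + 40985726371875 * H ^ (13 : ℕ) * T * t ^ (26 : ℕ)
    + 163672057566000 * H ^ (10 : ℕ) * T ^ (3 : ℕ) * t ^ (26 : ℕ)
    + 245438120632320 * H ^ (7 : ℕ) * T ^ (5 : ℕ) * t ^ (26 : ℕ)
    + 163803539865600 * H ^ (4 : ℕ) * T ^ (7 : ℕ) * t ^ (26 : ℕ)
    + 41051750400000 * H * T ^ (9 : ℕ) * t ^ (26 : ℕ) + 9632368125000 * H ^ (15 : ℕ) * t ^ (27 : ℕ)
    + 8104032382500 * H ^ (12 : ℕ) * T ^ (2 : ℕ) * t ^ (27 : ℕ)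
    - 63806176396800 * H ^ (9 : ℕ) * T ^ (4 : ℕ) * t ^ (27 : ℕ)
    - 143803576074240 * H ^ (6 : ℕ) * T ^ (6 : ℕ) * t ^ (27 : ℕ)
    - 111934439424000 * H ^ (3 : ℕ) * T ^ (8 : ℕ) * t ^ (27 : ℕ)
    - 30408704000000 * T ^ (10 : ℕ) * t ^ (27 : ℕ)
    - 21432019078125 * H ^ (14 : ℕ) * T * t ^ (28 : ℕ)
    - 85719228804000 * H ^ (11 : ℕ) * T ^ (3 : ℕ) * t ^ (28 : ℕ)
    - 128580522647040 * H ^ (8 : ℕ) * T ^ (5 : ℕ) * t ^ (28 : ℕ)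
    - 85731449241600 * H ^ (5 : ℕ) * T ^ (7 : ℕ) * t ^ (28 : ℕ)
    - 21438136320000 * H ^ (2 : ℕ) * T ^ (9 : ℕ) * t ^ (28 : ℕ)
    - 11210083593750 * H ^ (16 : ℕ) * t ^ (29 : ℕ)
    - 49873523512500 * H ^ (13 : ℕ) * T ^ (2 : ℕ) * t ^ (29 : ℕ)
    - 87394892457600 * H ^ (10 : ℕ) * T ^ (4 : ℕ) * t ^ (29 : ℕ)
    - 75042714746880 * H ^ (7 : ℕ) * T ^ (6 : ℕ) * t ^ (29 : ℕ)
    - 31344427008000 * H ^ (4 : ℕ) * T ^ (8 : ℕ) * t ^ (29 : ℕ)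
    - 5033164800000 * H * T ^ (10 : ℕ) * t ^ (29 : ℕ)
    + 4110363984375 * H ^ (15 : ℕ) * T * t ^ (30 : ℕ)
    + 19796866155000 * H ^ (12 : ℕ) * T ^ (3 : ℕ) * t ^ (30 : ℕ)
    + 38083944628224 * H ^ (9 : ℕ) * T ^ (5 : ℕ) * t ^ (30 : ℕ)
    + 36574189977600 * H ^ (6 : ℕ) * T ^ (7 : ℕ) * t ^ (30 : ℕ)
    + 17532190720000 * H ^ (3 : ℕ) * T ^ (9 : ℕ) * t ^ (30 : ℕ)
    + 3355443200000 * T ^ (11 : ℕ) * t ^ (30 : ℕ)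

/-- Rubin–Silverberg polynomial `rsF` (degree 12 in `t`). -/
def rsF (H T t : R) : R :=
  1 + 66 * H * t ^ (2 : ℕ) - 440 * T * t ^ (3 : ℕ) - 1485 * H ^ (2 : ℕ) * t ^ (4 : ℕ)
    + 3168 * H * T * t ^ (5 : ℕ) - 5940 * H ^ (3 : ℕ) * t ^ (6 : ℕ)
    - 10560 * T ^ (2 : ℕ) * t ^ (6 : ℕ) - 4752 * H ^ (2 : ℕ) * T * t ^ (7 : ℕ)
    - 66825 * H ^ (4 : ℕ) * t ^ (8 : ℕ) - 63360 * H * T ^ (2 : ℕ) * t ^ (8 : ℕ)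
    + 142560 * H ^ (3 : ℕ) * T * t ^ (9 : ℕ) + 140800 * T ^ (3 : ℕ) * t ^ (9 : ℕ)
    + 133650 * H ^ (5 : ℕ) * t ^ (10 : ℕ) + 133056 * H ^ (2 : ℕ) * T ^ (2 : ℕ) * t ^ (10 : ℕ)
    - 61560 * H ^ (4 : ℕ) * T * t ^ (11 : ℕ) - 61440 * H * T ^ (3 : ℕ) * t ^ (11 : ℕ)
    + 91125 * H ^ (6 : ℕ) * t ^ (12 : ℕ) + 193536 * H ^ (3 : ℕ) * T ^ (2 : ℕ) * t ^ (12 : ℕ)
    + 102400 * T ^ (4 : ℕ) * t ^ (12 : ℕ)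

/-- `(rsH - (value at t = 0)) / t`. -/
def rsHq (H T t : R) : R :=
  -20 * T - 190 * H ^ (2 : ℕ) * t + 1140 * H * T * t ^ (2 : ℕ) - 855 * H ^ (3 : ℕ) * t ^ (3 : ℕ)
    - 5700 * T ^ (2 : ℕ) * t ^ (3 : ℕ) - 15504 * H ^ (2 : ℕ) * T * t ^ (4 : ℕ)
    - 102600 * H ^ (4 : ℕ) * t ^ (5 : ℕ) - 63840 * H * T ^ (2 : ℕ) * t ^ (5 : ℕ)
    + 259920 * H ^ (3 : ℕ) * T * t ^ (6 : ℕ) + 182400 * T ^ (3 : ℕ) * t ^ (6 : ℕ)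
    - 1000350 * H ^ (5 : ℕ) * t ^ (7 : ℕ) - 1126320 * H ^ (2 : ℕ) * T ^ (2 : ℕ) * t ^ (7 : ℕ)
    + 7736040 * H ^ (4 : ℕ) * T * t ^ (8 : ℕ) + 7904000 * H * T ^ (3 : ℕ) * t ^ (8 : ℕ)
    + 10003500 * H ^ (6 : ℕ) * t ^ (9 : ℕ) - 5619744 * H ^ (3 : ℕ) * T ^ (2 : ℕ) * t ^ (9 : ℕ)
    - 15808000 * T ^ (4 : ℕ) * t ^ (9 : ℕ) - 54685800 * H ^ (5 : ℕ) * T * t ^ (10 : ℕ)
    - 54853760 * H ^ (2 : ℕ) * T ^ (3 : ℕ) * t ^ (10 : ℕ) - 45015750 * H ^ (7 : ℕ) * t ^ (11 : ℕ)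
    - 7202520 * H ^ (4 : ℕ) * T ^ (2 : ℕ) * t ^ (11 : ℕ) + 37939200 * H * T ^ (4 : ℕ) * t ^ (11 : ℕ)
    + 35089200 * H ^ (6 : ℕ) * T * t ^ (12 : ℕ)
    - 23201280 * H ^ (3 : ℕ) * T ^ (3 : ℕ) * t ^ (12 : ℕ) - 58368000 * T ^ (5 : ℕ) * t ^ (12 : ℕ)
    - 207765000 * H ^ (8 : ℕ) * t ^ (13 : ℕ) - 495188640 * H ^ (5 : ℕ) * T ^ (2 : ℕ) * t ^ (13 : ℕ)
    - 287462400 * H ^ (2 : ℕ) * T ^ (4 : ℕ) * t ^ (13 : ℕ)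
    + 415530000 * H ^ (7 : ℕ) * T * t ^ (14 : ℕ)
    + 882458496 * H ^ (4 : ℕ) * T ^ (3 : ℕ) * t ^ (14 : ℕ)
    + 466944000 * H * T ^ (5 : ℕ) * t ^ (14 : ℕ) - 77911875 * H ^ (9 : ℕ) * t ^ (15 : ℕ)
    - 714711600 * H ^ (6 : ℕ) * T ^ (2 : ℕ) * t ^ (15 : ℕ)
    - 1220474880 * H ^ (3 : ℕ) * T ^ (4 : ℕ) * t ^ (15 : ℕ) - 583680000 * T ^ (6 : ℕ) * t ^ (15 : ℕ)
    - 353200500 * H ^ (8 : ℕ) * T * t ^ (16 : ℕ)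
    - 715080960 * H ^ (5 : ℕ) * T ^ (3 : ℕ) * t ^ (16 : ℕ)
    - 361881600 * H ^ (2 : ℕ) * T ^ (5 : ℕ) * t ^ (16 : ℕ) - 779118750 * H ^ (10 : ℕ) * t ^ (17 : ℕ)
    - 2182917600 * H ^ (7 : ℕ) * T ^ (2 : ℕ) * t ^ (17 : ℕ)
    - 2026391040 * H ^ (4 : ℕ) * T ^ (4 : ℕ) * t ^ (17 : ℕ)
    - 622592000 * H * T ^ (6 : ℕ) * t ^ (17 : ℕ) + 694372500 * H ^ (9 : ℕ) * T * t ^ (18 : ℕ)
    + 2044414080 * H ^ (6 : ℕ) * T ^ (3 : ℕ) * t ^ (18 : ℕ)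
    + 2005401600 * H ^ (3 : ℕ) * T ^ (5 : ℕ) * t ^ (18 : ℕ) + 655360000 * T ^ (7 : ℕ) * t ^ (18 : ℕ)
    + 184528125 * H ^ (11 : ℕ) * t ^ (19 : ℕ) + 549301500 * H ^ (8 : ℕ) * T ^ (2 : ℕ) * t ^ (19 : ℕ)
    + 544997376 * H ^ (5 : ℕ) * T ^ (4 : ℕ) * t ^ (19 : ℕ)
    + 180224000 * H ^ (2 : ℕ) * T ^ (6 : ℕ) * t ^ (19 : ℕ)

/-- `(rsT - (value at t = 0)) / t`. -/
def rsTq (H T t : R) : R :=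
  30 * H ^ (2 : ℕ) - 435 * H * T * t - 1160 * H ^ (3 : ℕ) * t ^ (2 : ℕ)
    + 2900 * T ^ (2 : ℕ) * t ^ (2 : ℕ) + 27405 * H ^ (2 : ℕ) * T * t ^ (3 : ℕ)
    + 95526 * H ^ (4 : ℕ) * t ^ (4 : ℕ) - 46980 * H * T ^ (2 : ℕ) * t ^ (4 : ℕ)
    - 437175 * H ^ (3 : ℕ) * T * t ^ (5 : ℕ) + 156600 * T ^ (3 : ℕ) * t ^ (5 : ℕ)
    + 1879200 * H ^ (5 : ℕ) * t ^ (6 : ℕ) + 3915000 * H ^ (2 : ℕ) * T ^ (2 : ℕ) * t ^ (6 : ℕ)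
    - 8554275 * H ^ (4 : ℕ) * T * t ^ (7 : ℕ) - 14407200 * H * T ^ (3 : ℕ) * t ^ (7 : ℕ)
    + 24312150 * H ^ (6 : ℕ) * t ^ (8 : ℕ) + 42021000 * H ^ (3 : ℕ) * T ^ (2 : ℕ) * t ^ (8 : ℕ)
    + 32016000 * T ^ (4 : ℕ) * t ^ (8 : ℕ) - 246633255 * H ^ (5 : ℕ) * T * t ^ (9 : ℕ)
    - 216588240 * H ^ (2 : ℕ) * T ^ (3 : ℕ) * t ^ (9 : ℕ) - 162081000 * H ^ (7 : ℕ) * t ^ (10 : ℕ)
    + 1352475900 * H ^ (4 : ℕ) * T ^ (2 : ℕ) * t ^ (10 : ℕ)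
    + 1459929600 * H * T ^ (4 : ℕ) * t ^ (10 : ℕ) + 4131714825 * H ^ (6 : ℕ) * T * t ^ (11 : ℕ)
    + 1612005600 * H ^ (3 : ℕ) * T ^ (3 : ℕ) * t ^ (11 : ℕ)
    - 2433216000 * T ^ (5 : ℕ) * t ^ (11 : ℕ) + 6928962750 * H ^ (8 : ℕ) * t ^ (12 : ℕ)
    - 5235216300 * H ^ (5 : ℕ) * T ^ (2 : ℕ) * t ^ (12 : ℕ)
    - 12044419200 * H ^ (2 : ℕ) * T ^ (4 : ℕ) * t ^ (12 : ℕ)
    - 43190534475 * H ^ (7 : ℕ) * T * t ^ (13 : ℕ)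
    - 43045111800 * H ^ (4 : ℕ) * T ^ (3 : ℕ) * t ^ (13 : ℕ)
    + 79575287760 * H ^ (6 : ℕ) * T ^ (2 : ℕ) * t ^ (14 : ℕ)
    + 79420170240 * H ^ (3 : ℕ) * T ^ (4 : ℕ) * t ^ (14 : ℕ)
    - 176688550125 * H ^ (8 : ℕ) * T * t ^ (15 : ℕ)
    - 474659611200 * H ^ (5 : ℕ) * T ^ (3 : ℕ) * t ^ (15 : ℕ)
    - 297825638400 * H ^ (2 : ℕ) * T ^ (5 : ℕ) * t ^ (15 : ℕ)
    - 311803323750 * H ^ (10 : ℕ) * t ^ (16 : ℕ)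
    - 77604382800 * H ^ (7 : ℕ) * T ^ (2 : ℕ) * t ^ (16 : ℕ)
    + 935084908800 * H ^ (4 : ℕ) * T ^ (4 : ℕ) * t ^ (16 : ℕ)
    + 700766208000 * H * T ^ (6 : ℕ) * t ^ (16 : ℕ) + 1694131392375 * H ^ (9 : ℕ) * T * t ^ (17 : ℕ)
    + 2776512362400 * H ^ (6 : ℕ) * T ^ (3 : ℕ) * t ^ (17 : ℕ)
    + 303665356800 * H ^ (3 : ℕ) * T ^ (5 : ℕ) * t ^ (17 : ℕ)
    - 778629120000 * T ^ (7 : ℕ) * t ^ (17 : ℕ) + 328214025000 * H ^ (11 : ℕ) * t ^ (18 : ℕ)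
    - 3481840250100 * H ^ (8 : ℕ) * T ^ (2 : ℕ) * t ^ (18 : ℕ)
    - 8100765158400 * H ^ (5 : ℕ) * T ^ (4 : ℕ) * t ^ (18 : ℕ)
    - 4290656256000 * H ^ (2 : ℕ) * T ^ (6 : ℕ) * t ^ (18 : ℕ)
    - 2874607835625 * H ^ (10 : ℕ) * T * t ^ (19 : ℕ)
    - 2424887357760 * H ^ (7 : ℕ) * T ^ (3 : ℕ) * t ^ (19 : ℕ)
    + 3892110842880 * H ^ (4 : ℕ) * T ^ (5 : ℕ) * t ^ (19 : ℕ)
    + 3442360320000 * H * T ^ (7 : ℕ) * t ^ (19 : ℕ) - 2215444668750 * H ^ (12 : ℕ) * t ^ (20 : ℕ)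
    - 3077188825500 * H ^ (9 : ℕ) * T ^ (2 : ℕ) * t ^ (20 : ℕ)
    - 2709129888000 * H ^ (6 : ℕ) * T ^ (4 : ℕ) * t ^ (20 : ℕ)
    - 5125838438400 * H ^ (3 : ℕ) * T ^ (6 : ℕ) * t ^ (20 : ℕ)
    - 3278438400000 * T ^ (8 : ℕ) * t ^ (20 : ℕ) + 1403114956875 * H ^ (11 : ℕ) * T * t ^ (21 : ℕ)
    - 1724509423800 * H ^ (8 : ℕ) * T ^ (3 : ℕ) * t ^ (21 : ℕ)
    - 7701051801600 * H ^ (5 : ℕ) * T ^ (5 : ℕ) * t ^ (21 : ℕ)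
    - 4573421568000 * H ^ (2 : ℕ) * T ^ (7 : ℕ) * t ^ (21 : ℕ)
    - 7705894500000 * H ^ (13 : ℕ) * t ^ (22 : ℕ)
    - 33414470973000 * H ^ (10 : ℕ) * T ^ (2 : ℕ) * t ^ (22 : ℕ)
    - 49888700928000 * H ^ (7 : ℕ) * T ^ (4 : ℕ) * t ^ (22 : ℕ)
    - 30337884979200 * H ^ (4 : ℕ) * T ^ (6 : ℕ) * t ^ (22 : ℕ)
    - 6157762560000 * H * T ^ (8 : ℕ) * t ^ (22 : ℕ)
    + 5089101159375 * H ^ (12 : ℕ) * T * t ^ (23 : ℕ)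
    + 22687218914400 * H ^ (9 : ℕ) * T ^ (3 : ℕ) * t ^ (23 : ℕ)
    + 35246094796800 * H ^ (6 : ℕ) * T ^ (5 : ℕ) * t ^ (23 : ℕ)
    + 22779445248000 * H ^ (3 : ℕ) * T ^ (7 : ℕ) * t ^ (23 : ℕ)
    + 5131468800000 * T ^ (9 : ℕ) * t ^ (23 : ℕ) - 17627233668750 * H ^ (14 : ℕ) * t ^ (24 : ℕ)
    - 70097953635000 * H ^ (11 : ℕ) * T ^ (2 : ℕ) * t ^ (24 : ℕ)
    - 105528606261120 * H ^ (8 : ℕ) * T ^ (4 : ℕ) * t ^ (24 : ℕ)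
    - 71274600677376 * H ^ (5 : ℕ) * T ^ (6 : ℕ) * t ^ (24 : ℕ)
    - 18216714240000 * H ^ (2 : ℕ) * T ^ (8 : ℕ) * t ^ (24 : ℕ)
    + 40985726371875 * H ^ (13 : ℕ) * T * t ^ (25 : ℕ)
    + 163672057566000 * H ^ (10 : ℕ) * T ^ (3 : ℕ) * t ^ (25 : ℕ)
    + 245438120632320 * H ^ (7 : ℕ) * T ^ (5 : ℕ) * t ^ (25 : ℕ)
    + 163803539865600 * H ^ (4 : ℕ) * T ^ (7 : ℕ) * t ^ (25 : ℕ)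
    + 41051750400000 * H * T ^ (9 : ℕ) * t ^ (25 : ℕ) + 9632368125000 * H ^ (15 : ℕ) * t ^ (26 : ℕ)
    + 8104032382500 * H ^ (12 : ℕ) * T ^ (2 : ℕ) * t ^ (26 : ℕ)
    - 63806176396800 * H ^ (9 : ℕ) * T ^ (4 : ℕ) * t ^ (26 : ℕ)
    - 143803576074240 * H ^ (6 : ℕ) * T ^ (6 : ℕ) * t ^ (26 : ℕ)
    - 111934439424000 * H ^ (3 : ℕ) * T ^ (8 : ℕ) * t ^ (26 : ℕ)
    - 30408704000000 * T ^ (10 : ℕ) * t ^ (26 : ℕ)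
    - 21432019078125 * H ^ (14 : ℕ) * T * t ^ (27 : ℕ)
    - 85719228804000 * H ^ (11 : ℕ) * T ^ (3 : ℕ) * t ^ (27 : ℕ)
    - 128580522647040 * H ^ (8 : ℕ) * T ^ (5 : ℕ) * t ^ (27 : ℕ)
    - 85731449241600 * H ^ (5 : ℕ) * T ^ (7 : ℕ) * t ^ (27 : ℕ)
    - 21438136320000 * H ^ (2 : ℕ) * T ^ (9 : ℕ) * t ^ (27 : ℕ)
    - 11210083593750 * H ^ (16 : ℕ) * t ^ (28 : ℕ)
    - 49873523512500 * H ^ (13 : ℕ) * T ^ (2 : ℕ) * t ^ (28 : ℕ)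
    - 87394892457600 * H ^ (10 : ℕ) * T ^ (4 : ℕ) * t ^ (28 : ℕ)
    - 75042714746880 * H ^ (7 : ℕ) * T ^ (6 : ℕ) * t ^ (28 : ℕ)
    - 31344427008000 * H ^ (4 : ℕ) * T ^ (8 : ℕ) * t ^ (28 : ℕ)
    - 5033164800000 * H * T ^ (10 : ℕ) * t ^ (28 : ℕ)
    + 4110363984375 * H ^ (15 : ℕ) * T * t ^ (29 : ℕ)
    + 19796866155000 * H ^ (12 : ℕ) * T ^ (3 : ℕ) * t ^ (29 : ℕ)
    + 38083944628224 * H ^ (9 : ℕ) * T ^ (5 : ℕ) * t ^ (29 : ℕ)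
    + 36574189977600 * H ^ (6 : ℕ) * T ^ (7 : ℕ) * t ^ (29 : ℕ)
    + 17532190720000 * H ^ (3 : ℕ) * T ^ (9 : ℕ) * t ^ (29 : ℕ)
    + 3355443200000 * T ^ (11 : ℕ) * t ^ (29 : ℕ)

/-- `(rsF - (value at t = 0)) / t`. -/
def rsFq (H T t : R) : R :=
  66 * H * t - 440 * T * t ^ (2 : ℕ) - 1485 * H ^ (2 : ℕ) * t ^ (3 : ℕ) + 3168 * H * T * t ^ (4 : ℕ)
    - 5940 * H ^ (3 : ℕ) * t ^ (5 : ℕ) - 10560 * T ^ (2 : ℕ) * t ^ (5 : ℕ)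
    - 4752 * H ^ (2 : ℕ) * T * t ^ (6 : ℕ) - 66825 * H ^ (4 : ℕ) * t ^ (7 : ℕ)
    - 63360 * H * T ^ (2 : ℕ) * t ^ (7 : ℕ) + 142560 * H ^ (3 : ℕ) * T * t ^ (8 : ℕ)
    + 140800 * T ^ (3 : ℕ) * t ^ (8 : ℕ) + 133650 * H ^ (5 : ℕ) * t ^ (9 : ℕ)
    + 133056 * H ^ (2 : ℕ) * T ^ (2 : ℕ) * t ^ (9 : ℕ) - 61560 * H ^ (4 : ℕ) * T * t ^ (10 : ℕ)
    - 61440 * H * T ^ (3 : ℕ) * t ^ (10 : ℕ) + 91125 * H ^ (6 : ℕ) * t ^ (11 : ℕ)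
    + 193536 * H ^ (3 : ℕ) * T ^ (2 : ℕ) * t ^ (11 : ℕ) + 102400 * T ^ (4 : ℕ) * t ^ (11 : ℕ)

theorem rsH_eq (H T t : R) : rsH H T t = H + t * rsHq H T t := by
  simp only [rsH, rsHq]; ring

theorem rsT_eq (H T t : R) : rsT H T t = T + t * rsTq H T t := by
  simp only [rsT, rsTq]; ring

theorem rsF_eq (H T t : R) : rsF H T t = 1 + t * rsFq H T t := by
  simp only [rsF, rsFq]; ring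

@[simp] theorem rsH_zero (H T : R) : rsH H T 0 = H := by rw [rsH_eq]; ring
@[simp] theorem rsT_zero (H T : R) : rsT H T 0 = T := by rw [rsT_eq]; ring
@[simp] theorem rsF_zero (H T : R) : rsF H T 0 = 1 := by rw [rsF_eq]; ring

/-- weighted homogeneity -/
theorem rsH_homog (c H T t : R) : rsH (c ^ 2 * H) (c ^ 3 * T) t = c ^ 2 * rsH H T (c * t) := by
  simp only [rsH]; ring

theorem rsT_homog (c H T t : R) : rsT (c ^ 2 * H) (c ^ 3 * T) t = c ^ 3 * rsT H T (c * t) := by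
  simp only [rsT]; ring

theorem rsF_homog (c H T t : R) : rsF (c ^ 2 * H) (c ^ 3 * T) t = rsF H T (c * t) := by
  simp only [rsF]; ring

theorem rs_map {S : Type*} [CommRing S] (φ : R →+* S) (H T t : R) :
    φ (rsH H T t) = rsH (φ H) (φ T) (φ t) ∧ φ (rsT H T t) = rsT (φ H) (φ T) (φ t) ∧
      φ (rsF H T t) = rsF (φ H) (φ T) (φ t) := by
  simp only [rsH, rsT, rsF]
  refine ⟨?_, ?_, ?_⟩ <;> simp only [map_add, map_sub, map_mul, map_pow, map_neg, map_ofNat, map_one]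

end Fermat.Agent.S52
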