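import Fermat.Agent.S52.ThinSet
import Fermat.Agent.S52.RS

/-!
# S52 (D2 glue): the thin-set lemma for the Rubin–Silverberg quartic (helper72)

`rsQuartic H₀ T₀ = Z⁴ + 6 rsH(t) Z² + 8 rsT(t) Z - 3 rsH(t)² ∈ ℤ[t][Z]`.  If this quartic has no
root in `ℚ[t]`, then there are arbitrarily large `s` such that its specialisation at
`t = M₀ s` has no integer root.
-/

set_option autoImplicit false

open Polynomial

namespace Fermat.Agent.S52

/-- The quartic `Z⁴ + 6 H Z² + 8 T Z - 3 H²`. -/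
def rsQuarticAt {R : Type*} [CommRing R] (H T Z : R) : R :=
  Z ^ 4 + 6 * H * Z ^ 2 + 8 * T * Z - 3 * H ^ 2

theorem rsQuarticAt_map {R S : Type*} [CommRing R] [CommRing S] (φ : R →+* S) (H T Z : R) :
    φ (rsQuarticAt H T Z) = rsQuarticAt (φ H) (φ T) (φ Z) := by
  simp only [rsQuarticAt, map_add, map_sub, map_mul, map_pow, map_ofNat]

/-- Bezout identity for the quartic and its derivative: the "discriminant" is
`288 (T² + H³)²`. -/
theorem rsQuarticAt_bezout {R : Type*} [CommRing R] (H T Z : R) :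
    (-96 * H * (T ^ 2 + H ^ 3)
        - 4 * (2 * H * Z ^ 3 - 3 * T * Z ^ 2 + 12 * H ^ 2 * Z + 7 * H * T) * (H * Z - 2 * T))
        * rsQuarticAt H T Z
      + (36 * T * (T ^ 2 + H ^ 3)
        + (2 * H * Z ^ 3 - 3 * T * Z ^ 2 + 12 * H ^ 2 * Z + 7 * H * T)
          * (H * Z ^ 2 - 2 * T * Z + 3 * H ^ 2))
        * (4 * Z ^ 3 + 12 * H * Z + 8 * T)
      = 288 * (T ^ 2 + H ^ 3) ^ 2 := by
  simp only [rsQuarticAt]; ring

/-- The depressed quartic `Z⁴ + a Z² + b Z + c` as a polynomial. -/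
noncomputable def rsDepQuartic {A : Type*} [CommRing A] (a b c : A) : A[X] :=
  X ^ 4 + (C a * X ^ 2 + C b * X + C c)

theorem rsDepQuartic_monic {A : Type*} [CommRing A] [Nontrivial A] (a b c : A) :
    (rsDepQuartic a b c).Monic := by
  unfold rsDepQuartic
  refine Polynomial.monic_X_pow_add ?_
  exact lt_of_le_of_lt Polynomial.degree_quadratic_le (by norm_num)

theorem rsDepQuartic_eval {A : Type*} [CommRing A] (a b c z : A) :
    (rsDepQuartic a b c).eval z = z ^ 4 + a * z ^ 2 + b * z + c := by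
  simp only [rsDepQuartic, eval_add, eval_mul, eval_pow, eval_X, eval_C]
  ring

theorem rsDepQuartic_map {A B : Type*} [CommRing A] [CommRing B] (φ : A →+* B) (a b c : A) :
    (rsDepQuartic a b c).map φ = rsDepQuartic (φ a) (φ b) (φ c) := by
  simp only [rsDepQuartic, Polynomial.map_add, Polynomial.map_mul, Polynomial.map_pow,
    Polynomial.map_X, Polynomial.map_C]

theorem rsDepQuartic_derivative {A : Type*} [CommRing A] (a b c : A) :
    derivative (rsDepQuartic a b c) = 4 * X ^ 3 + 2 * C a * X + C b := by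
  simp only [rsDepQuartic, derivative_add, derivative_mul, derivative_X_pow, derivative_X,
    derivative_C]
  simp only [Nat.cast_ofNat, Nat.add_one_sub_one, zero_mul, zero_add, mul_one, add_zero, pow_one,
    map_ofNat C]
  ring

/-- The Rubin–Silverberg quartic as a polynomial in `Z` over `ℤ[t]`. -/
noncomputable def rsQuartic (H₀ T₀ : ℤ) : ℤ[X][X] :=
  rsDepQuartic (6 * rsH (C H₀) (C T₀) (X : ℤ[X])) (8 * rsT (C H₀) (C T₀) (X : ℤ[X]))
    (-(3 * rsH (C H₀) (C T₀) (X : ℤ[X]) ^ 2))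

theorem rsQuartic_monic (H₀ T₀ : ℤ) : (rsQuartic H₀ T₀).Monic := rsDepQuartic_monic _ _ _

theorem rsQuartic_evalEval (H₀ T₀ t z : ℤ) :
    (rsQuartic H₀ T₀).evalEval t z = rsQuarticAt (rsH H₀ T₀ t) (rsT H₀ T₀ t) z := by
  have h1 := (rs_map (evalRingHom t) (C H₀) (C T₀) (X : ℤ[X])).1
  have h2 := (rs_map (evalRingHom t) (C H₀) (C T₀) (X : ℤ[X])).2.1
  simp only [coe_evalRingHom, eval_C, eval_X] at h1 h2
  rw [← Polynomial.map_evalRingHom_eval, rsQuartic, rsDepQuartic_map, rsDepQuartic_eval]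
  simp only [coe_evalRingHom, eval_mul, eval_neg, eval_pow, eval_ofNat, h1, h2, rsQuarticAt]
  ring

theorem rsQuartic_map_eval (H₀ T₀ : ℤ) (Q : ℚ[X]) :
    ((rsQuartic H₀ T₀).map (mapRingHom (Int.castRingHom ℚ))).eval Q
      = rsQuarticAt (rsH (C (H₀ : ℚ)) (C (T₀ : ℚ)) (X : ℚ[X]))
          (rsT (C (H₀ : ℚ)) (C (T₀ : ℚ)) (X : ℚ[X])) Q := by
  have h1 := (rs_map (mapRingHom (Int.castRingHom ℚ)) (C H₀) (C T₀) (X : ℤ[X])).1
  have h2 := (rs_map (mapRingHom (Int.castRingHom ℚ)) (C H₀) (C T₀) (X : ℤ[X])).2.1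
  have e1 : (mapRingHom (Int.castRingHom ℚ)) (C H₀) = C (H₀ : ℚ) := by simp
  have e2 : (mapRingHom (Int.castRingHom ℚ)) (C T₀) = C (T₀ : ℚ) := by simp
  have e3 : (mapRingHom (Int.castRingHom ℚ)) (X : ℤ[X]) = X := by simp
  rw [e1, e2, e3] at h1 h2
  rw [rsQuartic, rsDepQuartic_map, rsDepQuartic_eval]
  simp only [map_mul, map_neg, map_pow, map_ofNat, h1, h2, rsQuarticAt]
  ring

theorem rsQuartic_map_zero (H₀ T₀ : ℤ) :
    (rsQuartic H₀ T₀).map (evalRingHom 0) = rsDepQuartic (6 * H₀) (8 * T₀) (-(3 * H₀ ^ 2)) := by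
  have h1 := (rs_map (evalRingHom (0 : ℤ)) (C H₀) (C T₀) (X : ℤ[X])).1
  have h2 := (rs_map (evalRingHom (0 : ℤ)) (C H₀) (C T₀) (X : ℤ[X])).2.1
  simp only [coe_evalRingHom, eval_C, eval_X, rsH_zero, rsT_zero] at h1 h2
  rw [rsQuartic, rsDepQuartic_map]
  simp only [coe_evalRingHom, eval_mul, eval_neg, eval_pow, eval_ofNat, h1, h2]

/-- Separability (Bezout form) of `Φ(0, Z)` for the Rubin–Silverberg quartic. -/
theorem rsQuartic_bezout (H₀ T₀ : ℤ) (hD : T₀ ^ 2 + H₀ ^ 3 ≠ 0) :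
    ∃ (U V : ℤ[X]) (c : ℤ), c ≠ 0 ∧
      U * (rsQuartic H₀ T₀).map (evalRingHom 0)
        + V * derivative ((rsQuartic H₀ T₀).map (evalRingHom 0)) = C c := by
  have key := rsQuarticAt_bezout (C H₀) (C T₀) (X : ℤ[X])
  refine ⟨(-96 * C H₀ * (C T₀ ^ 2 + C H₀ ^ 3)
        - 4 * (2 * C H₀ * X ^ 3 - 3 * C T₀ * X ^ 2 + 12 * C H₀ ^ 2 * X + 7 * C H₀ * C T₀)
          * (C H₀ * X - 2 * C T₀)),
    (36 * C T₀ * (C T₀ ^ 2 + C H₀ ^ 3)
        + (2 * C H₀ * X ^ 3 - 3 * C T₀ * X ^ 2 + 12 * C H₀ ^ 2 * X + 7 * C H₀ * C T₀)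
          * (C H₀ * X ^ 2 - 2 * C T₀ * X + 3 * C H₀ ^ 2)),
    288 * (T₀ ^ 2 + H₀ ^ 3) ^ 2, by positivity, ?_⟩
  rw [rsQuartic_map_zero, rsDepQuartic_derivative]
  have e1 : rsDepQuartic (6 * H₀) (8 * T₀) (-(3 * H₀ ^ 2))
      = rsQuarticAt (C H₀) (C T₀) (X : ℤ[X]) := by
    simp only [rsDepQuartic, rsQuarticAt, C_mul, C_neg, C_pow, map_ofNat C]
    ring
  have e2 : (4 * X ^ 3 + 2 * C (6 * H₀) * X + C (8 * T₀) : ℤ[X])
      = 4 * X ^ 3 + 12 * C H₀ * X + 8 * C T₀ := by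
    simp only [C_mul, map_ofNat C]
    ring
  rw [e1, e2, key]
  simp only [C_mul, C_pow, C_add, map_ofNat C]

/-- **Thin-set lemma for the Rubin–Silverberg quartic.**  If the quartic has no root in
`ℚ[t]`, there are arbitrarily large `s` such that `Z⁴ + 6 rsH Z² + 8 rsT Z - 3 rsH²` at
`t = M₀ s` has no integer root. -/
theorem rsQuartic_exists_no_int_root (H₀ T₀ : ℤ) (hD : T₀ ^ 2 + H₀ ^ 3 ≠ 0)
    (hQ : ∀ Q : ℚ[X], rsQuarticAt (rsH (C (H₀ : ℚ)) (C (T₀ : ℚ)) (X : ℚ[X]))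
      (rsT (C (H₀ : ℚ)) (C (T₀ : ℚ)) (X : ℚ[X])) Q ≠ 0)
    (M₀ : ℕ) (hM₀ : 0 < M₀) (s₀ : ℕ) :
    ∃ s : ℕ, s₀ ≤ s ∧ ∀ z : ℤ,
      rsQuarticAt (rsH H₀ T₀ ((M₀ : ℤ) * s)) (rsT H₀ T₀ ((M₀ : ℤ) * s)) z ≠ 0 := by
  obtain ⟨s, hs, h⟩ := thinSet_exists_no_root (rsQuartic H₀ T₀) (rsQuartic_monic H₀ T₀)
    (rsQuartic_bezout H₀ T₀ hD) (fun Q => by rw [rsQuartic_map_eval]; exact hQ Q) M₀ hM₀ s₀
  refine ⟨s, hs, fun z => ?_⟩
  rw [← rsQuartic_evalEval]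
  exact h z

end Fermat.Agent.S52
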