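import Fermat.Agent.S52.Iface2
import Fermat.Agent.S52.ThinSetRS

/-!
# S52: interface statements for the final assembly (helper72)

* `NoSection` (piece D2b): the Rubin–Silverberg quartic has no root in `ℚ[t]`.
* `RSCoprime` (core of PerturbRS): `rsF` and `rsH` have no common prime factor away from
  `30 (T₀² + H₀³) t`.
-/

set_option autoImplicit false

open Polynomial

namespace Fermat.Agent.S52

/-- (D2b) the quartic `Z⁴ + 6 rsH(t) Z² + 8 rsT(t) Z - 3 rsH(t)²` has no root in `ℚ[t]`. -/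
def NoSection : Prop :=
  ∀ H₀ T₀ : ℤ, T₀ ^ 2 + H₀ ^ 3 ≠ 0 → ∀ Q : ℚ[X],
    rsQuarticAt (rsH (C (H₀ : ℚ)) (C (T₀ : ℚ)) (X : ℚ[X]))
      (rsT (C (H₀ : ℚ)) (C (T₀ : ℚ)) (X : ℚ[X])) Q ≠ 0

/-- (PerturbRS core) away from the primes dividing `30 (T₀² + H₀³) t`, the values `rsF` and
`rsH` are coprime. -/
def RSCoprime : Prop :=
  ∀ (H₀ T₀ t : ℤ) (ℓ : ℕ), ℓ.Prime → ¬ (ℓ : ℤ) ∣ 30 → ¬ (ℓ : ℤ) ∣ (T₀ ^ 2 + H₀ ^ 3) →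
    ¬ (ℓ : ℤ) ∣ t → (ℓ : ℤ) ∣ rsF H₀ T₀ t → ¬ (ℓ : ℤ) ∣ rsH H₀ T₀ t

end Fermat.Agent.S52
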