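/-
S52 piece (D1), Rubin–Silverberg coprimality (helper6): over a field in which `2, 3, 5` are
invertible, if `T₀² + H₀³ ≠ 0` then `rsF H₀ T₀ t` and `rsH H₀ T₀ t` have no common zero `t`.
Proof through Klein's forms: pick `w = (u, v)` in the fibre over `(H₀, T₀)` (algebraically closed
field), move along the line `w + t J∇f(w)`, and use `f = H = 0 ⇒ w = 0`.

The two line identities are taken as hypotheses here (they are polynomial identities, proved in
`Fermat/Agent/S52/RSLine.lean`).
-/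
import Fermat.Agent.S52.RS
import Fermat.Agent.S52.Klein.Forms
import Fermat.Agent.S52.FibreKlein

set_option autoImplicit false

namespace Fermat.Agent.S52

section Ring

variable {R : Type*} [CommRing R]

/-- Division of Klein's `H` by `f / (u v)` as forms in `p, q`: the remainder is
`5⁵ q³ (11 p - q)`. -/
lemma klHH_eq_mul_klFF_add (p q : R) :
    klHH p q = (-p ^ 2 + 239 * p * q - 3124 * q ^ 2) * klFF p q
      + 3125 * q ^ 3 * (11 * p - q) := by
  simp only [klHH, klFF]; ring

end Ring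

section Field

variable {k : Type*} [Field k]

/-- Klein's forms `f` and `H` have no common zero other than the origin (char `≠ 5`). -/
lemma klf_klH_common_zero (h5 : (5 : k) ≠ 0) {u v : k} (hf : klf u v = 0)
    (hH : klH u v = 0) : u = 0 ∧ v = 0 := by
  by_cases hu : u = 0
  · refine ⟨hu, ?_⟩
    subst hu
    have h1 : klH (0 : k) v = -(v ^ 20) := by simp only [klH, klHH]; ring
    rw [h1, neg_eq_zero] at hH
    exact pow_eq_zero_iff (by norm_num) |>.1 hH
  by_cases hv : v = 0
  · exfalso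
    subst hv
    have h1 : klH u (0 : k) = -(u ^ 20) := by simp only [klH, klHH]; ring
    rw [h1, neg_eq_zero] at hH
    exact hu (pow_eq_zero_iff (by norm_num) |>.1 hH)
  exfalso
  have hFF : klFF (u ^ 5) (v ^ 5) = 0 := by
    have h1 : klf u v = u * v * klFF (u ^ 5) (v ^ 5) := rfl
    rw [h1] at hf
    rcases mul_eq_zero.1 hf with h | h
    · rcases mul_eq_zero.1 h with h | h
      · exact absurd h hu
      · exact absurd h hv
    · exact h
  have hHH : klHH (u ^ 5) (v ^ 5) = 0 := hH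
  rw [klHH_eq_mul_klFF_add, hFF, mul_zero, zero_add] at hHH
  have hq : (v ^ 5) ≠ 0 := pow_ne_zero _ hv
  have hp : (u ^ 5) ≠ 0 := pow_ne_zero _ hu
  have h3125 : (3125 : k) ≠ 0 := by
    have : (3125 : k) = 5 ^ 5 := by norm_num
    rw [this]
    exact pow_ne_zero _ h5
  have h11 : 11 * u ^ 5 - v ^ 5 = 0 := by
    rcases mul_eq_zero.1 hHH with h | h
    · rcases mul_eq_zero.1 h with h | h
      · exact absurd h h3125
      · exact absurd (pow_eq_zero_iff (by norm_num) |>.1 h) hq
    · exact h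
  have hqp : v ^ 5 = 11 * u ^ 5 := by linear_combination -h11
  have h2 : klFF (u ^ 5) (v ^ 5) = (u ^ 5) ^ 2 := by
    rw [hqp]; simp only [klFF]; ring
  rw [h2] at hFF
  exact hp (pow_eq_zero_iff (by norm_num) |>.1 hFF)

/-- (RS-coprime, field form) If `T₀² + H₀³ ≠ 0`, then `rsF H₀ T₀ t = 0` implies
`rsH H₀ T₀ t ≠ 0`. The line identities for `klf` and `klH` are hypotheses. -/
theorem rs_coprime_field_of_line [IsAlgClosed k]
    (hlineF : ∀ u v t : k, klf (klU u v t) (klV u v t)
      = klf u v * rsF (klH u v) (klT u v) t)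
    (hlineH : ∀ u v t : k, klH (klU u v t) (klV u v t) = rsH (klH u v) (klT u v) t)
    (h2 : (2 : k) ≠ 0) (h3 : (3 : k) ≠ 0) (h5 : (5 : k) ≠ 0) (H₀ T₀ t : k)
    (h : T₀ ^ 2 + H₀ ^ 3 ≠ 0) (hF : rsF H₀ T₀ t = 0) : rsH H₀ T₀ t ≠ 0 := by
  intro hH
  obtain ⟨u, v, hu, hv, hf⟩ := klein_fibre_nonempty h2 h3 h5 H₀ T₀ h
  have e1 : klf (klU u v t) (klV u v t) = 0 := by
    rw [hlineF, hu, hv, hF, mul_zero]
  have e2 : klH (klU u v t) (klV u v t) = 0 := by
    rw [hlineH, hu, hv, hH]
  obtain ⟨hU, hV⟩ := klf_klH_common_zero h5 e1 e2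
  have hfe : klf u v = u * v * klFF (u ^ 5) (v ^ 5) := rfl
  have hu0 : u ≠ 0 := by
    rintro rfl
    apply hf
    rw [hfe]; ring
  have hv0 : v ≠ 0 := by
    rintro rfl
    apply hf
    rw [hfe]; ring
  have hFF0 : klFF (u ^ 5) (v ^ 5) ≠ 0 := by
    intro h0
    apply hf
    rw [hfe, h0, mul_zero]
  have hU' : 1 + t * klA (u ^ 5) (v ^ 5) = 0 := by
    have : klU u v t = u * (1 + t * klA (u ^ 5) (v ^ 5)) := rfl
    rw [this] at hU
    exact (mul_eq_zero.1 hU).resolve_left hu0
  have hV' : 1 - t * klB (u ^ 5) (v ^ 5) = 0 := by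
    have : klV u v t = v * (1 - t * klB (u ^ 5) (v ^ 5)) := rfl
    rw [this] at hV
    exact (mul_eq_zero.1 hV).resolve_left hv0
  have hsum : t * (12 * klFF (u ^ 5) (v ^ 5)) = 0 := by
    rw [← klA_add_klB]
    linear_combination hU' - hV'
  have h12 : (12 : k) ≠ 0 := by
    have : (12 : k) = 2 ^ 2 * 3 := by norm_num
    rw [this]
    exact mul_ne_zero (pow_ne_zero _ h2) h3
  have ht : t = 0 := by
    rcases mul_eq_zero.1 hsum with h | h
    · exact h
    · exact absurd h (mul_ne_zero h12 hFF0)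
  rw [ht, zero_mul, add_zero] at hU'
  exact one_ne_zero hU'

end Field

end Fermat.Agent.S52
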