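/-
S52, Rubin–Silverberg line identities, staged for low memory (helper6; generated).
`rsFL_*`: the identity is split into (A) the expansion of the left side in powers of `t` with
`klA p q`, `klB p q` as atoms, (B) one small identity in `ℤ[p, q]` per power of `t`, (C) the
regrouping of `rsF` by powers of `t`.
-/
import Fermat.Agent.S52.RS
import Fermat.Agent.S52.Klein.Forms

set_option autoImplicit false
set_option linter.unusedSimpArgs false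
set_option linter.style.longLine false

namespace Fermat.Agent.S52

variable {R : Type*} [CommRing R]

set_option maxHeartbeats 8000000 in
/-- Stage A: expansion in powers of `t`, with `A`, `B` as atoms. -/
theorem rsFL_stageA (p q t A B : R) :
    (1 + t * A) * (1 - t * B) * klFF (p * (1 + t * A) ^ 5) (q * (1 - t * B) ^ 5) =
      (p ^ 2 + 11 * p * q - q ^ 2) * t ^ 0
      + (-p ^ 2 * B + 11 * p ^ 2 * A - 66 * p * q * B + 66 * p * q * A + 11 * q ^ 2 * B - q ^ 2 * A) * t ^ 1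
      + (-11 * p ^ 2 * A * B + 55 * p ^ 2 * A ^ 2 + 165 * p * q * B ^ 2 - 396 * p * q * A * B + 165 * p * q * A ^ 2 - 55 * q ^ 2 * B ^ 2 + 11 * q ^ 2 * A * B) * t ^ 2
      + (-55 * p ^ 2 * A ^ 2 * B + 165 * p ^ 2 * A ^ 3 - 220 * p * q * B ^ 3 + 990 * p * q * A * B ^ 2 - 990 * p * q * A ^ 2 * B + 220 * p * q * A ^ 3 + 165 * q ^ 2 * B ^ 3 - 55 * q ^ 2 * A * B ^ 2) * t ^ 3
      + (-165 * p ^ 2 * A ^ 3 * B + 330 * p ^ 2 * A ^ 4 + 165 * p * q * B ^ 4 - 1320 * p * q * A * B ^ 3 + 2475 * p * q * A ^ 2 * B ^ 2 - 1320 * p * q * A ^ 3 * B + 165 * p * q * A ^ 4 - 330 * q ^ 2 * B ^ 4 + 165 * q ^ 2 * A * B ^ 3) * t ^ 4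
      + (-330 * p ^ 2 * A ^ 4 * B + 462 * p ^ 2 * A ^ 5 - 66 * p * q * B ^ 5 + 990 * p * q * A * B ^ 4 - 3300 * p * q * A ^ 2 * B ^ 3 + 3300 * p * q * A ^ 3 * B ^ 2 - 990 * p * q * A ^ 4 * B + 66 * p * q * A ^ 5 + 462 * q ^ 2 * B ^ 5 - 330 * q ^ 2 * A * B ^ 4) * t ^ 5
      + (-462 * p ^ 2 * A ^ 5 * B + 462 * p ^ 2 * A ^ 6 + 11 * p * q * B ^ 6 - 396 * p * q * A * B ^ 5 + 2475 * p * q * A ^ 2 * B ^ 4 - 4400 * p * q * A ^ 3 * B ^ 3 + 2475 * p * q * A ^ 4 * B ^ 2 - 396 * p * q * A ^ 5 * B + 11 * p * q * A ^ 6 - 462 * q ^ 2 * B ^ 6 + 462 * q ^ 2 * A * B ^ 5) * t ^ 6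
      + (-462 * p ^ 2 * A ^ 6 * B + 330 * p ^ 2 * A ^ 7 + 66 * p * q * A * B ^ 6 - 990 * p * q * A ^ 2 * B ^ 5 + 3300 * p * q * A ^ 3 * B ^ 4 - 3300 * p * q * A ^ 4 * B ^ 3 + 990 * p * q * A ^ 5 * B ^ 2 - 66 * p * q * A ^ 6 * B + 330 * q ^ 2 * B ^ 7 - 462 * q ^ 2 * A * B ^ 6) * t ^ 7
      + (-330 * p ^ 2 * A ^ 7 * B + 165 * p ^ 2 * A ^ 8 + 165 * p * q * A ^ 2 * B ^ 6 - 1320 * p * q * A ^ 3 * B ^ 5 + 2475 * p * q * A ^ 4 * B ^ 4 - 1320 * p * q * A ^ 5 * B ^ 3 + 165 * p * q * A ^ 6 * B ^ 2 - 165 * q ^ 2 * B ^ 8 + 330 * q ^ 2 * A * B ^ 7) * t ^ 8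
      + (-165 * p ^ 2 * A ^ 8 * B + 55 * p ^ 2 * A ^ 9 + 220 * p * q * A ^ 3 * B ^ 6 - 990 * p * q * A ^ 4 * B ^ 5 + 990 * p * q * A ^ 5 * B ^ 4 - 220 * p * q * A ^ 6 * B ^ 3 + 55 * q ^ 2 * B ^ 9 - 165 * q ^ 2 * A * B ^ 8) * t ^ 9
      + (-55 * p ^ 2 * A ^ 9 * B + 11 * p ^ 2 * A ^ 10 + 165 * p * q * A ^ 4 * B ^ 6 - 396 * p * q * A ^ 5 * B ^ 5 + 165 * p * q * A ^ 6 * B ^ 4 - 11 * q ^ 2 * B ^ 10 + 55 * q ^ 2 * A * B ^ 9) * t ^ 10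
      + (-11 * p ^ 2 * A ^ 10 * B + p ^ 2 * A ^ 11 + 66 * p * q * A ^ 5 * B ^ 6 - 66 * p * q * A ^ 6 * B ^ 5 + q ^ 2 * B ^ 11 - 11 * q ^ 2 * A * B ^ 10) * t ^ 11
      + (-p ^ 2 * A ^ 11 * B + 11 * p * q * A ^ 6 * B ^ 6 + q ^ 2 * A * B ^ 11) * t ^ 12 := by
  simp only [klFF]
  ring

set_option maxHeartbeats 400000 in
theorem rsFL_coeff_0 (p q : R) :
    p ^ 2 + 11 * p * q - q ^ 2 =
      klFF p q * (1) := by
  simp only [klA, klB, klHH, klTT, klFF]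
  ring

set_option maxHeartbeats 400000 in
theorem rsFL_coeff_1 (p q : R) :
    -p ^ 2 * (klB p q) + 11 * p ^ 2 * (klA p q) - 66 * p * q * (klB p q) + 66 * p * q * (klA p q) + 11 * q ^ 2 * (klB p q) - q ^ 2 * (klA p q) =
      klFF p q * (0) := by
  simp only [klA, klB, klHH, klTT, klFF]
  ring

set_option maxHeartbeats 400000 in
theorem rsFL_coeff_2 (p q : R) :
    -11 * p ^ 2 * (klA p q) * (klB p q) + 55 * p ^ 2 * (klA p q) ^ 2 + 165 * p * q * (klB p q) ^ 2 - 396 * p * q * (klA p q) * (klB p q) + 165 * p * q * (klA p q) ^ 2 - 55 * q ^ 2 * (klB p q) ^ 2 + 11 * q ^ 2 * (klA p q) * (klB p q) =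
      klFF p q * (66 * (klHH p q)) := by
  simp only [klA, klB, klHH, klTT, klFF]
  ring

set_option maxHeartbeats 400000 in
theorem rsFL_coeff_3 (p q : R) :
    -55 * p ^ 2 * (klA p q) ^ 2 * (klB p q) + 165 * p ^ 2 * (klA p q) ^ 3 - 220 * p * q * (klB p q) ^ 3 + 990 * p * q * (klA p q) * (klB p q) ^ 2 - 990 * p * q * (klA p q) ^ 2 * (klB p q) + 220 * p * q * (klA p q) ^ 3 + 165 * q ^ 2 * (klB p q) ^ 3 - 55 * q ^ 2 * (klA p q) * (klB p q) ^ 2 =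
      klFF p q * (-440 * (klTT p q)) := by
  simp only [klA, klB, klHH, klTT, klFF]
  ring

set_option maxHeartbeats 400000 in
theorem rsFL_coeff_4 (p q : R) :
    -165 * p ^ 2 * (klA p q) ^ 3 * (klB p q) + 330 * p ^ 2 * (klA p q) ^ 4 + 165 * p * q * (klB p q) ^ 4 - 1320 * p * q * (klA p q) * (klB p q) ^ 3 + 2475 * p * q * (klA p q) ^ 2 * (klB p q) ^ 2 - 1320 * p * q * (klA p q) ^ 3 * (klB p q) + 165 * p * q * (klA p q) ^ 4 - 330 * q ^ 2 * (klB p q) ^ 4 + 165 * q ^ 2 * (klA p q) * (klB p q) ^ 3 =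
      klFF p q * (-1485 * (klHH p q) ^ 2) := by
  simp only [klA, klB, klHH, klTT, klFF]
  ring

set_option maxHeartbeats 400000 in
theorem rsFL_coeff_5 (p q : R) :
    -330 * p ^ 2 * (klA p q) ^ 4 * (klB p q) + 462 * p ^ 2 * (klA p q) ^ 5 - 66 * p * q * (klB p q) ^ 5 + 990 * p * q * (klA p q) * (klB p q) ^ 4 - 3300 * p * q * (klA p q) ^ 2 * (klB p q) ^ 3 + 3300 * p * q * (klA p q) ^ 3 * (klB p q) ^ 2 - 990 * p * q * (klA p q) ^ 4 * (klB p q) + 66 * p * q * (klA p q) ^ 5 + 462 * q ^ 2 * (klB p q) ^ 5 - 330 * q ^ 2 * (klA p q) * (klB p q) ^ 4 =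
      klFF p q * (3168 * (klHH p q) * (klTT p q)) := by
  simp only [klA, klB, klHH, klTT, klFF]
  ring

set_option maxHeartbeats 400000 in
theorem rsFL_coeff_6 (p q : R) :
    -462 * p ^ 2 * (klA p q) ^ 5 * (klB p q) + 462 * p ^ 2 * (klA p q) ^ 6 + 11 * p * q * (klB p q) ^ 6 - 396 * p * q * (klA p q) * (klB p q) ^ 5 + 2475 * p * q * (klA p q) ^ 2 * (klB p q) ^ 4 - 4400 * p * q * (klA p q) ^ 3 * (klB p q) ^ 3 + 2475 * p * q * (klA p q) ^ 4 * (klB p q) ^ 2 - 396 * p * q * (klA p q) ^ 5 * (klB p q) + 11 * p * q * (klA p q) ^ 6 - 462 * q ^ 2 * (klB p q) ^ 6 + 462 * q ^ 2 * (klA p q) * (klB p q) ^ 5 =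
      klFF p q * (-10560 * (klTT p q) ^ 2 - 5940 * (klHH p q) ^ 3) := by
  simp only [klA, klB, klHH, klTT, klFF]
  ring

set_option maxHeartbeats 400000 in
theorem rsFL_coeff_7 (p q : R) :
    -462 * p ^ 2 * (klA p q) ^ 6 * (klB p q) + 330 * p ^ 2 * (klA p q) ^ 7 + 66 * p * q * (klA p q) * (klB p q) ^ 6 - 990 * p * q * (klA p q) ^ 2 * (klB p q) ^ 5 + 3300 * p * q * (klA p q) ^ 3 * (klB p q) ^ 4 - 3300 * p * q * (klA p q) ^ 4 * (klB p q) ^ 3 + 990 * p * q * (klA p q) ^ 5 * (klB p q) ^ 2 - 66 * p * q * (klA p q) ^ 6 * (klB p q) + 330 * q ^ 2 * (klB p q) ^ 7 - 462 * q ^ 2 * (klA p q) * (klB p q) ^ 6 =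
      klFF p q * (-4752 * (klHH p q) ^ 2 * (klTT p q)) := by
  simp only [klA, klB, klHH, klTT, klFF]
  ring

set_option maxHeartbeats 400000 in
theorem rsFL_coeff_8 (p q : R) :
    -330 * p ^ 2 * (klA p q) ^ 7 * (klB p q) + 165 * p ^ 2 * (klA p q) ^ 8 + 165 * p * q * (klA p q) ^ 2 * (klB p q) ^ 6 - 1320 * p * q * (klA p q) ^ 3 * (klB p q) ^ 5 + 2475 * p * q * (klA p q) ^ 4 * (klB p q) ^ 4 - 1320 * p * q * (klA p q) ^ 5 * (klB p q) ^ 3 + 165 * p * q * (klA p q) ^ 6 * (klB p q) ^ 2 - 165 * q ^ 2 * (klB p q) ^ 8 + 330 * q ^ 2 * (klA p q) * (klB p q) ^ 7 =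
      klFF p q * (-63360 * (klHH p q) * (klTT p q) ^ 2 - 66825 * (klHH p q) ^ 4) := by
  simp only [klA, klB, klHH, klTT, klFF]
  ring

set_option maxHeartbeats 400000 in
theorem rsFL_coeff_9 (p q : R) :
    -165 * p ^ 2 * (klA p q) ^ 8 * (klB p q) + 55 * p ^ 2 * (klA p q) ^ 9 + 220 * p * q * (klA p q) ^ 3 * (klB p q) ^ 6 - 990 * p * q * (klA p q) ^ 4 * (klB p q) ^ 5 + 990 * p * q * (klA p q) ^ 5 * (klB p q) ^ 4 - 220 * p * q * (klA p q) ^ 6 * (klB p q) ^ 3 + 55 * q ^ 2 * (klB p q) ^ 9 - 165 * q ^ 2 * (klA p q) * (klB p q) ^ 8 =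
      klFF p q * (140800 * (klTT p q) ^ 3 + 142560 * (klHH p q) ^ 3 * (klTT p q)) := by
  simp only [klA, klB, klHH, klTT, klFF]
  ring

set_option maxHeartbeats 400000 in
theorem rsFL_coeff_10 (p q : R) :
    -55 * p ^ 2 * (klA p q) ^ 9 * (klB p q) + 11 * p ^ 2 * (klA p q) ^ 10 + 165 * p * q * (klA p q) ^ 4 * (klB p q) ^ 6 - 396 * p * q * (klA p q) ^ 5 * (klB p q) ^ 5 + 165 * p * q * (klA p q) ^ 6 * (klB p q) ^ 4 - 11 * q ^ 2 * (klB p q) ^ 10 + 55 * q ^ 2 * (klA p q) * (klB p q) ^ 9 =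
      klFF p q * (133056 * (klHH p q) ^ 2 * (klTT p q) ^ 2 + 133650 * (klHH p q) ^ 5) := by
  simp only [klA, klB, klHH, klTT, klFF]
  ring

set_option maxHeartbeats 400000 in
theorem rsFL_coeff_11 (p q : R) :
    -11 * p ^ 2 * (klA p q) ^ 10 * (klB p q) + p ^ 2 * (klA p q) ^ 11 + 66 * p * q * (klA p q) ^ 5 * (klB p q) ^ 6 - 66 * p * q * (klA p q) ^ 6 * (klB p q) ^ 5 + q ^ 2 * (klB p q) ^ 11 - 11 * q ^ 2 * (klA p q) * (klB p q) ^ 10 =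
      klFF p q * (-61440 * (klHH p q) * (klTT p q) ^ 3 - 61560 * (klHH p q) ^ 4 * (klTT p q)) := by
  simp only [klA, klB, klHH, klTT, klFF]
  ring

set_option maxHeartbeats 400000 in
theorem rsFL_coeff_12 (p q : R) :
    -p ^ 2 * (klA p q) ^ 11 * (klB p q) + 11 * p * q * (klA p q) ^ 6 * (klB p q) ^ 6 + q ^ 2 * (klA p q) * (klB p q) ^ 11 =
      klFF p q * (102400 * (klTT p q) ^ 4 + 193536 * (klHH p q) ^ 3 * (klTT p q) ^ 2 + 91125 * (klHH p q) ^ 6) := by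
  simp only [klA, klB, klHH, klTT, klFF]
  ring

set_option maxHeartbeats 8000000 in
/-- Stage C: regrouping by powers of `t`. -/
theorem rsFL_regroup (H T t : R) :
    rsF H T t =
      (1) * t ^ 0
      + (0) * t ^ 1
      + (66 * H) * t ^ 2
      + (-440 * T) * t ^ 3
      + (-1485 * H ^ 2) * t ^ 4
      + (3168 * H * T) * t ^ 5
      + (-10560 * T ^ 2 - 5940 * H ^ 3) * t ^ 6
      + (-4752 * H ^ 2 * T) * t ^ 7
      + (-63360 * H * T ^ 2 - 66825 * H ^ 4) * t ^ 8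
      + (140800 * T ^ 3 + 142560 * H ^ 3 * T) * t ^ 9
      + (133056 * H ^ 2 * T ^ 2 + 133650 * H ^ 5) * t ^ 10
      + (-61440 * H * T ^ 3 - 61560 * H ^ 4 * T) * t ^ 11
      + (102400 * T ^ 4 + 193536 * H ^ 3 * T ^ 2 + 91125 * H ^ 6) * t ^ 12 := by
  simp only [rsF]
  ring

set_option maxHeartbeats 4000000 in
/-- The line identity for `f / (u v)` in the variables `p = u⁵`, `q = v⁵`. -/
theorem rsF_line_pq (p q t : R) :
    (1 + t * klA p q) * (1 - t * klB p q)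
        * klFF (p * (1 + t * klA p q) ^ 5) (q * (1 - t * klB p q) ^ 5)
      = klFF p q * rsF (klHH p q) (klTT p q) t := by
  rw [rsFL_stageA p q t (klA p q) (klB p q), rsFL_regroup]
  linear_combination t ^ 0 * rsFL_coeff_0 p q + t ^ 1 * rsFL_coeff_1 p q + t ^ 2 * rsFL_coeff_2 p q + t ^ 3 * rsFL_coeff_3 p q + t ^ 4 * rsFL_coeff_4 p q + t ^ 5 * rsFL_coeff_5 p q + t ^ 6 * rsFL_coeff_6 p q + t ^ 7 * rsFL_coeff_7 p q + t ^ 8 * rsFL_coeff_8 p q + t ^ 9 * rsFL_coeff_9 p q + t ^ 10 * rsFL_coeff_10 p q + t ^ 11 * rsFL_coeff_11 p q + t ^ 12 * rsFL_coeff_12 p q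

end Fermat.Agent.S52
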