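/-
S52, Rubin–Silverberg line identities (helper6): Klein's forms along the line `w + t J∇f(w)`.

With `(U, V) = (klU u v t, klV u v t) = w + t J∇f(w)`:
* `klf U V = klf u v * rsF (klH u v) (klT u v) t`
* `klH U V = rsH (klH u v) (klT u v) t`
Both are polynomial identities over any commutative ring.  The identities in the variables
`p = u⁵`, `q = v⁵`, `t` (`rsF_line_pq`, `rsH_line_pq`) are proved in staged form (coefficientwise
in `t`, low memory) in `RSLineF.lean` and `RSLineH/*.lean`.
-/
import Fermat.Agent.S52.RS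
import Fermat.Agent.S52.Klein.Forms
import Fermat.Agent.S52.RSLineF
import Fermat.Agent.S52.RSLineH.Final

set_option autoImplicit false

namespace Fermat.Agent.S52

variable {R : Type*} [CommRing R]

lemma rsLine_klU_pow_five (u v t : R) :
    klU u v t ^ 5 = u ^ 5 * (1 + t * klA (u ^ 5) (v ^ 5)) ^ 5 := by
  simp only [klU, mul_pow]

lemma rsLine_klV_pow_five (u v t : R) :
    klV u v t ^ 5 = v ^ 5 * (1 - t * klB (u ^ 5) (v ^ 5)) ^ 5 := by
  simp only [klV, mul_pow]

/-- Line identity for Klein's `f`: `f(w + t J∇f(w)) = f(w) * rsF(H(w), T(w), t)`. -/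
theorem klf_line (u v t : R) :
    klf (klU u v t) (klV u v t) = klf u v * rsF (klH u v) (klT u v) t := by
  have h := rsF_line_pq (u ^ 5) (v ^ 5) t
  have e : klf (klU u v t) (klV u v t)
      = u * v * ((1 + t * klA (u ^ 5) (v ^ 5)) * (1 - t * klB (u ^ 5) (v ^ 5))
        * klFF (u ^ 5 * (1 + t * klA (u ^ 5) (v ^ 5)) ^ 5)
            (v ^ 5 * (1 - t * klB (u ^ 5) (v ^ 5)) ^ 5)) := by
    rw [klf, rsLine_klU_pow_five, rsLine_klV_pow_five, klU, klV]
    ring
  rw [e, h, klf, klH, klT]
  ring

/-- Line identity for Klein's `H`: `H(w + t J∇f(w)) = rsH(H(w), T(w), t)`. -/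
theorem klH_line (u v t : R) :
    klH (klU u v t) (klV u v t) = rsH (klH u v) (klT u v) t := by
  rw [klH, rsLine_klU_pow_five, rsLine_klV_pow_five, rsH_line_pq]
  rfl

end Fermat.Agent.S52
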