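/-
S52 piece (D1), concrete form (helper6): the integral model `W_t` of the Rubin–Silverberg family.

For a semistable integral Weierstrass model `W` with `Δ ≠ 0` and every integer `t` divisible by
`1728 * 30 * Δ` there is a semistable integral model `W'` with
`c₄' = -rsH (-c₄) (-c₆) t`, `c₆' = -rsT (-c₄) (-c₆) t`, `Δ' = Δ * rsF (-c₄) (-c₆) t ^ 5 ≠ 0`,
having the same reduction as `W` modulo every prime dividing `t`.
-/
import Fermat.Agent.S52.Perturb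
import Fermat.Agent.S52.RSRel
import Fermat.Agent.S52.RSCoprime
import Fermat.Agent.S52.RSLine

set_option autoImplicit false

open WeierstrassCurve

namespace Fermat.Agent.S52

/-- (RS-coprime, integer form) For a prime `ℓ ∤ 30` not dividing `T₀² + H₀³`: if `ℓ` divides
`rsF H₀ T₀ t` then `ℓ` does not divide `rsH H₀ T₀ t`. -/
theorem rs_coprime_int (ℓ : ℕ) (hℓ : ℓ.Prime) (h30 : ¬ (ℓ : ℤ) ∣ 30) (H₀ T₀ t : ℤ)
    (h : ¬ (ℓ : ℤ) ∣ T₀ ^ 2 + H₀ ^ 3) (hF : (ℓ : ℤ) ∣ rsF H₀ T₀ t) :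
    ¬ (ℓ : ℤ) ∣ rsH H₀ T₀ t := by
  haveI : Fact ℓ.Prime := ⟨hℓ⟩
  let k := AlgebraicClosure (ZMod ℓ)
  let φ : ℤ →+* k := (algebraMap (ZMod ℓ) k).comp (Int.castRingHom (ZMod ℓ))
  have hφ : ∀ n : ℤ, φ n = 0 ↔ (ℓ : ℤ) ∣ n := by
    intro n
    have h1 : φ n = algebraMap (ZMod ℓ) k (n : ZMod ℓ) := rfl
    rw [h1, map_eq_zero_iff _ (algebraMap (ZMod ℓ) k).injective,
      ZMod.intCast_zmod_eq_zero_iff_dvd]
  have hne : ∀ n : ℤ, ¬ (ℓ : ℤ) ∣ n → φ n ≠ 0 := fun n hn h0 => hn ((hφ n).1 h0)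
  have h2 : (2 : k) ≠ 0 := by
    have := hne 2 (fun hd => h30 (hd.trans ⟨15, by norm_num⟩))
    simpa using this
  have h3 : (3 : k) ≠ 0 := by
    have := hne 3 (fun hd => h30 (hd.trans ⟨10, by norm_num⟩))
    simpa using this
  have h5 : (5 : k) ≠ 0 := by
    have := hne 5 (fun hd => h30 (hd.trans ⟨6, by norm_num⟩))
    simpa using this
  obtain ⟨mH, -, mF⟩ := rs_map φ H₀ T₀ t
  have hdisc : φ T₀ ^ 2 + φ H₀ ^ 3 ≠ 0 := by
    have := hne _ h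
    simpa using this
  have hF' : rsF (φ H₀) (φ T₀) (φ t) = 0 := by
    rw [← mF]
    exact (hφ _).2 hF
  have key := rs_coprime_field_of_line (k := k) (fun u v t => klf_line u v t)
    (fun u v t => klH_line u v t) h2 h3 h5 (φ H₀) (φ T₀) (φ t) hdisc hF'
  intro hH
  apply key
  rw [← mH]
  exact (hφ _).2 hH

/-- **(D1)** The integral model `W_t` of the Rubin–Silverberg family through a semistable
integral model `W`, for `t` divisible by `1728 * 30 * Δ(W)`. -/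
theorem exists_rs_model (W : WeierstrassCurve ℤ) (hΔ : W.Δ ≠ 0) (hW : W.IsSemistableModel)
    (t : ℤ) (ht : 1728 * 30 * W.Δ ∣ t) :
    ∃ W' : WeierstrassCurve ℤ,
      W'.c₄ = -rsH (-W.c₄) (-W.c₆) t ∧ W'.c₆ = -rsT (-W.c₄) (-W.c₆) t ∧
      W'.Δ = W.Δ * rsF (-W.c₄) (-W.c₆) t ^ 5 ∧ W'.Δ ≠ 0 ∧ W'.IsSemistableModel ∧
      (∀ ℓ : ℕ, ℓ.Prime → (ℓ : ℤ) ∣ t → W'.reductionMod ℓ = W.reductionMod ℓ) ∧
      (∀ ℓ : ℕ, ℓ.Prime → (ℓ : ℤ) ∣ t → W'.apOfModel ℓ = W.apOfModel ℓ) := by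
  refine exists_perturbed_model W hΔ hW t (rsH (-W.c₄) (-W.c₆) t) (rsT (-W.c₄) (-W.c₆) t)
    (rsF (-W.c₄) (-W.c₆) t) ht ?_ ?_ ?_ (rs_rel _ _ _) ?_
  · exact ⟨rsHq (-W.c₄) (-W.c₆) t, by rw [rsH_eq]; ring⟩
  · exact ⟨rsTq (-W.c₄) (-W.c₆) t, by rw [rsT_eq]; ring⟩
  · exact ⟨rsFq (-W.c₄) (-W.c₆) t, by rw [rsF_eq]; ring⟩
  · intro ℓ hℓ hℓt hF
    have hℓ' : Prime (ℓ : ℤ) := Nat.prime_iff_prime_int.mp hℓ
    have h30 : ¬ (ℓ : ℤ) ∣ 30 := by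
      intro hd
      apply hℓt
      obtain ⟨s, hs⟩ := ht
      rw [hs]
      have : (1728 : ℤ) * 30 * W.Δ * s = 30 * (1728 * W.Δ * s) := by ring
      rw [this]
      exact Dvd.dvd.mul_right hd _
    have hΔℓ : ¬ (ℓ : ℤ) ∣ W.Δ := by
      intro hd
      apply hℓt
      obtain ⟨s, hs⟩ := ht
      rw [hs]
      exact Dvd.dvd.mul_right (Dvd.dvd.mul_left hd _) _
    have h1728 : ¬ (ℓ : ℤ) ∣ 1728 := by
      intro hd
      apply hℓt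
      obtain ⟨s, hs⟩ := ht
      rw [hs, mul_assoc, mul_assoc]
      exact Dvd.dvd.mul_right hd _
    have hdisc : ¬ (ℓ : ℤ) ∣ (-W.c₆) ^ 2 + (-W.c₄) ^ 3 := by
      have e : (-W.c₆) ^ 2 + (-W.c₄) ^ 3 = -(1728 * W.Δ) := by
        rw [W.c_relation]; ring
      rw [e, dvd_neg]
      intro hd
      rcases hℓ'.dvd_or_dvd hd with h | h
      · exact h1728 h
      · exact hΔℓ h
    exact rs_coprime_int ℓ hℓ h30 _ _ t hdisc hF

end Fermat.Agent.S52
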