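/-
S52: the input `RSCoprime` of the final assembly is a theorem (helper6).
-/
import Fermat.Agent.S52.Iface3
import Fermat.Agent.S52.PerturbRS

set_option autoImplicit false

namespace Fermat.Agent.S52

/-- The Rubin–Silverberg coprimality input of `s52_of_inputs`. -/
theorem rsCoprime : RSCoprime := fun H₀ T₀ t ℓ hℓ h30 hd _ hF =>
  rs_coprime_int ℓ hℓ h30 H₀ T₀ t hd hF

end Fermat.Agent.S52
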