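import Mathlib

/-!
# S52 piece (C-e): the fibre of Klein's invariants `(H, T)` over an algebraically closed field

Klein's icosahedral forms (in `u, v`, with `p = u⁵`, `q = v⁵`):
* `H = -(p⁴ + q⁴) + 228 (p³ q - p q³) - 494 p² q²`          (degree 20)
* `T = (p⁶ + q⁶) + 522 (p⁵ q - p q⁵) - 10005 (p⁴ q² + p² q⁴)` (degree 30)

Main result `Fermat.Agent.S52.fibre_nonempty`: over an algebraically closed field in which
`2, 3, 5` are invertible, every pair `(H₀, T₀)` with `T₀² + H₀³ ≠ 0` is of the form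
`(H (u, v), T (u, v))`.
-/

set_option autoImplicit false

open Polynomial

namespace Fermat.Agent.S52

section Defs

variable {R : Type*} [CommRing R]

/-- Klein's form `H` of degree 20. -/
def fibH (u v : R) : R :=
  -(u ^ 20 + v ^ 20) + 228 * (u ^ 15 * v ^ 5 - u ^ 5 * v ^ 15) - 494 * u ^ 10 * v ^ 10

/-- Klein's form `T` of degree 30. -/
def fibT (u v : R) : R :=
  (u ^ 30 + v ^ 30) + 522 * (u ^ 25 * v ^ 5 - u ^ 5 * v ^ 25)
    - 10005 * (u ^ 20 * v ^ 10 + u ^ 10 * v ^ 20)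

lemma fibH_smul (μ u v : R) : fibH (μ * u) (μ * v) = μ ^ 20 * fibH u v := by
  unfold fibH; ring

lemma fibT_smul (μ u v : R) : fibT (μ * u) (μ * v) = μ ^ 30 * fibT u v := by
  unfold fibT; ring

/-- Bézout certificate: `H(u,1)` and `T(u,1)` generate the unit ideal away from `2, 3, 5`. -/
lemma fib_bezout (u : R) :
    (950431323 + 20237705983 * u ^ 5 - 103588896 * u ^ 10 + 20237108822 * u ^ 15
        - 1055557719 * u ^ 20 - 2022161 * u ^ 25) * fibH u 1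
      + (-455818677 - 1001301767 * u ^ 5 + 461063031 * u ^ 10 - 2022161 * u ^ 15) * fibT u 1
      = -(2 ^ 4 * 3 ^ 2 * 5 ^ 10) := by
  unfold fibH fibT; ring

end Defs

section Field

variable {k : Type*} [Field k]

lemma fib_not_both_zero (h2 : (2 : k) ≠ 0) (h3 : (3 : k) ≠ 0) (h5 : (5 : k) ≠ 0) (u : k)
    (hH : fibH u 1 = 0) (hT : fibT u 1 = 0) : False := by
  have h := fib_bezout u
  rw [hH, hT, mul_zero, mul_zero, add_zero] at h
  have hne : (2 : k) ^ 4 * 3 ^ 2 * 5 ^ 10 ≠ 0 :=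
    mul_ne_zero (mul_ne_zero (pow_ne_zero _ h2) (pow_ne_zero _ h3)) (pow_ne_zero _ h5)
  exact hne (neg_eq_zero.mp h.symm)

/-- The auxiliary polynomial (in `p = u⁵`) whose roots give points of the fibre up to scaling. -/
noncomputable def fibPoly (H₀ T₀ : k) : k[X] :=
  C (H₀ ^ 3) * (X ^ 6 + 522 * X ^ 5 - 10005 * X ^ 4 - 10005 * X ^ 2 - 522 * X + 1) ^ 2
    - C (T₀ ^ 2) * (-X ^ 4 + 228 * X ^ 3 - 494 * X ^ 2 - 228 * X - 1) ^ 3

lemma fibPoly_natDegree (H₀ T₀ : k) (h : T₀ ^ 2 + H₀ ^ 3 ≠ 0) :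
    (fibPoly H₀ T₀).natDegree = 12 := by
  unfold fibPoly
  compute_degree!
  intro h0
  apply h
  have : H₀ ^ 3 + T₀ ^ 2 = 0 := by simpa using h0
  linear_combination this

lemma fibPoly_eval (H₀ T₀ p : k) :
    (fibPoly H₀ T₀).eval p =
      H₀ ^ 3 * (p ^ 6 + 522 * p ^ 5 - 10005 * p ^ 4 - 10005 * p ^ 2 - 522 * p + 1) ^ 2
        - T₀ ^ 2 * (-p ^ 4 + 228 * p ^ 3 - 494 * p ^ 2 - 228 * p - 1) ^ 3 := by
  unfold fibPoly
  simp only [eval_sub, eval_mul, eval_C, eval_pow, eval_add, eval_X, eval_one, eval_neg,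
    eval_ofNat]

variable [IsAlgClosed k]

/-- A point of the projectivised fibre: `H₀³ T(u,1)² = T₀² H(u,1)³`. -/
lemma exists_ratio (H₀ T₀ : k) (h : T₀ ^ 2 + H₀ ^ 3 ≠ 0) :
    ∃ u : k, H₀ ^ 3 * fibT u 1 ^ 2 = T₀ ^ 2 * fibH u 1 ^ 3 := by
  have hdeg : (fibPoly H₀ T₀).degree ≠ 0 := by
    intro h0
    have h1 := natDegree_eq_of_degree_eq_some (n := 0) (by simpa using h0)
    rw [fibPoly_natDegree H₀ T₀ h] at h1
    norm_num at h1
  obtain ⟨p, hp⟩ := IsAlgClosed.exists_root (fibPoly H₀ T₀) hdeg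
  obtain ⟨u, hu⟩ := IsAlgClosed.exists_pow_nat_eq p (n := 5) (by norm_num)
  refine ⟨u, ?_⟩
  rw [IsRoot, fibPoly_eval] at hp
  unfold fibH fibT
  rw [← hu] at hp
  linear_combination hp

/-- **(C-e)** Fibre nonempty: over an algebraically closed field with `2, 3, 5` invertible,
every `(H₀, T₀)` with `T₀² + H₀³ ≠ 0` is a value of Klein's pair `(H, T)`. -/
theorem fibre_nonempty (h2 : (2 : k) ≠ 0) (h3 : (3 : k) ≠ 0) (h5 : (5 : k) ≠ 0)
    (H₀ T₀ : k) (h : T₀ ^ 2 + H₀ ^ 3 ≠ 0) :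
    ∃ u v : k, fibH u v = H₀ ∧ fibT u v = T₀ := by
  obtain ⟨u₀, hu₀⟩ := exists_ratio H₀ T₀ h
  set H₁ := fibH u₀ 1 with hH₁
  set T₁ := fibT u₀ 1 with hT₁
  have hscale : ∀ μ : k, fibH (μ * u₀) μ = μ ^ 20 * H₁ ∧ fibT (μ * u₀) μ = μ ^ 30 * T₁ := by
    intro μ
    have e1 := fibH_smul μ u₀ 1
    have e2 := fibT_smul μ u₀ 1
    rw [mul_one] at e1 e2
    exact ⟨e1, e2⟩
  by_cases hH : H₁ = 0
  · -- then `T₁ ≠ 0`, `H₀ = 0`, `T₀ ≠ 0`
    have hT : T₁ ≠ 0 := fun hT => fib_not_both_zero h2 h3 h5 u₀ hH hT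
    have hH0 : H₀ = 0 := by
      rw [hH] at hu₀
      have : H₀ ^ 3 * T₁ ^ 2 = 0 := by rw [hu₀]; ring
      have := (mul_eq_zero.mp this).resolve_right (pow_ne_zero _ hT)
      exact pow_eq_zero_iff (by norm_num) |>.mp this
    obtain ⟨μ, hμ⟩ := IsAlgClosed.exists_pow_nat_eq (T₀ / T₁) (n := 30) (by norm_num)
    refine ⟨μ * u₀, μ, ?_, ?_⟩
    · rw [(hscale μ).1, hH, hH0, mul_zero]
    · rw [(hscale μ).2, hμ, div_mul_cancel₀ _ hT]
  · by_cases hT : T₁ = 0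
    · have hT0 : T₀ = 0 := by
        rw [hT] at hu₀
        have : T₀ ^ 2 * H₁ ^ 3 = 0 := by rw [← hu₀]; ring
        have := (mul_eq_zero.mp this).resolve_right (pow_ne_zero _ hH)
        exact pow_eq_zero_iff (by norm_num) |>.mp this
      obtain ⟨μ, hμ⟩ := IsAlgClosed.exists_pow_nat_eq (H₀ / H₁) (n := 20) (by norm_num)
      refine ⟨μ * u₀, μ, ?_, ?_⟩
      · rw [(hscale μ).1, hμ, div_mul_cancel₀ _ hH]
      · rw [(hscale μ).2, hT, hT0, mul_zero]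
    · -- generic case
      have hH0 : H₀ ≠ 0 := by
        intro h0
        rw [h0] at hu₀ h
        have h1 : T₀ ^ 2 * H₁ ^ 3 = 0 := by rw [← hu₀]; ring
        have h2' := (mul_eq_zero.mp h1).resolve_right (pow_ne_zero _ hH)
        apply h
        rw [h2']; ring
      have hT0 : T₀ ≠ 0 := by
        intro h0
        rw [h0] at hu₀ h
        have h1 : H₀ ^ 3 * T₁ ^ 2 = 0 := by rw [hu₀]; ring
        have h2' := (mul_eq_zero.mp h1).resolve_right (pow_ne_zero _ hT)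
        apply h
        rw [h2']; ring
      set α := H₀ / H₁ with hα
      set β := T₀ / T₁ with hβ
      have hαne : α ≠ 0 := div_ne_zero hH0 hH
      have hβne : β ≠ 0 := div_ne_zero hT0 hT
      have hαβ : α ^ 3 = β ^ 2 := by
        rw [hα, hβ, div_pow, div_pow, div_eq_div_iff (pow_ne_zero _ hH) (pow_ne_zero _ hT)]
        linear_combination hu₀
      obtain ⟨μ, hμ⟩ := IsAlgClosed.exists_pow_nat_eq (β / α) (n := 10) (by norm_num)
      have h20 : μ ^ 20 = α := by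
        have : μ ^ 20 = (μ ^ 10) ^ 2 := by ring
        rw [this, hμ, div_pow, ← hαβ]
        field_simp
      have h30 : μ ^ 30 = β := by
        have : μ ^ 30 = (μ ^ 10) ^ 3 := by ring
        rw [this, hμ, div_pow, hαβ]
        field_simp
      refine ⟨μ * u₀, μ, ?_, ?_⟩
      · rw [(hscale μ).1, h20, hα, div_mul_cancel₀ _ hH]
      · rw [(hscale μ).2, h30, hβ, div_mul_cancel₀ _ hT]

/-- Unfolded form of `fibre_nonempty` (explicit expressions, for bridging to other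
definitions of Klein's forms). -/
theorem fibre_nonempty' (h2 : (2 : k) ≠ 0) (h3 : (3 : k) ≠ 0) (h5 : (5 : k) ≠ 0)
    (H₀ T₀ : k) (h : T₀ ^ 2 + H₀ ^ 3 ≠ 0) :
    ∃ u v : k,
      -(u ^ 20 + v ^ 20) + 228 * (u ^ 15 * v ^ 5 - u ^ 5 * v ^ 15) - 494 * u ^ 10 * v ^ 10 = H₀ ∧
      (u ^ 30 + v ^ 30) + 522 * (u ^ 25 * v ^ 5 - u ^ 5 * v ^ 25)
        - 10005 * (u ^ 20 * v ^ 10 + u ^ 10 * v ^ 20) = T₀ :=
  fibre_nonempty h2 h3 h5 H₀ T₀ h

end Field

end Fermat.Agent.S52
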