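import Fermat.Agent.S52.Iface
import Fermat.Agent.S52.RS

/-!
# S52: interface statement for piece (C) (helper52)
-/

set_option autoImplicit false

open WeierstrassCurve WeierstrassCurve.Affine

namespace Fermat.Agent.S52

/-- (C) the 5-congruence of traces in the Rubin–Silverberg family, over `ZMod ℓ`, `ℓ ≥ 7`. -/
def KleinCongr : Prop :=
  ∀ (ℓ : ℕ) [Fact ℓ.Prime], 7 ≤ ℓ → ∀ (H₀ T₀ t : ZMod ℓ), T₀ ^ (2 : ℕ) + H₀ ^ (3 : ℕ) ≠ 0 →
    rsF H₀ T₀ t ≠ 0 →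
    (5 : ℤ) ∣ (shortW (27 * rsH H₀ T₀ t) (54 * rsT H₀ T₀ t)).traceOfFrobenius
      - (shortW (27 * H₀) (54 * T₀)).traceOfFrobenius

end Fermat.Agent.S52
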