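import Fermat.Agent.S52.ThinSetRS

/-!
# S52 (D2b): two standalone lemmas for `NoSection` (helper72, for helper98's plan)

* `noSec_natDegree_le`: a polynomial root `Q` of `Z⁴ + 6 A Z² + 8 B Z - 3 A²` with
  `deg A ≤ 20`, `deg B ≤ 30` has degree `≤ 10`.
* `noSec_coeff_eq_zero`: if `h`, `t` are invariant under `X ↦ ζ X` (`ζ` a primitive 5th root of
  unity), then every polynomial root `P` of `Z⁴ + 6 h Z² + 8 t Z - 3 h²` is a polynomial in `X⁵`.
-/

set_option autoImplicit false

open Polynomial

namespace Fermat.Agent.S52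

/-- (X) degree bound. -/
theorem noSec_natDegree_le {L : Type*} [Field L] (A B Q : L[X]) (hA : A.natDegree ≤ 20)
    (hB : B.natDegree ≤ 30) (h : rsQuarticAt A B Q = 0) : Q.natDegree ≤ 10 := by
  by_contra hcon
  have hd : 11 ≤ Q.natDegree := by omega
  have hQ4 : Q ^ 4 = -(6 * A * Q ^ 2) - 8 * B * Q + 3 * A ^ 2 := by
    simp only [rsQuarticAt] at h
    linear_combination h
  have h1 : (Q ^ 4).natDegree = 4 * Q.natDegree := Polynomial.natDegree_pow Q 4
  have hc6 : ((6 : L[X])).natDegree = 0 := Polynomial.natDegree_ofNat 6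
  have hc8 : ((8 : L[X])).natDegree = 0 := Polynomial.natDegree_ofNat 8
  have hc3 : ((3 : L[X])).natDegree = 0 := Polynomial.natDegree_ofNat 3
  have hQ2 : (Q ^ 2).natDegree ≤ 2 * Q.natDegree := Polynomial.natDegree_pow_le
  have hA2 : (A ^ 2).natDegree ≤ 2 * A.natDegree := Polynomial.natDegree_pow_le
  have hb1 : (6 * A * Q ^ 2).natDegree ≤ 20 + 2 * Q.natDegree := by
    refine (Polynomial.natDegree_mul_le).trans ?_
    have := Polynomial.natDegree_mul_le (p := (6 : L[X])) (q := A)
    omega
  have hb2 : (8 * B * Q).natDegree ≤ 30 + Q.natDegree := by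
    refine (Polynomial.natDegree_mul_le).trans ?_
    have := Polynomial.natDegree_mul_le (p := (8 : L[X])) (q := B)
    omega
  have hb3 : (3 * A ^ 2).natDegree ≤ 40 := by
    refine (Polynomial.natDegree_mul_le).trans ?_
    omega
  have h2 : (-(6 * A * Q ^ 2) - 8 * B * Q + 3 * A ^ 2).natDegree < 4 * Q.natDegree := by
    refine lt_of_le_of_lt (Polynomial.natDegree_add_le _ _) (max_lt ?_ (by omega))
    refine lt_of_le_of_lt (Polynomial.natDegree_sub_le _ _) (max_lt ?_ (by omega))
    rw [Polynomial.natDegree_neg]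
    omega
  rw [← hQ4, h1] at h2
  exact lt_irrefl _ h2

/-- The substitution `X ↦ r X` preserves the quartic relation. -/
theorem noSec_comp {L : Type*} [Field L] (h t P R : L[X]) (hh : h.comp R = h)
    (ht : t.comp R = t) (hP : rsQuarticAt h t P = 0) : rsQuarticAt h t (P.comp R) = 0 := by
  have h1 := rsQuarticAt_map (Polynomial.compRingHom R) h t P
  simp only [Polynomial.coe_compRingHom_apply] at h1
  rw [hh, ht, hP] at h1
  rw [← h1]
  exact Polynomial.zero_comp (p := R)

theorem noSec_comp_pow {L : Type*} [Field L] (z : L) (h : L[X]) (hh : h.comp (C z * X) = h)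
    (k : ℕ) : h.comp (C (z ^ k) * X) = h := by
  induction k with
  | zero => simp
  | succ k ih =>
    have e : (C (z ^ (k + 1)) * X : L[X]) = (C (z ^ k) * X).comp (C z * X) := by
      simp only [mul_comp, C_comp, X_comp, pow_succ, C_mul]
      ring
    rw [e, ← Polynomial.comp_assoc, ih, hh]

/-- (Y) pigeonhole: a polynomial root of the quartic is a polynomial in `X⁵`. -/
theorem noSec_coeff_eq_zero {L : Type*} [Field L] (z : L) (hz : IsPrimitiveRoot z 5)
    (h t P : L[X]) (hh : h.comp (C z * X) = h) (ht : t.comp (C z * X) = t)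
    (hP : rsQuarticAt h t P = 0) : ∀ i, ¬ 5 ∣ i → P.coeff i = 0 := by
  classical
  intro i hi
  -- the quartic over `L[X]`
  set Ψ : L[X][X] := rsDepQuartic (6 * h) (8 * t) (-(3 * h ^ 2)) with hΨ
  have hΨmonic : Ψ.Monic := rsDepQuartic_monic _ _ _
  have hΨdeg : Ψ.natDegree ≤ 4 := by
    rw [hΨ, rsDepQuartic]
    refine Polynomial.natDegree_add_le_of_degree_le ?_ ?_
    · rw [Polynomial.natDegree_X_pow]
    · exact (Polynomial.natDegree_quadratic_le).trans (by norm_num)
  have hΨeval : ∀ R : L[X], Ψ.eval R = rsQuarticAt h t R := by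
    intro R
    rw [hΨ, rsDepQuartic_eval]
    simp only [rsQuarticAt]
    ring
  have hroot : ∀ k : ℕ, P.comp (C (z ^ k) * X) ∈ Ψ.roots.toFinset := by
    intro k
    rw [Multiset.mem_toFinset, Polynomial.mem_roots hΨmonic.ne_zero, Polynomial.IsRoot.def,
      hΨeval]
    exact noSec_comp h t P _ (noSec_comp_pow z h hh k) (noSec_comp_pow z t ht k) hP
  have hcard : Ψ.roots.toFinset.card < (Finset.range 5).card := by
    have h1 : Ψ.roots.toFinset.card ≤ Multiset.card Ψ.roots := Multiset.toFinset_card_le _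
    have h2 : Multiset.card Ψ.roots ≤ Ψ.natDegree := Polynomial.card_roots' Ψ
    rw [Finset.card_range]
    omega
  obtain ⟨x, hx, y, hy, hxy, hfxy⟩ := Finset.exists_ne_map_eq_of_card_lt_of_maps_to hcard
    (f := fun k => P.comp (C (z ^ k) * X)) (fun k _ => hroot k)
  by_contra hne
  have hcoeff := congrArg (fun p : L[X] => p.coeff i) hfxy
  simp only [Polynomial.comp_C_mul_X_coeff] at hcoeff
  have hpow : (z ^ i) ^ x = (z ^ i) ^ y := by
    have := mul_left_cancel₀ hne hcoeff
    rw [← pow_mul, ← pow_mul] at this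
    rw [← pow_mul, ← pow_mul, mul_comm i x, mul_comm i y]
    exact this
  have hprim : IsPrimitiveRoot (z ^ i) 5 :=
    hz.pow_of_coprime i ((Nat.coprime_comm).1 ((Nat.Prime.coprime_iff_not_dvd (by norm_num)).2 hi))
  exact hxy (hprim.pow_inj (Finset.mem_range.1 hx) (Finset.mem_range.1 hy) hpow)

end Fermat.Agent.S52
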