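import Fermat.Agent.S52.RS
import Fermat.Agent.S52.Klein.Forms

/-!
# S52: the line identity for Klein's `H`, coefficient by coefficient in `t` (low memory)

`klHH (p (1 + t A)⁵) (q (1 - t B)⁵) = ∑ₖ tᵏ Lₖ(p, q, A, B)` with `A, B` free, `rsH H T t = ∑ₖ tᵏ Rₖ(H, T)`,
and `Lₖ(p, q, klA p q, klB p q) = Rₖ(klHH p q, klTT p q)` for each `k ≤ 20`: every step is a
small `ring` call.
-/

set_option autoImplicit false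

namespace Fermat.Agent.S52

variable {R : Type*} [CommRing R]

/-- coefficient of `t ^ 0` on the left, `A` and `B` free -/
def rsLightL0 (p q A B : R) : R :=
    -p ^ (4 : ℕ) - q ^ (4 : ℕ) + 228 * p ^ (3 : ℕ) * q - 228 * p * q ^ (3 : ℕ) - 494 * p ^ (2 :
      ℕ) * q ^ (2 : ℕ)

/-- coefficient of `t ^ 0` in `rsH` -/
def rsLightR0 (H T : R) : R :=
    H

/-- coefficient of `t ^ 1` on the left, `A` and `B` free -/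
def rsLightL1 (p q A B : R) : R :=
    -20 * p ^ (4 : ℕ) * A + 20 * q ^ (4 : ℕ) * B - 1140 * p ^ (3 : ℕ) * q * B + 3420 * p ^ (3 :
      ℕ) * q * A + 3420 * p * q ^ (3 : ℕ) * B - 1140 * p * q ^ (3 : ℕ) * A + 4940 * p ^ (2 : ℕ)
      * q ^ (2 : ℕ) * B - 4940 * p ^ (2 : ℕ) * q ^ (2 : ℕ) * A

/-- coefficient of `t ^ 1` in `rsH` -/
def rsLightR1 (H T : R) : R :=
    -20 * T

/-- coefficient of `t ^ 2` on the left, `A` and `B` free -/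
def rsLightL2 (p q A B : R) : R :=
    -190 * p ^ (4 : ℕ) * A ^ (2 : ℕ) - 190 * q ^ (4 : ℕ) * B ^ (2 : ℕ) + 2280 * p ^ (3 : ℕ) * q
      * B ^ (2 : ℕ) - 17100 * p ^ (3 : ℕ) * q * A * B + 23940 * p ^ (3 : ℕ) * q * A ^ (2 : ℕ) -
      23940 * p * q ^ (3 : ℕ) * B ^ (2 : ℕ) + 17100 * p * q ^ (3 : ℕ) * A * B - 2280 * p * q ^
      (3 : ℕ) * A ^ (2 : ℕ) - 22230 * p ^ (2 : ℕ) * q ^ (2 : ℕ) * B ^ (2 : ℕ) + 49400 * p ^ (2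
      : ℕ) * q ^ (2 : ℕ) * A * B - 22230 * p ^ (2 : ℕ) * q ^ (2 : ℕ) * A ^ (2 : ℕ)

/-- coefficient of `t ^ 2` in `rsH` -/
def rsLightR2 (H T : R) : R :=
    -190 * H ^ (2 : ℕ)

/-- coefficient of `t ^ 3` on the left, `A` and `B` free -/
def rsLightL3 (p q A B : R) : R :=
    -1140 * p ^ (4 : ℕ) * A ^ (3 : ℕ) + 1140 * q ^ (4 : ℕ) * B ^ (3 : ℕ) - 2280 * p ^ (3 : ℕ) *
      q * B ^ (3 : ℕ) + 34200 * p ^ (3 : ℕ) * q * A * B ^ (2 : ℕ) - 119700 * p ^ (3 : ℕ) * q *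
      A ^ (2 : ℕ) * B + 103740 * p ^ (3 : ℕ) * q * A ^ (3 : ℕ) + 103740 * p * q ^ (3 : ℕ) * B ^
      (3 : ℕ) - 119700 * p * q ^ (3 : ℕ) * A * B ^ (2 : ℕ) + 34200 * p * q ^ (3 : ℕ) * A ^ (2 :
      ℕ) * B - 2280 * p * q ^ (3 : ℕ) * A ^ (3 : ℕ) + 59280 * p ^ (2 : ℕ) * q ^ (2 : ℕ) * B ^
      (3 : ℕ) - 222300 * p ^ (2 : ℕ) * q ^ (2 : ℕ) * A * B ^ (2 : ℕ) + 222300 * p ^ (2 : ℕ) * q
      ^ (2 : ℕ) * A ^ (2 : ℕ) * B - 59280 * p ^ (2 : ℕ) * q ^ (2 : ℕ) * A ^ (3 : ℕ)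

/-- coefficient of `t ^ 3` in `rsH` -/
def rsLightR3 (H T : R) : R :=
    1140 * H * T

/-- coefficient of `t ^ 4` on the left, `A` and `B` free -/
def rsLightL4 (p q A B : R) : R :=
    -4845 * p ^ (4 : ℕ) * A ^ (4 : ℕ) - 4845 * q ^ (4 : ℕ) * B ^ (4 : ℕ) + 1140 * p ^ (3 : ℕ) *
      q * B ^ (4 : ℕ) - 34200 * p ^ (3 : ℕ) * q * A * B ^ (3 : ℕ) + 239400 * p ^ (3 : ℕ) * q *
      A ^ (2 : ℕ) * B ^ (2 : ℕ) - 518700 * p ^ (3 : ℕ) * q * A ^ (3 : ℕ) * B + 311220 * p ^ (3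
      : ℕ) * q * A ^ (4 : ℕ) - 311220 * p * q ^ (3 : ℕ) * B ^ (4 : ℕ) + 518700 * p * q ^ (3 :
      ℕ) * A * B ^ (3 : ℕ) - 239400 * p * q ^ (3 : ℕ) * A ^ (2 : ℕ) * B ^ (2 : ℕ) + 34200 * p *
      q ^ (3 : ℕ) * A ^ (3 : ℕ) * B - 1140 * p * q ^ (3 : ℕ) * A ^ (4 : ℕ) - 103740 * p ^ (2 :
      ℕ) * q ^ (2 : ℕ) * B ^ (4 : ℕ) + 592800 * p ^ (2 : ℕ) * q ^ (2 : ℕ) * A * B ^ (3 : ℕ) -
      1000350 * p ^ (2 : ℕ) * q ^ (2 : ℕ) * A ^ (2 : ℕ) * B ^ (2 : ℕ) + 592800 * p ^ (2 : ℕ) *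
      q ^ (2 : ℕ) * A ^ (3 : ℕ) * B - 103740 * p ^ (2 : ℕ) * q ^ (2 : ℕ) * A ^ (4 : ℕ)

/-- coefficient of `t ^ 4` in `rsH` -/
def rsLightR4 (H T : R) : R :=
    -855 * H ^ (3 : ℕ) - 5700 * T ^ (2 : ℕ)

/-- coefficient of `t ^ 5` on the left, `A` and `B` free -/
def rsLightL5 (p q A B : R) : R :=
    -15504 * p ^ (4 : ℕ) * A ^ (5 : ℕ) + 15504 * q ^ (4 : ℕ) * B ^ (5 : ℕ) - 228 * p ^ (3 : ℕ)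
      * q * B ^ (5 : ℕ) + 17100 * p ^ (3 : ℕ) * q * A * B ^ (4 : ℕ) - 239400 * p ^ (3 : ℕ) * q
      * A ^ (2 : ℕ) * B ^ (3 : ℕ) + 1037400 * p ^ (3 : ℕ) * q * A ^ (3 : ℕ) * B ^ (2 : ℕ) -
      1556100 * p ^ (3 : ℕ) * q * A ^ (4 : ℕ) * B + 684684 * p ^ (3 : ℕ) * q * A ^ (5 : ℕ) +
      684684 * p * q ^ (3 : ℕ) * B ^ (5 : ℕ) - 1556100 * p * q ^ (3 : ℕ) * A * B ^ (4 : ℕ) +
      1037400 * p * q ^ (3 : ℕ) * A ^ (2 : ℕ) * B ^ (3 : ℕ) - 239400 * p * q ^ (3 : ℕ) * A ^ (3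
      : ℕ) * B ^ (2 : ℕ) + 17100 * p * q ^ (3 : ℕ) * A ^ (4 : ℕ) * B - 228 * p * q ^ (3 : ℕ) *
      A ^ (5 : ℕ) + 124488 * p ^ (2 : ℕ) * q ^ (2 : ℕ) * B ^ (5 : ℕ) - 1037400 * p ^ (2 : ℕ) *
      q ^ (2 : ℕ) * A * B ^ (4 : ℕ) + 2667600 * p ^ (2 : ℕ) * q ^ (2 : ℕ) * A ^ (2 : ℕ) * B ^
      (3 : ℕ) - 2667600 * p ^ (2 : ℕ) * q ^ (2 : ℕ) * A ^ (3 : ℕ) * B ^ (2 : ℕ) + 1037400 * p ^
      (2 : ℕ) * q ^ (2 : ℕ) * A ^ (4 : ℕ) * B - 124488 * p ^ (2 : ℕ) * q ^ (2 : ℕ) * A ^ (5 :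
      ℕ)

/-- coefficient of `t ^ 5` in `rsH` -/
def rsLightR5 (H T : R) : R :=
    -15504 * H ^ (2 : ℕ) * T

/-- coefficient of `t ^ 6` on the left, `A` and `B` free -/
def rsLightL6 (p q A B : R) : R :=
    -38760 * p ^ (4 : ℕ) * A ^ (6 : ℕ) - 38760 * q ^ (4 : ℕ) * B ^ (6 : ℕ) - 3420 * p ^ (3 : ℕ)
      * q * A * B ^ (5 : ℕ) + 119700 * p ^ (3 : ℕ) * q * A ^ (2 : ℕ) * B ^ (4 : ℕ) - 1037400 *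
      p ^ (3 : ℕ) * q * A ^ (3 : ℕ) * B ^ (3 : ℕ) + 3112200 * p ^ (3 : ℕ) * q * A ^ (4 : ℕ) * B
      ^ (2 : ℕ) - 3423420 * p ^ (3 : ℕ) * q * A ^ (5 : ℕ) * B + 1141140 * p ^ (3 : ℕ) * q * A ^
      (6 : ℕ) - 1141140 * p * q ^ (3 : ℕ) * B ^ (6 : ℕ) + 3423420 * p * q ^ (3 : ℕ) * A * B ^
      (5 : ℕ) - 3112200 * p * q ^ (3 : ℕ) * A ^ (2 : ℕ) * B ^ (4 : ℕ) + 1037400 * p * q ^ (3 :
      ℕ) * A ^ (3 : ℕ) * B ^ (3 : ℕ) - 119700 * p * q ^ (3 : ℕ) * A ^ (4 : ℕ) * B ^ (2 : ℕ) +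
      3420 * p * q ^ (3 : ℕ) * A ^ (5 : ℕ) * B - 103740 * p ^ (2 : ℕ) * q ^ (2 : ℕ) * B ^ (6 :
      ℕ) + 1244880 * p ^ (2 : ℕ) * q ^ (2 : ℕ) * A * B ^ (5 : ℕ) - 4668300 * p ^ (2 : ℕ) * q ^
      (2 : ℕ) * A ^ (2 : ℕ) * B ^ (4 : ℕ) + 7113600 * p ^ (2 : ℕ) * q ^ (2 : ℕ) * A ^ (3 : ℕ) *
      B ^ (3 : ℕ) - 4668300 * p ^ (2 : ℕ) * q ^ (2 : ℕ) * A ^ (4 : ℕ) * B ^ (2 : ℕ) + 1244880 *
      p ^ (2 : ℕ) * q ^ (2 : ℕ) * A ^ (5 : ℕ) * B - 103740 * p ^ (2 : ℕ) * q ^ (2 : ℕ) * A ^ (6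
      : ℕ)

/-- coefficient of `t ^ 6` in `rsH` -/
def rsLightR6 (H T : R) : R :=
    -102600 * H ^ (4 : ℕ) - 63840 * H * T ^ (2 : ℕ)

/-- coefficient of `t ^ 7` on the left, `A` and `B` free -/
def rsLightL7 (p q A B : R) : R :=
    -77520 * p ^ (4 : ℕ) * A ^ (7 : ℕ) + 77520 * q ^ (4 : ℕ) * B ^ (7 : ℕ) - 23940 * p ^ (3 :
      ℕ) * q * A ^ (2 : ℕ) * B ^ (5 : ℕ) + 518700 * p ^ (3 : ℕ) * q * A ^ (3 : ℕ) * B ^ (4 : ℕ)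
      - 3112200 * p ^ (3 : ℕ) * q * A ^ (4 : ℕ) * B ^ (3 : ℕ) + 6846840 * p ^ (3 : ℕ) * q * A ^
      (5 : ℕ) * B ^ (2 : ℕ) - 5705700 * p ^ (3 : ℕ) * q * A ^ (6 : ℕ) * B + 1467180 * p ^ (3 :
      ℕ) * q * A ^ (7 : ℕ) + 1467180 * p * q ^ (3 : ℕ) * B ^ (7 : ℕ) - 5705700 * p * q ^ (3 :
      ℕ) * A * B ^ (6 : ℕ) + 6846840 * p * q ^ (3 : ℕ) * A ^ (2 : ℕ) * B ^ (5 : ℕ) - 3112200 *
      p * q ^ (3 : ℕ) * A ^ (3 : ℕ) * B ^ (4 : ℕ) + 518700 * p * q ^ (3 : ℕ) * A ^ (4 : ℕ) * B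
      ^ (3 : ℕ) - 23940 * p * q ^ (3 : ℕ) * A ^ (5 : ℕ) * B ^ (2 : ℕ) + 59280 * p ^ (2 : ℕ) * q
      ^ (2 : ℕ) * B ^ (7 : ℕ) - 1037400 * p ^ (2 : ℕ) * q ^ (2 : ℕ) * A * B ^ (6 : ℕ) + 5601960
      * p ^ (2 : ℕ) * q ^ (2 : ℕ) * A ^ (2 : ℕ) * B ^ (5 : ℕ) - 12448800 * p ^ (2 : ℕ) * q ^ (2
      : ℕ) * A ^ (3 : ℕ) * B ^ (4 : ℕ) + 12448800 * p ^ (2 : ℕ) * q ^ (2 : ℕ) * A ^ (4 : ℕ) * B
      ^ (3 : ℕ) - 5601960 * p ^ (2 : ℕ) * q ^ (2 : ℕ) * A ^ (5 : ℕ) * B ^ (2 : ℕ) + 1037400 * p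
      ^ (2 : ℕ) * q ^ (2 : ℕ) * A ^ (6 : ℕ) * B - 59280 * p ^ (2 : ℕ) * q ^ (2 : ℕ) * A ^ (7 :
      ℕ)

/-- coefficient of `t ^ 7` in `rsH` -/
def rsLightR7 (H T : R) : R :=
    259920 * H ^ (3 : ℕ) * T + 182400 * T ^ (3 : ℕ)

/-- coefficient of `t ^ 8` on the left, `A` and `B` free -/
def rsLightL8 (p q A B : R) : R :=
    -125970 * p ^ (4 : ℕ) * A ^ (8 : ℕ) - 125970 * q ^ (4 : ℕ) * B ^ (8 : ℕ) - 103740 * p ^ (3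
      : ℕ) * q * A ^ (3 : ℕ) * B ^ (5 : ℕ) + 1556100 * p ^ (3 : ℕ) * q * A ^ (4 : ℕ) * B ^ (4 :
      ℕ) - 6846840 * p ^ (3 : ℕ) * q * A ^ (5 : ℕ) * B ^ (3 : ℕ) + 11411400 * p ^ (3 : ℕ) * q *
      A ^ (6 : ℕ) * B ^ (2 : ℕ) - 7335900 * p ^ (3 : ℕ) * q * A ^ (7 : ℕ) * B + 1467180 * p ^
      (3 : ℕ) * q * A ^ (8 : ℕ) - 1467180 * p * q ^ (3 : ℕ) * B ^ (8 : ℕ) + 7335900 * p * q ^
      (3 : ℕ) * A * B ^ (7 : ℕ) - 11411400 * p * q ^ (3 : ℕ) * A ^ (2 : ℕ) * B ^ (6 : ℕ) +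
      6846840 * p * q ^ (3 : ℕ) * A ^ (3 : ℕ) * B ^ (5 : ℕ) - 1556100 * p * q ^ (3 : ℕ) * A ^
      (4 : ℕ) * B ^ (4 : ℕ) + 103740 * p * q ^ (3 : ℕ) * A ^ (5 : ℕ) * B ^ (3 : ℕ) - 22230 * p
      ^ (2 : ℕ) * q ^ (2 : ℕ) * B ^ (8 : ℕ) + 592800 * p ^ (2 : ℕ) * q ^ (2 : ℕ) * A * B ^ (7 :
      ℕ) - 4668300 * p ^ (2 : ℕ) * q ^ (2 : ℕ) * A ^ (2 : ℕ) * B ^ (6 : ℕ) + 14938560 * p ^ (2
      : ℕ) * q ^ (2 : ℕ) * A ^ (3 : ℕ) * B ^ (5 : ℕ) - 21785400 * p ^ (2 : ℕ) * q ^ (2 : ℕ) * A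
      ^ (4 : ℕ) * B ^ (4 : ℕ) + 14938560 * p ^ (2 : ℕ) * q ^ (2 : ℕ) * A ^ (5 : ℕ) * B ^ (3 :
      ℕ) - 4668300 * p ^ (2 : ℕ) * q ^ (2 : ℕ) * A ^ (6 : ℕ) * B ^ (2 : ℕ) + 592800 * p ^ (2 :
      ℕ) * q ^ (2 : ℕ) * A ^ (7 : ℕ) * B - 22230 * p ^ (2 : ℕ) * q ^ (2 : ℕ) * A ^ (8 : ℕ)

/-- coefficient of `t ^ 8` in `rsH` -/
def rsLightR8 (H T : R) : R :=
    -1000350 * H ^ (5 : ℕ) - 1126320 * H ^ (2 : ℕ) * T ^ (2 : ℕ)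

/-- coefficient of `t ^ 9` on the left, `A` and `B` free -/
def rsLightL9 (p q A B : R) : R :=
    -167960 * p ^ (4 : ℕ) * A ^ (9 : ℕ) + 167960 * q ^ (4 : ℕ) * B ^ (9 : ℕ) - 311220 * p ^ (3
      : ℕ) * q * A ^ (4 : ℕ) * B ^ (5 : ℕ) + 3423420 * p ^ (3 : ℕ) * q * A ^ (5 : ℕ) * B ^ (4 :
      ℕ) - 11411400 * p ^ (3 : ℕ) * q * A ^ (6 : ℕ) * B ^ (3 : ℕ) + 14671800 * p ^ (3 : ℕ) * q
      * A ^ (7 : ℕ) * B ^ (2 : ℕ) - 7335900 * p ^ (3 : ℕ) * q * A ^ (8 : ℕ) * B + 1141140 * p ^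
      (3 : ℕ) * q * A ^ (9 : ℕ) + 1141140 * p * q ^ (3 : ℕ) * B ^ (9 : ℕ) - 7335900 * p * q ^
      (3 : ℕ) * A * B ^ (8 : ℕ) + 14671800 * p * q ^ (3 : ℕ) * A ^ (2 : ℕ) * B ^ (7 : ℕ) -
      11411400 * p * q ^ (3 : ℕ) * A ^ (3 : ℕ) * B ^ (6 : ℕ) + 3423420 * p * q ^ (3 : ℕ) * A ^
      (4 : ℕ) * B ^ (5 : ℕ) - 311220 * p * q ^ (3 : ℕ) * A ^ (5 : ℕ) * B ^ (4 : ℕ) + 4940 * p ^
      (2 : ℕ) * q ^ (2 : ℕ) * B ^ (9 : ℕ) - 222300 * p ^ (2 : ℕ) * q ^ (2 : ℕ) * A * B ^ (8 :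
      ℕ) + 2667600 * p ^ (2 : ℕ) * q ^ (2 : ℕ) * A ^ (2 : ℕ) * B ^ (7 : ℕ) - 12448800 * p ^ (2
      : ℕ) * q ^ (2 : ℕ) * A ^ (3 : ℕ) * B ^ (6 : ℕ) + 26142480 * p ^ (2 : ℕ) * q ^ (2 : ℕ) * A
      ^ (4 : ℕ) * B ^ (5 : ℕ) - 26142480 * p ^ (2 : ℕ) * q ^ (2 : ℕ) * A ^ (5 : ℕ) * B ^ (4 :
      ℕ) + 12448800 * p ^ (2 : ℕ) * q ^ (2 : ℕ) * A ^ (6 : ℕ) * B ^ (3 : ℕ) - 2667600 * p ^ (2
      : ℕ) * q ^ (2 : ℕ) * A ^ (7 : ℕ) * B ^ (2 : ℕ) + 222300 * p ^ (2 : ℕ) * q ^ (2 : ℕ) * A ^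
      (8 : ℕ) * B - 4940 * p ^ (2 : ℕ) * q ^ (2 : ℕ) * A ^ (9 : ℕ)

/-- coefficient of `t ^ 9` in `rsH` -/
def rsLightR9 (H T : R) : R :=
    7736040 * H ^ (4 : ℕ) * T + 7904000 * H * T ^ (3 : ℕ)

/-- coefficient of `t ^ 10` on the left, `A` and `B` free -/
def rsLightL10 (p q A B : R) : R :=
    -184756 * p ^ (4 : ℕ) * A ^ (10 : ℕ) - 184756 * q ^ (4 : ℕ) * B ^ (10 : ℕ) - 684684 * p ^
      (3 : ℕ) * q * A ^ (5 : ℕ) * B ^ (5 : ℕ) + 5705700 * p ^ (3 : ℕ) * q * A ^ (6 : ℕ) * B ^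
      (4 : ℕ) - 14671800 * p ^ (3 : ℕ) * q * A ^ (7 : ℕ) * B ^ (3 : ℕ) + 14671800 * p ^ (3 : ℕ)
      * q * A ^ (8 : ℕ) * B ^ (2 : ℕ) - 5705700 * p ^ (3 : ℕ) * q * A ^ (9 : ℕ) * B + 684684 *
      p ^ (3 : ℕ) * q * A ^ (10 : ℕ) - 684684 * p * q ^ (3 : ℕ) * B ^ (10 : ℕ) + 5705700 * p *
      q ^ (3 : ℕ) * A * B ^ (9 : ℕ) - 14671800 * p * q ^ (3 : ℕ) * A ^ (2 : ℕ) * B ^ (8 : ℕ) +
      14671800 * p * q ^ (3 : ℕ) * A ^ (3 : ℕ) * B ^ (7 : ℕ) - 5705700 * p * q ^ (3 : ℕ) * A ^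
      (4 : ℕ) * B ^ (6 : ℕ) + 684684 * p * q ^ (3 : ℕ) * A ^ (5 : ℕ) * B ^ (5 : ℕ) - 494 * p ^
      (2 : ℕ) * q ^ (2 : ℕ) * B ^ (10 : ℕ) + 49400 * p ^ (2 : ℕ) * q ^ (2 : ℕ) * A * B ^ (9 :
      ℕ) - 1000350 * p ^ (2 : ℕ) * q ^ (2 : ℕ) * A ^ (2 : ℕ) * B ^ (8 : ℕ) + 7113600 * p ^ (2 :
      ℕ) * q ^ (2 : ℕ) * A ^ (3 : ℕ) * B ^ (7 : ℕ) - 21785400 * p ^ (2 : ℕ) * q ^ (2 : ℕ) * A ^
      (4 : ℕ) * B ^ (6 : ℕ) + 31370976 * p ^ (2 : ℕ) * q ^ (2 : ℕ) * A ^ (5 : ℕ) * B ^ (5 : ℕ)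
      - 21785400 * p ^ (2 : ℕ) * q ^ (2 : ℕ) * A ^ (6 : ℕ) * B ^ (4 : ℕ) + 7113600 * p ^ (2 :
      ℕ) * q ^ (2 : ℕ) * A ^ (7 : ℕ) * B ^ (3 : ℕ) - 1000350 * p ^ (2 : ℕ) * q ^ (2 : ℕ) * A ^
      (8 : ℕ) * B ^ (2 : ℕ) + 49400 * p ^ (2 : ℕ) * q ^ (2 : ℕ) * A ^ (9 : ℕ) * B - 494 * p ^
      (2 : ℕ) * q ^ (2 : ℕ) * A ^ (10 : ℕ)

/-- coefficient of `t ^ 10` in `rsH` -/
def rsLightR10 (H T : R) : R :=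
    10003500 * H ^ (6 : ℕ) - 5619744 * H ^ (3 : ℕ) * T ^ (2 : ℕ) - 15808000 * T ^ (4 : ℕ)

/-- coefficient of `t ^ 11` on the left, `A` and `B` free -/
def rsLightL11 (p q A B : R) : R :=
    -167960 * p ^ (4 : ℕ) * A ^ (11 : ℕ) + 167960 * q ^ (4 : ℕ) * B ^ (11 : ℕ) - 1141140 * p ^
      (3 : ℕ) * q * A ^ (6 : ℕ) * B ^ (5 : ℕ) + 7335900 * p ^ (3 : ℕ) * q * A ^ (7 : ℕ) * B ^
      (4 : ℕ) - 14671800 * p ^ (3 : ℕ) * q * A ^ (8 : ℕ) * B ^ (3 : ℕ) + 11411400 * p ^ (3 : ℕ)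
      * q * A ^ (9 : ℕ) * B ^ (2 : ℕ) - 3423420 * p ^ (3 : ℕ) * q * A ^ (10 : ℕ) * B + 311220 *
      p ^ (3 : ℕ) * q * A ^ (11 : ℕ) + 311220 * p * q ^ (3 : ℕ) * B ^ (11 : ℕ) - 3423420 * p *
      q ^ (3 : ℕ) * A * B ^ (10 : ℕ) + 11411400 * p * q ^ (3 : ℕ) * A ^ (2 : ℕ) * B ^ (9 : ℕ) -
      14671800 * p * q ^ (3 : ℕ) * A ^ (3 : ℕ) * B ^ (8 : ℕ) + 7335900 * p * q ^ (3 : ℕ) * A ^
      (4 : ℕ) * B ^ (7 : ℕ) - 1141140 * p * q ^ (3 : ℕ) * A ^ (5 : ℕ) * B ^ (6 : ℕ) - 4940 * p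
      ^ (2 : ℕ) * q ^ (2 : ℕ) * A * B ^ (10 : ℕ) + 222300 * p ^ (2 : ℕ) * q ^ (2 : ℕ) * A ^ (2
      : ℕ) * B ^ (9 : ℕ) - 2667600 * p ^ (2 : ℕ) * q ^ (2 : ℕ) * A ^ (3 : ℕ) * B ^ (8 : ℕ) +
      12448800 * p ^ (2 : ℕ) * q ^ (2 : ℕ) * A ^ (4 : ℕ) * B ^ (7 : ℕ) - 26142480 * p ^ (2 : ℕ)
      * q ^ (2 : ℕ) * A ^ (5 : ℕ) * B ^ (6 : ℕ) + 26142480 * p ^ (2 : ℕ) * q ^ (2 : ℕ) * A ^ (6
      : ℕ) * B ^ (5 : ℕ) - 12448800 * p ^ (2 : ℕ) * q ^ (2 : ℕ) * A ^ (7 : ℕ) * B ^ (4 : ℕ) +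
      2667600 * p ^ (2 : ℕ) * q ^ (2 : ℕ) * A ^ (8 : ℕ) * B ^ (3 : ℕ) - 222300 * p ^ (2 : ℕ) *
      q ^ (2 : ℕ) * A ^ (9 : ℕ) * B ^ (2 : ℕ) + 4940 * p ^ (2 : ℕ) * q ^ (2 : ℕ) * A ^ (10 : ℕ)
      * B

/-- coefficient of `t ^ 11` in `rsH` -/
def rsLightR11 (H T : R) : R :=
    -54685800 * H ^ (5 : ℕ) * T - 54853760 * H ^ (2 : ℕ) * T ^ (3 : ℕ)

/-- coefficient of `t ^ 12` on the left, `A` and `B` free -/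
def rsLightL12 (p q A B : R) : R :=
    -125970 * p ^ (4 : ℕ) * A ^ (12 : ℕ) - 125970 * q ^ (4 : ℕ) * B ^ (12 : ℕ) - 1467180 * p ^
      (3 : ℕ) * q * A ^ (7 : ℕ) * B ^ (5 : ℕ) + 7335900 * p ^ (3 : ℕ) * q * A ^ (8 : ℕ) * B ^
      (4 : ℕ) - 11411400 * p ^ (3 : ℕ) * q * A ^ (9 : ℕ) * B ^ (3 : ℕ) + 6846840 * p ^ (3 : ℕ)
      * q * A ^ (10 : ℕ) * B ^ (2 : ℕ) - 1556100 * p ^ (3 : ℕ) * q * A ^ (11 : ℕ) * B + 103740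
      * p ^ (3 : ℕ) * q * A ^ (12 : ℕ) - 103740 * p * q ^ (3 : ℕ) * B ^ (12 : ℕ) + 1556100 * p
      * q ^ (3 : ℕ) * A * B ^ (11 : ℕ) - 6846840 * p * q ^ (3 : ℕ) * A ^ (2 : ℕ) * B ^ (10 : ℕ)
      + 11411400 * p * q ^ (3 : ℕ) * A ^ (3 : ℕ) * B ^ (9 : ℕ) - 7335900 * p * q ^ (3 : ℕ) * A
      ^ (4 : ℕ) * B ^ (8 : ℕ) + 1467180 * p * q ^ (3 : ℕ) * A ^ (5 : ℕ) * B ^ (7 : ℕ) - 22230 *
      p ^ (2 : ℕ) * q ^ (2 : ℕ) * A ^ (2 : ℕ) * B ^ (10 : ℕ) + 592800 * p ^ (2 : ℕ) * q ^ (2 :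
      ℕ) * A ^ (3 : ℕ) * B ^ (9 : ℕ) - 4668300 * p ^ (2 : ℕ) * q ^ (2 : ℕ) * A ^ (4 : ℕ) * B ^
      (8 : ℕ) + 14938560 * p ^ (2 : ℕ) * q ^ (2 : ℕ) * A ^ (5 : ℕ) * B ^ (7 : ℕ) - 21785400 * p
      ^ (2 : ℕ) * q ^ (2 : ℕ) * A ^ (6 : ℕ) * B ^ (6 : ℕ) + 14938560 * p ^ (2 : ℕ) * q ^ (2 :
      ℕ) * A ^ (7 : ℕ) * B ^ (5 : ℕ) - 4668300 * p ^ (2 : ℕ) * q ^ (2 : ℕ) * A ^ (8 : ℕ) * B ^
      (4 : ℕ) + 592800 * p ^ (2 : ℕ) * q ^ (2 : ℕ) * A ^ (9 : ℕ) * B ^ (3 : ℕ) - 22230 * p ^ (2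
      : ℕ) * q ^ (2 : ℕ) * A ^ (10 : ℕ) * B ^ (2 : ℕ)

/-- coefficient of `t ^ 12` in `rsH` -/
def rsLightR12 (H T : R) : R :=
    -45015750 * H ^ (7 : ℕ) - 7202520 * H ^ (4 : ℕ) * T ^ (2 : ℕ) + 37939200 * H * T ^ (4 : ℕ)

/-- coefficient of `t ^ 13` on the left, `A` and `B` free -/
def rsLightL13 (p q A B : R) : R :=
    -77520 * p ^ (4 : ℕ) * A ^ (13 : ℕ) + 77520 * q ^ (4 : ℕ) * B ^ (13 : ℕ) - 1467180 * p ^ (3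
      : ℕ) * q * A ^ (8 : ℕ) * B ^ (5 : ℕ) + 5705700 * p ^ (3 : ℕ) * q * A ^ (9 : ℕ) * B ^ (4 :
      ℕ) - 6846840 * p ^ (3 : ℕ) * q * A ^ (10 : ℕ) * B ^ (3 : ℕ) + 3112200 * p ^ (3 : ℕ) * q *
      A ^ (11 : ℕ) * B ^ (2 : ℕ) - 518700 * p ^ (3 : ℕ) * q * A ^ (12 : ℕ) * B + 23940 * p ^ (3
      : ℕ) * q * A ^ (13 : ℕ) + 23940 * p * q ^ (3 : ℕ) * B ^ (13 : ℕ) - 518700 * p * q ^ (3 :
      ℕ) * A * B ^ (12 : ℕ) + 3112200 * p * q ^ (3 : ℕ) * A ^ (2 : ℕ) * B ^ (11 : ℕ) - 6846840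
      * p * q ^ (3 : ℕ) * A ^ (3 : ℕ) * B ^ (10 : ℕ) + 5705700 * p * q ^ (3 : ℕ) * A ^ (4 : ℕ)
      * B ^ (9 : ℕ) - 1467180 * p * q ^ (3 : ℕ) * A ^ (5 : ℕ) * B ^ (8 : ℕ) - 59280 * p ^ (2 :
      ℕ) * q ^ (2 : ℕ) * A ^ (3 : ℕ) * B ^ (10 : ℕ) + 1037400 * p ^ (2 : ℕ) * q ^ (2 : ℕ) * A ^
      (4 : ℕ) * B ^ (9 : ℕ) - 5601960 * p ^ (2 : ℕ) * q ^ (2 : ℕ) * A ^ (5 : ℕ) * B ^ (8 : ℕ) +
      12448800 * p ^ (2 : ℕ) * q ^ (2 : ℕ) * A ^ (6 : ℕ) * B ^ (7 : ℕ) - 12448800 * p ^ (2 : ℕ)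
      * q ^ (2 : ℕ) * A ^ (7 : ℕ) * B ^ (6 : ℕ) + 5601960 * p ^ (2 : ℕ) * q ^ (2 : ℕ) * A ^ (8
      : ℕ) * B ^ (5 : ℕ) - 1037400 * p ^ (2 : ℕ) * q ^ (2 : ℕ) * A ^ (9 : ℕ) * B ^ (4 : ℕ) +
      59280 * p ^ (2 : ℕ) * q ^ (2 : ℕ) * A ^ (10 : ℕ) * B ^ (3 : ℕ)

/-- coefficient of `t ^ 13` in `rsH` -/
def rsLightR13 (H T : R) : R :=
    35089200 * H ^ (6 : ℕ) * T - 23201280 * H ^ (3 : ℕ) * T ^ (3 : ℕ) - 58368000 * T ^ (5 : ℕ)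

/-- coefficient of `t ^ 14` on the left, `A` and `B` free -/
def rsLightL14 (p q A B : R) : R :=
    -38760 * p ^ (4 : ℕ) * A ^ (14 : ℕ) - 38760 * q ^ (4 : ℕ) * B ^ (14 : ℕ) - 1141140 * p ^ (3
      : ℕ) * q * A ^ (9 : ℕ) * B ^ (5 : ℕ) + 3423420 * p ^ (3 : ℕ) * q * A ^ (10 : ℕ) * B ^ (4
      : ℕ) - 3112200 * p ^ (3 : ℕ) * q * A ^ (11 : ℕ) * B ^ (3 : ℕ) + 1037400 * p ^ (3 : ℕ) * q
      * A ^ (12 : ℕ) * B ^ (2 : ℕ) - 119700 * p ^ (3 : ℕ) * q * A ^ (13 : ℕ) * B + 3420 * p ^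
      (3 : ℕ) * q * A ^ (14 : ℕ) - 3420 * p * q ^ (3 : ℕ) * B ^ (14 : ℕ) + 119700 * p * q ^ (3
      : ℕ) * A * B ^ (13 : ℕ) - 1037400 * p * q ^ (3 : ℕ) * A ^ (2 : ℕ) * B ^ (12 : ℕ) +
      3112200 * p * q ^ (3 : ℕ) * A ^ (3 : ℕ) * B ^ (11 : ℕ) - 3423420 * p * q ^ (3 : ℕ) * A ^
      (4 : ℕ) * B ^ (10 : ℕ) + 1141140 * p * q ^ (3 : ℕ) * A ^ (5 : ℕ) * B ^ (9 : ℕ) - 103740 *
      p ^ (2 : ℕ) * q ^ (2 : ℕ) * A ^ (4 : ℕ) * B ^ (10 : ℕ) + 1244880 * p ^ (2 : ℕ) * q ^ (2 :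
      ℕ) * A ^ (5 : ℕ) * B ^ (9 : ℕ) - 4668300 * p ^ (2 : ℕ) * q ^ (2 : ℕ) * A ^ (6 : ℕ) * B ^
      (8 : ℕ) + 7113600 * p ^ (2 : ℕ) * q ^ (2 : ℕ) * A ^ (7 : ℕ) * B ^ (7 : ℕ) - 4668300 * p ^
      (2 : ℕ) * q ^ (2 : ℕ) * A ^ (8 : ℕ) * B ^ (6 : ℕ) + 1244880 * p ^ (2 : ℕ) * q ^ (2 : ℕ) *
      A ^ (9 : ℕ) * B ^ (5 : ℕ) - 103740 * p ^ (2 : ℕ) * q ^ (2 : ℕ) * A ^ (10 : ℕ) * B ^ (4 :
      ℕ)

/-- coefficient of `t ^ 14` in `rsH` -/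
def rsLightR14 (H T : R) : R :=
    -207765000 * H ^ (8 : ℕ) - 495188640 * H ^ (5 : ℕ) * T ^ (2 : ℕ) - 287462400 * H ^ (2 : ℕ)
      * T ^ (4 : ℕ)

/-- coefficient of `t ^ 15` on the left, `A` and `B` free -/
def rsLightL15 (p q A B : R) : R :=
    -15504 * p ^ (4 : ℕ) * A ^ (15 : ℕ) + 15504 * q ^ (4 : ℕ) * B ^ (15 : ℕ) - 684684 * p ^ (3
      : ℕ) * q * A ^ (10 : ℕ) * B ^ (5 : ℕ) + 1556100 * p ^ (3 : ℕ) * q * A ^ (11 : ℕ) * B ^ (4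
      : ℕ) - 1037400 * p ^ (3 : ℕ) * q * A ^ (12 : ℕ) * B ^ (3 : ℕ) + 239400 * p ^ (3 : ℕ) * q
      * A ^ (13 : ℕ) * B ^ (2 : ℕ) - 17100 * p ^ (3 : ℕ) * q * A ^ (14 : ℕ) * B + 228 * p ^ (3
      : ℕ) * q * A ^ (15 : ℕ) + 228 * p * q ^ (3 : ℕ) * B ^ (15 : ℕ) - 17100 * p * q ^ (3 : ℕ)
      * A * B ^ (14 : ℕ) + 239400 * p * q ^ (3 : ℕ) * A ^ (2 : ℕ) * B ^ (13 : ℕ) - 1037400 * p
      * q ^ (3 : ℕ) * A ^ (3 : ℕ) * B ^ (12 : ℕ) + 1556100 * p * q ^ (3 : ℕ) * A ^ (4 : ℕ) * B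
      ^ (11 : ℕ) - 684684 * p * q ^ (3 : ℕ) * A ^ (5 : ℕ) * B ^ (10 : ℕ) - 124488 * p ^ (2 : ℕ)
      * q ^ (2 : ℕ) * A ^ (5 : ℕ) * B ^ (10 : ℕ) + 1037400 * p ^ (2 : ℕ) * q ^ (2 : ℕ) * A ^ (6
      : ℕ) * B ^ (9 : ℕ) - 2667600 * p ^ (2 : ℕ) * q ^ (2 : ℕ) * A ^ (7 : ℕ) * B ^ (8 : ℕ) +
      2667600 * p ^ (2 : ℕ) * q ^ (2 : ℕ) * A ^ (8 : ℕ) * B ^ (7 : ℕ) - 1037400 * p ^ (2 : ℕ) *
      q ^ (2 : ℕ) * A ^ (9 : ℕ) * B ^ (6 : ℕ) + 124488 * p ^ (2 : ℕ) * q ^ (2 : ℕ) * A ^ (10 :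
      ℕ) * B ^ (5 : ℕ)

/-- coefficient of `t ^ 15` in `rsH` -/
def rsLightR15 (H T : R) : R :=
    415530000 * H ^ (7 : ℕ) * T + 882458496 * H ^ (4 : ℕ) * T ^ (3 : ℕ) + 466944000 * H * T ^
      (5 : ℕ)

/-- coefficient of `t ^ 16` on the left, `A` and `B` free -/
def rsLightL16 (p q A B : R) : R :=
    -4845 * p ^ (4 : ℕ) * A ^ (16 : ℕ) - 4845 * q ^ (4 : ℕ) * B ^ (16 : ℕ) - 311220 * p ^ (3 :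
      ℕ) * q * A ^ (11 : ℕ) * B ^ (5 : ℕ) + 518700 * p ^ (3 : ℕ) * q * A ^ (12 : ℕ) * B ^ (4 :
      ℕ) - 239400 * p ^ (3 : ℕ) * q * A ^ (13 : ℕ) * B ^ (3 : ℕ) + 34200 * p ^ (3 : ℕ) * q * A
      ^ (14 : ℕ) * B ^ (2 : ℕ) - 1140 * p ^ (3 : ℕ) * q * A ^ (15 : ℕ) * B + 1140 * p * q ^ (3
      : ℕ) * A * B ^ (15 : ℕ) - 34200 * p * q ^ (3 : ℕ) * A ^ (2 : ℕ) * B ^ (14 : ℕ) + 239400 *
      p * q ^ (3 : ℕ) * A ^ (3 : ℕ) * B ^ (13 : ℕ) - 518700 * p * q ^ (3 : ℕ) * A ^ (4 : ℕ) * B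
      ^ (12 : ℕ) + 311220 * p * q ^ (3 : ℕ) * A ^ (5 : ℕ) * B ^ (11 : ℕ) - 103740 * p ^ (2 : ℕ)
      * q ^ (2 : ℕ) * A ^ (6 : ℕ) * B ^ (10 : ℕ) + 592800 * p ^ (2 : ℕ) * q ^ (2 : ℕ) * A ^ (7
      : ℕ) * B ^ (9 : ℕ) - 1000350 * p ^ (2 : ℕ) * q ^ (2 : ℕ) * A ^ (8 : ℕ) * B ^ (8 : ℕ) +
      592800 * p ^ (2 : ℕ) * q ^ (2 : ℕ) * A ^ (9 : ℕ) * B ^ (7 : ℕ) - 103740 * p ^ (2 : ℕ) * q
      ^ (2 : ℕ) * A ^ (10 : ℕ) * B ^ (6 : ℕ)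

/-- coefficient of `t ^ 16` in `rsH` -/
def rsLightR16 (H T : R) : R :=
    -77911875 * H ^ (9 : ℕ) - 714711600 * H ^ (6 : ℕ) * T ^ (2 : ℕ) - 1220474880 * H ^ (3 : ℕ)
      * T ^ (4 : ℕ) - 583680000 * T ^ (6 : ℕ)

/-- coefficient of `t ^ 17` on the left, `A` and `B` free -/
def rsLightL17 (p q A B : R) : R :=
    -1140 * p ^ (4 : ℕ) * A ^ (17 : ℕ) + 1140 * q ^ (4 : ℕ) * B ^ (17 : ℕ) - 103740 * p ^ (3 :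
      ℕ) * q * A ^ (12 : ℕ) * B ^ (5 : ℕ) + 119700 * p ^ (3 : ℕ) * q * A ^ (13 : ℕ) * B ^ (4 :
      ℕ) - 34200 * p ^ (3 : ℕ) * q * A ^ (14 : ℕ) * B ^ (3 : ℕ) + 2280 * p ^ (3 : ℕ) * q * A ^
      (15 : ℕ) * B ^ (2 : ℕ) + 2280 * p * q ^ (3 : ℕ) * A ^ (2 : ℕ) * B ^ (15 : ℕ) - 34200 * p
      * q ^ (3 : ℕ) * A ^ (3 : ℕ) * B ^ (14 : ℕ) + 119700 * p * q ^ (3 : ℕ) * A ^ (4 : ℕ) * B ^
      (13 : ℕ) - 103740 * p * q ^ (3 : ℕ) * A ^ (5 : ℕ) * B ^ (12 : ℕ) - 59280 * p ^ (2 : ℕ) *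
      q ^ (2 : ℕ) * A ^ (7 : ℕ) * B ^ (10 : ℕ) + 222300 * p ^ (2 : ℕ) * q ^ (2 : ℕ) * A ^ (8 :
      ℕ) * B ^ (9 : ℕ) - 222300 * p ^ (2 : ℕ) * q ^ (2 : ℕ) * A ^ (9 : ℕ) * B ^ (8 : ℕ) + 59280
      * p ^ (2 : ℕ) * q ^ (2 : ℕ) * A ^ (10 : ℕ) * B ^ (7 : ℕ)

/-- coefficient of `t ^ 17` in `rsH` -/
def rsLightR17 (H T : R) : R :=
    -353200500 * H ^ (8 : ℕ) * T - 715080960 * H ^ (5 : ℕ) * T ^ (3 : ℕ) - 361881600 * H ^ (2 :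
      ℕ) * T ^ (5 : ℕ)

/-- coefficient of `t ^ 18` on the left, `A` and `B` free -/
def rsLightL18 (p q A B : R) : R :=
    -190 * p ^ (4 : ℕ) * A ^ (18 : ℕ) - 190 * q ^ (4 : ℕ) * B ^ (18 : ℕ) - 23940 * p ^ (3 : ℕ)
      * q * A ^ (13 : ℕ) * B ^ (5 : ℕ) + 17100 * p ^ (3 : ℕ) * q * A ^ (14 : ℕ) * B ^ (4 : ℕ) -
      2280 * p ^ (3 : ℕ) * q * A ^ (15 : ℕ) * B ^ (3 : ℕ) + 2280 * p * q ^ (3 : ℕ) * A ^ (3 :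
      ℕ) * B ^ (15 : ℕ) - 17100 * p * q ^ (3 : ℕ) * A ^ (4 : ℕ) * B ^ (14 : ℕ) + 23940 * p * q
      ^ (3 : ℕ) * A ^ (5 : ℕ) * B ^ (13 : ℕ) - 22230 * p ^ (2 : ℕ) * q ^ (2 : ℕ) * A ^ (8 : ℕ)
      * B ^ (10 : ℕ) + 49400 * p ^ (2 : ℕ) * q ^ (2 : ℕ) * A ^ (9 : ℕ) * B ^ (9 : ℕ) - 22230 *
      p ^ (2 : ℕ) * q ^ (2 : ℕ) * A ^ (10 : ℕ) * B ^ (8 : ℕ)

/-- coefficient of `t ^ 18` in `rsH` -/
def rsLightR18 (H T : R) : R :=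
    -779118750 * H ^ (10 : ℕ) - 2182917600 * H ^ (7 : ℕ) * T ^ (2 : ℕ) - 2026391040 * H ^ (4 :
      ℕ) * T ^ (4 : ℕ) - 622592000 * H * T ^ (6 : ℕ)

/-- coefficient of `t ^ 19` on the left, `A` and `B` free -/
def rsLightL19 (p q A B : R) : R :=
    -20 * p ^ (4 : ℕ) * A ^ (19 : ℕ) + 20 * q ^ (4 : ℕ) * B ^ (19 : ℕ) - 3420 * p ^ (3 : ℕ) * q
      * A ^ (14 : ℕ) * B ^ (5 : ℕ) + 1140 * p ^ (3 : ℕ) * q * A ^ (15 : ℕ) * B ^ (4 : ℕ) + 1140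
      * p * q ^ (3 : ℕ) * A ^ (4 : ℕ) * B ^ (15 : ℕ) - 3420 * p * q ^ (3 : ℕ) * A ^ (5 : ℕ) * B
      ^ (14 : ℕ) - 4940 * p ^ (2 : ℕ) * q ^ (2 : ℕ) * A ^ (9 : ℕ) * B ^ (10 : ℕ) + 4940 * p ^
      (2 : ℕ) * q ^ (2 : ℕ) * A ^ (10 : ℕ) * B ^ (9 : ℕ)

/-- coefficient of `t ^ 19` in `rsH` -/
def rsLightR19 (H T : R) : R :=
    694372500 * H ^ (9 : ℕ) * T + 2044414080 * H ^ (6 : ℕ) * T ^ (3 : ℕ) + 2005401600 * H ^ (3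
      : ℕ) * T ^ (5 : ℕ) + 655360000 * T ^ (7 : ℕ)

/-- coefficient of `t ^ 20` on the left, `A` and `B` free -/
def rsLightL20 (p q A B : R) : R :=
    -p ^ (4 : ℕ) * A ^ (20 : ℕ) - q ^ (4 : ℕ) * B ^ (20 : ℕ) - 228 * p ^ (3 : ℕ) * q * A ^ (15
      : ℕ) * B ^ (5 : ℕ) + 228 * p * q ^ (3 : ℕ) * A ^ (5 : ℕ) * B ^ (15 : ℕ) - 494 * p ^ (2 :
      ℕ) * q ^ (2 : ℕ) * A ^ (10 : ℕ) * B ^ (10 : ℕ)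

/-- coefficient of `t ^ 20` in `rsH` -/
def rsLightR20 (H T : R) : R :=
    184528125 * H ^ (11 : ℕ) + 549301500 * H ^ (8 : ℕ) * T ^ (2 : ℕ) + 544997376 * H ^ (5 : ℕ)
      * T ^ (4 : ℕ) + 180224000 * H ^ (2 : ℕ) * T ^ (6 : ℕ)

theorem rsLight_coeff0 (p q : R) :
    rsLightL0 p q (klA p q) (klB p q) = rsLightR0 (klHH p q) (klTT p q) := by
  simp only [rsLightL0, rsLightR0, klA, klB, klHH, klTT]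
  ring

theorem rsLight_coeff1 (p q : R) :
    rsLightL1 p q (klA p q) (klB p q) = rsLightR1 (klHH p q) (klTT p q) := by
  simp only [rsLightL1, rsLightR1, klA, klB, klHH, klTT]
  ring

theorem rsLight_coeff2 (p q : R) :
    rsLightL2 p q (klA p q) (klB p q) = rsLightR2 (klHH p q) (klTT p q) := by
  simp only [rsLightL2, rsLightR2, klA, klB, klHH, klTT]
  ring

theorem rsLight_coeff3 (p q : R) :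
    rsLightL3 p q (klA p q) (klB p q) = rsLightR3 (klHH p q) (klTT p q) := by
  simp only [rsLightL3, rsLightR3, klA, klB, klHH, klTT]
  ring

theorem rsLight_coeff4 (p q : R) :
    rsLightL4 p q (klA p q) (klB p q) = rsLightR4 (klHH p q) (klTT p q) := by
  simp only [rsLightL4, rsLightR4, klA, klB, klHH, klTT]
  ring

theorem rsLight_coeff5 (p q : R) :
    rsLightL5 p q (klA p q) (klB p q) = rsLightR5 (klHH p q) (klTT p q) := by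
  simp only [rsLightL5, rsLightR5, klA, klB, klHH, klTT]
  ring

theorem rsLight_coeff6 (p q : R) :
    rsLightL6 p q (klA p q) (klB p q) = rsLightR6 (klHH p q) (klTT p q) := by
  simp only [rsLightL6, rsLightR6, klA, klB, klHH, klTT]
  ring

theorem rsLight_coeff7 (p q : R) :
    rsLightL7 p q (klA p q) (klB p q) = rsLightR7 (klHH p q) (klTT p q) := by
  simp only [rsLightL7, rsLightR7, klA, klB, klHH, klTT]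
  ring

theorem rsLight_coeff8 (p q : R) :
    rsLightL8 p q (klA p q) (klB p q) = rsLightR8 (klHH p q) (klTT p q) := by
  simp only [rsLightL8, rsLightR8, klA, klB, klHH, klTT]
  ring

theorem rsLight_coeff9 (p q : R) :
    rsLightL9 p q (klA p q) (klB p q) = rsLightR9 (klHH p q) (klTT p q) := by
  simp only [rsLightL9, rsLightR9, klA, klB, klHH, klTT]
  ring

theorem rsLight_coeff10 (p q : R) :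
    rsLightL10 p q (klA p q) (klB p q) = rsLightR10 (klHH p q) (klTT p q) := by
  simp only [rsLightL10, rsLightR10, klA, klB, klHH, klTT]
  ring

theorem rsLight_coeff11 (p q : R) :
    rsLightL11 p q (klA p q) (klB p q) = rsLightR11 (klHH p q) (klTT p q) := by
  simp only [rsLightL11, rsLightR11, klA, klB, klHH, klTT]
  ring

theorem rsLight_coeff12 (p q : R) :
    rsLightL12 p q (klA p q) (klB p q) = rsLightR12 (klHH p q) (klTT p q) := by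
  simp only [rsLightL12, rsLightR12, klA, klB, klHH, klTT]
  ring

theorem rsLight_coeff13 (p q : R) :
    rsLightL13 p q (klA p q) (klB p q) = rsLightR13 (klHH p q) (klTT p q) := by
  simp only [rsLightL13, rsLightR13, klA, klB, klHH, klTT]
  ring

theorem rsLight_coeff14 (p q : R) :
    rsLightL14 p q (klA p q) (klB p q) = rsLightR14 (klHH p q) (klTT p q) := by
  simp only [rsLightL14, rsLightR14, klA, klB, klHH, klTT]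
  ring

theorem rsLight_coeff15 (p q : R) :
    rsLightL15 p q (klA p q) (klB p q) = rsLightR15 (klHH p q) (klTT p q) := by
  simp only [rsLightL15, rsLightR15, klA, klB, klHH, klTT]
  ring

theorem rsLight_coeff16 (p q : R) :
    rsLightL16 p q (klA p q) (klB p q) = rsLightR16 (klHH p q) (klTT p q) := by
  simp only [rsLightL16, rsLightR16, klA, klB, klHH, klTT]
  ring

theorem rsLight_coeff17 (p q : R) :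
    rsLightL17 p q (klA p q) (klB p q) = rsLightR17 (klHH p q) (klTT p q) := by
  simp only [rsLightL17, rsLightR17, klA, klB, klHH, klTT]
  ring

theorem rsLight_coeff18 (p q : R) :
    rsLightL18 p q (klA p q) (klB p q) = rsLightR18 (klHH p q) (klTT p q) := by
  simp only [rsLightL18, rsLightR18, klA, klB, klHH, klTT]
  ring

theorem rsLight_coeff19 (p q : R) :
    rsLightL19 p q (klA p q) (klB p q) = rsLightR19 (klHH p q) (klTT p q) := by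
  simp only [rsLightL19, rsLightR19, klA, klB, klHH, klTT]
  ring

theorem rsLight_coeff20 (p q : R) :
    rsLightL20 p q (klA p q) (klB p q) = rsLightR20 (klHH p q) (klTT p q) := by
  simp only [rsLightL20, rsLightR20, klA, klB, klHH, klTT]
  ring

set_option maxHeartbeats 4000000 in
theorem rsLight_lhs (p q A B t : R) :
    klHH (p * (1 + t * A) ^ 5) (q * (1 - t * B) ^ 5) =
      rsLightL0 p q A B + t * rsLightL1 p q A B + t ^ (2 : ℕ) * rsLightL2 p q A B + t ^ (3 : ℕ)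
        * rsLightL3 p q A B + t ^ (4 : ℕ) * rsLightL4 p q A B + t ^ (5 : ℕ) * rsLightL5 p q A B
        + t ^ (6 : ℕ) * rsLightL6 p q A B + t ^ (7 : ℕ) * rsLightL7 p q A B + t ^ (8 : ℕ) *
        rsLightL8 p q A B + t ^ (9 : ℕ) * rsLightL9 p q A B + t ^ (10 : ℕ) * rsLightL10 p q A B
        + t ^ (11 : ℕ) * rsLightL11 p q A B + t ^ (12 : ℕ) * rsLightL12 p q A B + t ^ (13 : ℕ)
        * rsLightL13 p q A B + t ^ (14 : ℕ) * rsLightL14 p q A B + t ^ (15 : ℕ) * rsLightL15 p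
        q A B + t ^ (16 : ℕ) * rsLightL16 p q A B + t ^ (17 : ℕ) * rsLightL17 p q A B + t ^ (18
        : ℕ) * rsLightL18 p q A B + t ^ (19 : ℕ) * rsLightL19 p q A B + t ^ (20 : ℕ) *
        rsLightL20 p q A B
    := by
  simp only [klHH, rsLightL0, rsLightL1, rsLightL2, rsLightL3, rsLightL4, rsLightL5, rsLightL6, rsLightL7, rsLightL8, rsLightL9, rsLightL10, rsLightL11, rsLightL12, rsLightL13, rsLightL14, rsLightL15, rsLightL16, rsLightL17, rsLightL18, rsLightL19, rsLightL20]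
  ring

set_option maxHeartbeats 4000000 in
theorem rsLight_rhs (H T t : R) :
    rsH H T t =
      rsLightR0 H T + t * rsLightR1 H T + t ^ (2 : ℕ) * rsLightR2 H T + t ^ (3 : ℕ) * rsLightR3
        H T + t ^ (4 : ℕ) * rsLightR4 H T + t ^ (5 : ℕ) * rsLightR5 H T + t ^ (6 : ℕ) *
        rsLightR6 H T + t ^ (7 : ℕ) * rsLightR7 H T + t ^ (8 : ℕ) * rsLightR8 H T + t ^ (9 : ℕ)
        * rsLightR9 H T + t ^ (10 : ℕ) * rsLightR10 H T + t ^ (11 : ℕ) * rsLightR11 H T + t ^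
        (12 : ℕ) * rsLightR12 H T + t ^ (13 : ℕ) * rsLightR13 H T + t ^ (14 : ℕ) * rsLightR14 H
        T + t ^ (15 : ℕ) * rsLightR15 H T + t ^ (16 : ℕ) * rsLightR16 H T + t ^ (17 : ℕ) *
        rsLightR17 H T + t ^ (18 : ℕ) * rsLightR18 H T + t ^ (19 : ℕ) * rsLightR19 H T + t ^
        (20 : ℕ) * rsLightR20 H T
    := by
  simp only [rsH, rsLightR0, rsLightR1, rsLightR2, rsLightR3, rsLightR4, rsLightR5, rsLightR6, rsLightR7, rsLightR8, rsLightR9, rsLightR10, rsLightR11, rsLightR12, rsLightR13, rsLightR14, rsLightR15, rsLightR16, rsLightR17, rsLightR18, rsLightR19, rsLightR20]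
  ring

/-- The line identity for `H` in the variables `p = u⁵`, `q = v⁵` (low-memory proof). -/
theorem rsLight_rsH_line_pq (p q t : R) :
    klHH (p * (1 + t * klA p q) ^ 5) (q * (1 - t * klB p q) ^ 5)
      = rsH (klHH p q) (klTT p q) t := by
  rw [rsLight_lhs, rsLight_rhs, rsLight_coeff0, rsLight_coeff1, rsLight_coeff2, rsLight_coeff3, rsLight_coeff4, rsLight_coeff5, rsLight_coeff6, rsLight_coeff7, rsLight_coeff8, rsLight_coeff9, rsLight_coeff10, rsLight_coeff11, rsLight_coeff12, rsLight_coeff13, rsLight_coeff14, rsLight_coeff15, rsLight_coeff16, rsLight_coeff17, rsLight_coeff18, rsLight_coeff19, rsLight_coeff20]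

end Fermat.Agent.S52
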