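import Mathlib

/-!
# S52 (D2a): the thin-set lemma (helper72)

`Φ ∈ ℤ[t][Z]` monic in `Z`, `Φ(0, Z)` separable.  If for every large `s` the polynomial
`Φ(M₀ s, Z)` has an integer root, then `Φ(t, Q(t)) = 0` for some `Q ∈ ℚ[t]`.

Proof: `ℓ`-adic Newton approximation of a branch + integral Lagrange interpolation
(a finite version of the determinant method).  Everything is finite: no `ℓ`-adic numbers.
-/

set_option autoImplicit false

open Polynomial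

namespace Fermat.Agent.S52

/-! ## 1. Newton iteration modulo powers of an ideal -/

/-- Newton iteration: an approximate root modulo `I` with invertible derivative modulo `I`
refines to an approximate root modulo every power of `I`. -/
theorem thinSet_newton {A : Type*} [CommRing A] (I : Ideal A) (F : A[X]) (a₀ u : A)
    (h₀ : F.eval a₀ ∈ I) (hu : u * F.derivative.eval a₀ - 1 ∈ I) (k : ℕ) :
    ∃ a : A, a - a₀ ∈ I ∧ F.eval a ∈ I ^ (k + 1) := by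
  induction k with
  | zero => exact ⟨a₀, by simp, by simpa using h₀⟩
  | succ k ih =>
    obtain ⟨a, ha, hFa⟩ := ih
    refine ⟨a - u * F.eval a, ?_, ?_⟩
    · have h1 : F.eval a ∈ I := Ideal.pow_le_self (by omega) hFa
      have : a - u * F.eval a - a₀ = (a - a₀) - u * F.eval a := by ring
      rw [this]
      exact I.sub_mem ha (I.mul_mem_left _ h1)
    · obtain ⟨c, hc⟩ := F.binomExpansion a (-(u * F.eval a))
      have hsub : a - u * F.eval a = a + -(u * F.eval a) := by ring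
      rw [hsub, hc]
      have h1 : F.eval a ∈ I := Ideal.pow_le_self (by omega) hFa
      -- `1 - u F'(a) ∈ I`
      have hder : F.derivative.eval a - F.derivative.eval a₀ ∈ I := by
        obtain ⟨w, hw⟩ := Polynomial.sub_dvd_eval_sub a a₀ F.derivative
        rw [hw]
        exact I.mul_mem_right _ ha
      have hunit : 1 - u * F.derivative.eval a ∈ I := by
        have : 1 - u * F.derivative.eval a
            = -(u * F.derivative.eval a₀ - 1) - u * (F.derivative.eval a - F.derivative.eval a₀) := by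
          ring
        rw [this]
        exact I.sub_mem (I.neg_mem hu) (I.mul_mem_left _ hder)
      have e : F.eval a + F.derivative.eval a * -(u * F.eval a) + c * (-(u * F.eval a)) ^ 2
          = F.eval a * (1 - u * F.derivative.eval a) + (c * u ^ 2) * (F.eval a * F.eval a) := by
        ring
      rw [e]
      refine Ideal.add_mem _ ?_ ?_
      · rw [pow_succ]
        exact Ideal.mul_mem_mul hFa hunit
      · refine Ideal.mul_mem_left _ _ ?_
        have h2 : F.eval a * F.eval a ∈ I ^ (k + 1) * I := Ideal.mul_mem_mul hFa h1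
        rwa [← pow_succ] at h2

/-! ## 2. Uniqueness of Hensel lifts over `ℤ` -/

/-- If `z` is a root of `F`, `b` is a root modulo `L`, `b ≡ z` modulo `ℓ`, and `F'(z)` is
prime to `ℓ`, where `L` is a power of `ℓ`, then `b ≡ z` modulo `L`. -/
theorem thinSet_hensel_unique (F : ℤ[X]) (z b ℓ : ℤ) (N : ℕ) (hz : F.eval z = 0)
    (hb : ℓ ^ N ∣ F.eval b) (hbz : ℓ ∣ b - z) (hcop : IsCoprime (F.derivative.eval z) ℓ) :
    ℓ ^ N ∣ b - z := by
  obtain ⟨c, hc⟩ := F.binomExpansion z (b - z)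
  have hb' : F.eval b = (b - z) * (F.derivative.eval z + c * (b - z)) := by
    have : b = z + (b - z) := by ring
    rw [this, hc, hz]; ring
  rw [hb'] at hb
  have hcop2 : IsCoprime (F.derivative.eval z + c * (b - z)) ℓ := by
    obtain ⟨w, hw⟩ := hbz
    rw [hw]
    have : F.derivative.eval z + c * (ℓ * w) = F.derivative.eval z + (c * w) * ℓ := by ring
    rw [this]
    exact hcop.add_mul_right_left _
  exact (hcop2.pow_right (n := N)).symm.dvd_of_dvd_mul_right hb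

/-! ## 3. Archimedean bounds -/

/-- Cauchy bound for integer roots of monic integer polynomials. -/
theorem thinSet_root_bound (F : ℤ[X]) (hF : F.Monic) (z : ℤ) (hz : F.eval z = 0) :
    |z| ≤ 1 + ∑ k ∈ Finset.range F.natDegree, |F.coeff k| := by
  have hS : 0 ≤ ∑ k ∈ Finset.range F.natDegree, |F.coeff k| :=
    Finset.sum_nonneg fun _ _ => abs_nonneg _
  by_cases h1' : |z| ≤ 1
  · linarith
  have h1 : 1 < |z| := not_le.1 h1'
  set d := F.natDegree with hd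
  have hev : F.eval z = z ^ d + ∑ k ∈ Finset.range d, F.coeff k * z ^ k := by
    rw [Polynomial.eval_eq_sum_range, Finset.sum_range_succ, ← hd]
    have : F.coeff d = 1 := hF.coeff_natDegree
    rw [this, one_mul, add_comm]
  have hd0 : d ≠ 0 := by
    intro h0
    rw [hev, h0] at hz
    simp at hz
  obtain ⟨e, he⟩ := Nat.exists_eq_succ_of_ne_zero hd0
  have hzd : z ^ d = -∑ k ∈ Finset.range d, F.coeff k * z ^ k := by
    rw [hev] at hz; linarith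
  have habs : |z| ^ d ≤ (∑ k ∈ Finset.range d, |F.coeff k|) * |z| ^ e := by
    rw [← abs_pow, hzd, abs_neg, Finset.sum_mul]
    refine (Finset.abs_sum_le_sum_abs _ _).trans (Finset.sum_le_sum fun k hk => ?_)
    rw [abs_mul, abs_pow]
    refine mul_le_mul_of_nonneg_left ?_ (abs_nonneg _)
    have hk' : k ≤ e := by
      have := Finset.mem_range.1 hk
      omega
    exact pow_le_pow_right₀ h1.le hk'
  have hpos : 0 < |z| ^ e := pow_pos (by linarith) _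
  have hsplit : |z| ^ d = |z| * |z| ^ e := by rw [he, pow_succ, mul_comm]
  rw [hsplit] at habs
  have := le_of_mul_le_mul_right habs hpos
  linarith

/-- Polynomial growth of the values of an integer polynomial. -/
theorem thinSet_eval_bound (P : ℤ[X]) (m : ℕ) (hP : P.natDegree ≤ m) (t : ℤ) (ht : 1 ≤ |t|) :
    |P.eval t| ≤ (∑ i ∈ Finset.range (m + 1), |P.coeff i|) * |t| ^ m := by
  rw [Polynomial.eval_eq_sum_range' (Nat.lt_succ_of_le hP), Finset.sum_mul]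
  refine (Finset.abs_sum_le_sum_abs _ _).trans (Finset.sum_le_sum fun i hi => ?_)
  rw [abs_mul, abs_pow]
  refine mul_le_mul_of_nonneg_left ?_ (abs_nonneg _)
  exact pow_le_pow_right₀ ht (Nat.lt_succ_iff.1 (Finset.mem_range.1 hi))

/-! ## 4. Integral Lagrange interpolation -/

/-- `∏_{a ∈ T} ∏_{b ∈ T, b ≠ a} (a - b)`. -/
def thinSet_lagW (T : Finset ℤ) : ℤ := ∏ a ∈ T, ∏ b ∈ T.erase a, (a - b)

/-- The cofactor of the node `a` in `thinSet_lagW`. -/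
def thinSet_lagWi (T : Finset ℤ) (a : ℤ) : ℤ := ∏ a' ∈ T.erase a, ∏ b ∈ T.erase a', (a' - b)

/-- The integral Lagrange interpolation polynomial: its value at a node `a` is
`thinSet_lagW T * r a`. -/
noncomputable def thinSet_lagP (T : Finset ℤ) (r : ℤ → ℤ) : ℤ[X] :=
  ∑ a ∈ T, C (r a * thinSet_lagWi T a) * ∏ b ∈ T.erase a, (X - C b)

theorem thinSet_lagW_ne_zero (T : Finset ℤ) : thinSet_lagW T ≠ 0 := by
  unfold thinSet_lagW
  refine Finset.prod_ne_zero_iff.2 fun a _ => Finset.prod_ne_zero_iff.2 fun b hb => ?_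
  exact sub_ne_zero.2 (Finset.ne_of_mem_erase hb).symm

theorem thinSet_lagW_eq (T : Finset ℤ) (a : ℤ) (ha : a ∈ T) :
    thinSet_lagW T = thinSet_lagWi T a * ∏ b ∈ T.erase a, (a - b) := by
  unfold thinSet_lagW thinSet_lagWi
  rw [mul_comm]
  exact (Finset.mul_prod_erase T (fun a' => ∏ b ∈ T.erase a', (a' - b)) ha).symm

theorem thinSet_lagP_eval (T : Finset ℤ) (r : ℤ → ℤ) (x : ℤ) :
    (thinSet_lagP T r).eval x
      = ∑ a ∈ T, r a * (thinSet_lagWi T a * ∏ b ∈ T.erase a, (x - b)) := by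
  unfold thinSet_lagP
  rw [Polynomial.eval_finsetSum]
  refine Finset.sum_congr rfl fun a _ => ?_
  rw [eval_mul, eval_C, eval_prod]
  simp only [eval_sub, eval_X, eval_C]
  ring

theorem thinSet_lagP_eval_node (T : Finset ℤ) (r : ℤ → ℤ) (a : ℤ) (ha : a ∈ T) :
    (thinSet_lagP T r).eval a = thinSet_lagW T * r a := by
  rw [thinSet_lagP_eval, Finset.sum_eq_single a]
  · rw [thinSet_lagW_eq T a ha]; ring
  · intro a' _ ha'
    have : ∏ b ∈ T.erase a', (a - b) = 0 :=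
      Finset.prod_eq_zero (Finset.mem_erase.2 ⟨Ne.symm ha', ha⟩) (sub_self a)
    rw [this]; ring
  · intro h; exact absurd ha h

theorem thinSet_lagP_natDegree_lt (T : Finset ℤ) (r : ℤ → ℤ) (hT : T.Nonempty) :
    (thinSet_lagP T r).natDegree < T.card := by
  have hle : (thinSet_lagP T r).natDegree ≤ T.card - 1 := by
    unfold thinSet_lagP
    refine Polynomial.natDegree_sum_le_of_forall_le _ _ fun a ha => ?_
    refine (Polynomial.natDegree_C_mul_le _ _).trans ?_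
    rw [Polynomial.natDegree_finsetProd_X_sub_C_eq_card, Finset.card_erase_of_mem ha]
  have := Finset.card_pos.2 hT
  omega

/-- Uniqueness of interpolation, integral form. -/
theorem thinSet_lagP_of_polynomial (T : Finset ℤ) (P : ℤ[X]) (hP : P.natDegree < T.card) :
    thinSet_lagP T (fun a => P.eval a) = C (thinSet_lagW T) * P := by
  have hT : T.Nonempty := Finset.card_pos.1 (by omega)
  refine Polynomial.eq_of_degrees_lt_of_eval_finset_eq T ?_ ?_ fun a ha => ?_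
  · exact (Polynomial.degree_le_natDegree).trans_lt
      (by exact_mod_cast thinSet_lagP_natDegree_lt T _ hT)
  · refine (Polynomial.degree_le_natDegree).trans_lt ?_
    have := Polynomial.natDegree_C_mul_le (thinSet_lagW T) P
    exact_mod_cast this.trans_lt hP
  · rw [thinSet_lagP_eval_node T _ a ha, eval_mul, eval_C]

/-- Key congruence: if the values `z` agree modulo `L` with those of a polynomial of small
degree at the nodes and at `x`, then `W z(x) ≡ (interpolant of z)(x)` modulo `L`. -/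
theorem thinSet_lag_dvd (T : Finset ℤ) (P : ℤ[X]) (hP : P.natDegree < T.card) (z : ℤ → ℤ)
    (L : ℤ) (hT : ∀ a ∈ T, L ∣ z a - P.eval a) (x : ℤ) (hx : L ∣ z x - P.eval x) :
    L ∣ thinSet_lagW T * z x - (thinSet_lagP T z).eval x := by
  have h1 : thinSet_lagW T * P.eval x = (thinSet_lagP T (fun a => P.eval a)).eval x := by
    rw [thinSet_lagP_of_polynomial T P hP, eval_mul, eval_C]
  have h2 : thinSet_lagW T * z x - (thinSet_lagP T z).eval x
      = thinSet_lagW T * (z x - P.eval x)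
        - ∑ a ∈ T, (z a - P.eval a) * (thinSet_lagWi T a * ∏ b ∈ T.erase a, (x - b)) := by
    have h3 : ∑ a ∈ T, (z a - P.eval a) * (thinSet_lagWi T a * ∏ b ∈ T.erase a, (x - b))
        = (thinSet_lagP T z).eval x - (thinSet_lagP T (fun a => P.eval a)).eval x := by
      rw [thinSet_lagP_eval, thinSet_lagP_eval, ← Finset.sum_sub_distrib]
      exact Finset.sum_congr rfl fun a _ => by ring
    rw [h3, ← h1]; ring
  rw [h2]
  exact dvd_sub (Dvd.dvd.mul_left hx _)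
    (Finset.dvd_sum fun a ha => Dvd.dvd.mul_right (hT a ha) _)

theorem thinSet_abs_prod_sub_le (S : Finset ℤ) (N₁ : ℤ) (x : ℤ) (hx : 1 ≤ x ∧ x ≤ N₁)
    (hS : ∀ b ∈ S, 1 ≤ b ∧ b ≤ N₁) : |∏ b ∈ S, (x - b)| ≤ N₁ ^ S.card := by
  rw [Finset.abs_prod, ← Finset.prod_const]
  refine Finset.prod_le_prod (fun _ _ => abs_nonneg _) fun b hb => ?_
  have := hS b hb
  rw [abs_le]; constructor <;> linarith

/-- Archimedean bound for the interpolation defect. -/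
theorem thinSet_lag_bound (T : Finset ℤ) (D : ℕ) (hcard : T.card = D + 1) (N₁ : ℤ)
    (hTN : ∀ a ∈ T, 1 ≤ a ∧ a ≤ N₁) (z : ℤ → ℤ) (Zmax : ℤ) (hz : ∀ a ∈ T, |z a| ≤ Zmax)
    (x : ℤ) (hx : 1 ≤ x ∧ x ≤ N₁) (hzx : |z x| ≤ Zmax) :
    |thinSet_lagW T * z x - (thinSet_lagP T z).eval x| ≤ (D + 2) * Zmax * N₁ ^ (D * (D + 1)) := by
  have hN1 : (1 : ℤ) ≤ N₁ := hx.1.trans hx.2
  have hN0 : (0 : ℤ) ≤ N₁ := by linarith
  have hZ0 : 0 ≤ Zmax := (abs_nonneg _).trans hzx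
  have herase : ∀ a ∈ T, (T.erase a).card = D := fun a ha => by
    rw [Finset.card_erase_of_mem ha, hcard]; rfl
  have hrow : ∀ a ∈ T, ∀ y : ℤ, (1 ≤ y ∧ y ≤ N₁) → |∏ b ∈ T.erase a, (y - b)| ≤ N₁ ^ D := by
    intro a ha y hy
    have := thinSet_abs_prod_sub_le (T.erase a) N₁ y hy
      (fun b hb => hTN b (Finset.mem_of_mem_erase hb))
    rwa [herase a ha] at this
  have hW : |thinSet_lagW T| ≤ N₁ ^ (D * (D + 1)) := by
    unfold thinSet_lagW
    rw [Finset.abs_prod]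
    calc ∏ a ∈ T, |∏ b ∈ T.erase a, (a - b)| ≤ ∏ _a ∈ T, N₁ ^ D :=
          Finset.prod_le_prod (fun _ _ => abs_nonneg _) fun a ha => hrow a ha a (hTN a ha)
      _ = N₁ ^ (D * (D + 1)) := by rw [Finset.prod_const, hcard, ← pow_mul]
  have hWi : ∀ a ∈ T, |thinSet_lagWi T a| ≤ N₁ ^ (D * D) := by
    intro a ha
    unfold thinSet_lagWi
    rw [Finset.abs_prod]
    calc ∏ a' ∈ T.erase a, |∏ b ∈ T.erase a', (a' - b)| ≤ ∏ _a' ∈ T.erase a, N₁ ^ D :=
          Finset.prod_le_prod (fun _ _ => abs_nonneg _) fun a' ha' =>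
            hrow a' (Finset.mem_of_mem_erase ha') a' (hTN a' (Finset.mem_of_mem_erase ha'))
      _ = N₁ ^ (D * D) := by rw [Finset.prod_const, herase a ha, ← pow_mul]
  have hterm : ∀ a ∈ T, |z a * (thinSet_lagWi T a * ∏ b ∈ T.erase a, (x - b))|
      ≤ Zmax * N₁ ^ (D * (D + 1)) := by
    intro a ha
    rw [abs_mul, abs_mul]
    have e : N₁ ^ (D * (D + 1)) = N₁ ^ (D * D) * N₁ ^ D := by rw [← pow_add]; ring_nf
    rw [e]
    exact mul_le_mul (hz a ha)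
      (mul_le_mul (hWi a ha) (hrow a ha x hx) (abs_nonneg _) (pow_nonneg hN0 _))
      (mul_nonneg (abs_nonneg _) (abs_nonneg _)) hZ0
  have hsum : |(thinSet_lagP T z).eval x| ≤ (D + 1) * (Zmax * N₁ ^ (D * (D + 1))) := by
    rw [thinSet_lagP_eval]
    refine (Finset.abs_sum_le_sum_abs _ _).trans ?_
    refine (Finset.sum_le_sum hterm).trans ?_
    rw [Finset.sum_const, hcard, nsmul_eq_mul]
    push_cast
    exact le_refl _
  have hfirst : |thinSet_lagW T * z x| ≤ Zmax * N₁ ^ (D * (D + 1)) := by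
    rw [abs_mul, mul_comm]
    exact mul_le_mul hzx hW (abs_nonneg _) hZ0
  calc |thinSet_lagW T * z x - (thinSet_lagP T z).eval x|
      ≤ |thinSet_lagW T * z x| + |(thinSet_lagP T z).eval x| := abs_sub _ _
    _ ≤ Zmax * N₁ ^ (D * (D + 1)) + (D + 1) * (Zmax * N₁ ^ (D * (D + 1))) := add_le_add hfirst hsum
    _ = (D + 2) * Zmax * N₁ ^ (D * (D + 1)) := by ring

/-! ## 5. Bivariate plumbing -/

theorem thinSet_eval_eval {R : Type*} [CommRing R] (Φ : R[X][X]) (P : R[X]) (t : R) :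
    (Φ.eval P).eval t = (Φ.map (evalRingHom t)).eval (P.eval t) := by
  rw [eval_map]
  exact (Polynomial.eval₂_at_apply (p := Φ) (evalRingHom t) P).symm

/-- The reduction-at-`t` homomorphism `ℤ[X] → ZMod ℓ`. -/
noncomputable def thinSet_redHom (ℓ : ℕ) (t : ℤ) : ℤ[X] →+* ZMod ℓ :=
  (Int.castRingHom (ZMod ℓ)).comp (evalRingHom t)

theorem thinSet_redHom_apply (ℓ : ℕ) (t : ℤ) (P : ℤ[X]) :
    thinSet_redHom ℓ t P = ((P.eval t : ℤ) : ZMod ℓ) := rfl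

theorem thinSet_redHom_eq (ℓ : ℕ) (t : ℤ) (ht : (ℓ : ℤ) ∣ t) :
    thinSet_redHom ℓ t = thinSet_redHom ℓ 0 := by
  refine Polynomial.ringHom_ext (fun a => ?_) ?_
  · simp
  · simp only [thinSet_redHom_apply, eval_X, Int.cast_zero]
    exact (ZMod.intCast_zmod_eq_zero_iff_dvd t ℓ).2 ht

theorem thinSet_cast_eval_map (ℓ : ℕ) (Φ : ℤ[X][X]) (t z : ℤ) :
    (((Φ.map (evalRingHom t)).eval z : ℤ) : ZMod ℓ)
      = (Φ.map (thinSet_redHom ℓ t)).eval (z : ZMod ℓ) := by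
  have h := Polynomial.eval_map_apply (p := Φ.map (evalRingHom t)) (Int.castRingHom (ZMod ℓ)) z
  rw [Polynomial.map_map] at h
  exact h.symm

theorem thinSet_cast_eval_eq (ℓ : ℕ) (Φ : ℤ[X][X]) (t z a₀ : ℤ) (ht : (ℓ : ℤ) ∣ t)
    (hz : (ℓ : ℤ) ∣ z - a₀) :
    (((Φ.map (evalRingHom t)).eval z : ℤ) : ZMod ℓ)
      = (((Φ.map (evalRingHom 0)).eval a₀ : ℤ) : ZMod ℓ) := by
  rw [thinSet_cast_eval_map, thinSet_cast_eval_map, thinSet_redHom_eq ℓ t ht]
  congr 1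
  exact (ZMod.intCast_eq_intCast_iff_dvd_sub _ _ _).2 (by
    have : a₀ - z = -(z - a₀) := by ring
    rw [this]; exact (dvd_neg).2 hz)

/-- Elements of the `N`-th power of the kernel of `P ↦ P(0) mod ℓ` take values divisible by
`ℓ ^ N` at multiples of `ℓ`. -/
theorem thinSet_eval_mem_pow (ℓ : ℕ) (t : ℤ) (ht : (ℓ : ℤ) ∣ t) (N : ℕ) (P : ℤ[X])
    (hP : P ∈ RingHom.ker (thinSet_redHom ℓ 0) ^ N) : (ℓ : ℤ) ^ N ∣ P.eval t := by
  have h1 : RingHom.ker (thinSet_redHom ℓ 0)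
      ≤ Ideal.comap (evalRingHom t) (Ideal.span {(ℓ : ℤ)}) := by
    intro Q hQ
    rw [RingHom.mem_ker, ← thinSet_redHom_eq ℓ t ht, thinSet_redHom_apply] at hQ
    rw [Ideal.mem_comap, Ideal.mem_span_singleton]
    exact (ZMod.intCast_zmod_eq_zero_iff_dvd _ ℓ).1 hQ
  have h2 := (Ideal.pow_right_mono h1 N).trans (Ideal.le_comap_pow (evalRingHom t) N)
  have h3 := h2 hP
  rw [Ideal.mem_comap, Ideal.span_singleton_pow, Ideal.mem_span_singleton] at h3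
  exact h3

/-! ## 6. The `ℓ`-adic polynomial approximant of a branch -/

/-- For a simple root `a₀` of `Φ(0, Z)` modulo `ℓ` there is a polynomial `R` of degree `≤ D`
approximating all integer solutions `(t, z)` on the branch of `a₀` with `ℓ ^ n ∣ t`
modulo `ℓ ^ (n (D + 1))`. -/
theorem thinSet_approximant (Φ : ℤ[X][X]) (ℓ : ℕ) [Fact ℓ.Prime] (a₀ : ℤ)
    (hroot : (((Φ.map (evalRingHom 0)).eval a₀ : ℤ) : ZMod ℓ) = 0)
    (hder : (((derivative (Φ.map (evalRingHom 0))).eval a₀ : ℤ) : ZMod ℓ) ≠ 0)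
    (n D : ℕ) (hn : 1 ≤ n) :
    ∃ R : ℤ[X], R.natDegree ≤ D ∧ ∀ t z : ℤ, (ℓ : ℤ) ^ n ∣ t → Φ.evalEval t z = 0 →
      (ℓ : ℤ) ∣ z - a₀ → (ℓ : ℤ) ^ (n * (D + 1)) ∣ z - R.eval t := by
  classical
  have hℓ : (ℓ : ℤ) ≠ 0 := by exact_mod_cast (Fact.out : ℓ.Prime).ne_zero
  set I : Ideal ℤ[X] := RingHom.ker (thinSet_redHom ℓ 0) with hI
  -- the inverse of the derivative
  obtain ⟨u₀, hu₀⟩ := ZMod.intCast_surjective
    ((((derivative (Φ.map (evalRingHom 0))).eval a₀ : ℤ) : ZMod ℓ)⁻¹)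
  have hN : n * (D + 1) = (n * (D + 1) - 1) + 1 := by
    have : 1 ≤ n * (D + 1) := Nat.one_le_iff_ne_zero.2 (by positivity)
    omega
  obtain ⟨R₁, hR₁a, hR₁⟩ := thinSet_newton I Φ (C a₀) (C u₀)
    (by
      rw [hI, RingHom.mem_ker, thinSet_redHom_apply, thinSet_eval_eval, eval_C]
      exact hroot)
    (by
      rw [hI, RingHom.mem_ker, map_sub, map_mul, map_one, thinSet_redHom_apply,
        thinSet_redHom_apply, thinSet_eval_eval, eval_C, eval_C, ← Polynomial.derivative_map,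
        hu₀, inv_mul_cancel₀ hder, sub_self])
    (n * (D + 1) - 1)
  rw [← hN] at hR₁
  have hmonic : (X ^ (D + 1) : ℤ[X]).Monic := Polynomial.monic_X_pow _
  refine ⟨R₁ %ₘ X ^ (D + 1), ?_, ?_⟩
  · have h := Polynomial.natDegree_modByMonic_lt R₁ hmonic
      (by
        intro h1
        have := congrArg Polynomial.natDegree h1
        simp at this)
    rw [Polynomial.natDegree_X_pow] at h
    omega
  intro t z ht hz hza
  have htℓ : (ℓ : ℤ) ∣ t := (dvd_pow_self (ℓ : ℤ) (by omega)).trans ht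
  set F : ℤ[X] := Φ.map (evalRingHom t) with hF
  have hFz : F.eval z = 0 := by rw [hF, Polynomial.map_evalRingHom_eval]; exact hz
  -- `R₁(t) ≡ R(t)` modulo `ℓ ^ N`
  have hRR : (ℓ : ℤ) ^ (n * (D + 1)) ∣ R₁.eval t - (R₁ %ₘ X ^ (D + 1)).eval t := by
    have h := Polynomial.modByMonic_add_div R₁ (X ^ (D + 1))
    have h'' := congrArg (Polynomial.eval t) h
    simp only [eval_add, eval_mul, eval_pow, eval_X] at h''
    have h' : R₁.eval t - (R₁ %ₘ X ^ (D + 1)).eval t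
        = t ^ (D + 1) * (R₁ /ₘ X ^ (D + 1)).eval t := by
      linarith
    rw [h', pow_mul]
    exact Dvd.dvd.mul_right (pow_dvd_pow_of_dvd ht _) _
  -- `F(R₁(t)) ≡ 0`
  have hFR₁ : (ℓ : ℤ) ^ (n * (D + 1)) ∣ F.eval (R₁.eval t) := by
    rw [hF, ← thinSet_eval_eval]
    exact thinSet_eval_mem_pow ℓ t htℓ _ _ hR₁
  have hFR : (ℓ : ℤ) ^ (n * (D + 1)) ∣ F.eval ((R₁ %ₘ X ^ (D + 1)).eval t) := by
    have h1 := Polynomial.sub_dvd_eval_sub (R₁.eval t) ((R₁ %ₘ X ^ (D + 1)).eval t) F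
    have h2 := hRR.trans h1
    have h3 := dvd_sub hFR₁ h2
    simpa using h3
  -- `R(t) ≡ z` modulo `ℓ`
  have hRa : (ℓ : ℤ) ∣ R₁.eval t - a₀ := by
    have h := thinSet_eval_mem_pow ℓ t htℓ 1 (R₁ - C a₀) (by rwa [pow_one])
    simpa using h
  have hbz : (ℓ : ℤ) ∣ (R₁ %ₘ X ^ (D + 1)).eval t - z := by
    have h1 : (ℓ : ℤ) ∣ R₁.eval t - (R₁ %ₘ X ^ (D + 1)).eval t :=
      (dvd_pow_self (ℓ : ℤ) (by rw [hN]; omega)).trans hRR
    have e : (R₁ %ₘ X ^ (D + 1)).eval t - z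
        = (R₁.eval t - a₀) - (R₁.eval t - (R₁ %ₘ X ^ (D + 1)).eval t) - (z - a₀) := by ring
    rw [e]
    exact dvd_sub (dvd_sub hRa h1) hza
  -- the derivative is a unit modulo `ℓ`
  have hcop : IsCoprime (F.derivative.eval z) (ℓ : ℤ) := by
    have hne : ((F.derivative.eval z : ℤ) : ZMod ℓ) ≠ 0 := by
      rw [hF, Polynomial.derivative_map, thinSet_cast_eval_eq ℓ _ t z a₀ htℓ hza,
        ← Polynomial.derivative_map]
      exact hder
    have hnd : ¬ (ℓ : ℤ) ∣ F.derivative.eval z := fun h =>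
      hne ((ZMod.intCast_zmod_eq_zero_iff_dvd _ ℓ).2 h)
    have hp : Prime (ℓ : ℤ) := Nat.prime_iff_prime_int.1 (Fact.out : ℓ.Prime)
    exact ((Prime.coprime_iff_not_dvd hp).2 hnd).symm
  have := thinSet_hensel_unique F z ((R₁ %ₘ X ^ (D + 1)).eval t) ℓ (n * (D + 1)) hFz hFR hbz hcop
  exact (dvd_sub_comm).1 this

/-! ## 7. Auxiliary statements for the assembly -/

/-- Separability (Bezout form) makes every root modulo `ℓ` simple, for `ℓ ∤ c`. -/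
theorem thinSet_simple_root (f U V : ℤ[X]) (c : ℤ) (hUV : U * f + V * derivative f = C c)
    (ℓ : ℕ) (hc : ((c : ℤ) : ZMod ℓ) ≠ 0) (a₀ : ℤ) (h0 : ((f.eval a₀ : ℤ) : ZMod ℓ) = 0) :
    (((derivative f).eval a₀ : ℤ) : ZMod ℓ) ≠ 0 := by
  intro h1
  have h := congrArg (fun P : ℤ[X] => ((P.eval a₀ : ℤ) : ZMod ℓ)) hUV
  simp only [eval_add, eval_mul, eval_C, Int.cast_add, Int.cast_mul, h0, h1, mul_zero,
    add_zero] at h
  exact hc h.symm

/-- The height used in the archimedean bound. -/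
noncomputable def thinSet_height (Φ : ℤ[X][X]) (m : ℕ) : ℤ :=
  ∑ k ∈ Finset.range Φ.natDegree, ∑ i ∈ Finset.range (m + 1), |(Φ.coeff k).coeff i|

theorem thinSet_height_nonneg (Φ : ℤ[X][X]) (m : ℕ) : 0 ≤ thinSet_height Φ m :=
  Finset.sum_nonneg fun _ _ => Finset.sum_nonneg fun _ _ => abs_nonneg _

/-- Integer solutions `(t, z)` of `Φ(t, z) = 0` have `|z| ≤ (1 + H) |t| ^ m`. -/
theorem thinSet_sol_bound (Φ : ℤ[X][X]) (hΦ : Φ.Monic) (m : ℕ)
    (hm : ∀ k, (Φ.coeff k).natDegree ≤ m) (t z : ℤ) (ht : 1 ≤ |t|)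
    (hz : Φ.evalEval t z = 0) : |z| ≤ (1 + thinSet_height Φ m) * |t| ^ m := by
  have hF : (Φ.map (evalRingHom t)).Monic := hΦ.map _
  have hd : (Φ.map (evalRingHom t)).natDegree = Φ.natDegree := hΦ.natDegree_map _
  have h1 := thinSet_root_bound _ hF z (by rw [Polynomial.map_evalRingHom_eval]; exact hz)
  rw [hd] at h1
  have h2 : ∑ k ∈ Finset.range Φ.natDegree, |(Φ.map (evalRingHom t)).coeff k|
      ≤ thinSet_height Φ m * |t| ^ m := by
    unfold thinSet_height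
    rw [Finset.sum_mul]
    refine Finset.sum_le_sum fun k _ => ?_
    rw [Polynomial.coeff_map]
    exact thinSet_eval_bound (Φ.coeff k) m (hm k) t ht
  have h3 : (1 : ℤ) ≤ |t| ^ m := one_le_pow₀ ht
  calc |z| ≤ 1 + thinSet_height Φ m * |t| ^ m := h1.trans (by linarith)
    _ ≤ |t| ^ m + thinSet_height Φ m * |t| ^ m := by linarith
    _ = (1 + thinSet_height Φ m) * |t| ^ m := by ring

/-- Points that are `L`-adically close to a polynomial graph of degree `≤ D` and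
archimedeanly small lie on a rational polynomial graph of degree `≤ D`. -/
theorem thinSet_graph_of_branch (T : Finset ℤ) (D : ℕ) (hcard : D + 1 ≤ T.card) (N₁ : ℤ)
    (hTN : ∀ a ∈ T, 1 ≤ a ∧ a ≤ N₁) (z : ℤ → ℤ) (Zmax : ℤ) (hz : ∀ a ∈ T, |z a| ≤ Zmax)
    (P : ℤ[X]) (hP : P.natDegree ≤ D) (L : ℤ) (hL : ∀ a ∈ T, L ∣ z a - P.eval a)
    (hsmall : (D + 2) * Zmax * N₁ ^ (D * (D + 1)) < L) :
    ∃ Q : ℚ[X], Q.natDegree ≤ D ∧ ∀ a ∈ T, Q.eval (a : ℚ) = z a := by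
  obtain ⟨T₀, hT₀, hT₀card⟩ := Finset.exists_subset_card_eq hcard
  have hT₀ne : T₀.Nonempty := Finset.card_pos.1 (by omega)
  have hW : ((thinSet_lagW T₀ : ℤ) : ℚ) ≠ 0 := by exact_mod_cast thinSet_lagW_ne_zero T₀
  refine ⟨C ((thinSet_lagW T₀ : ℚ))⁻¹ * (thinSet_lagP T₀ z).map (Int.castRingHom ℚ), ?_, ?_⟩
  · refine (Polynomial.natDegree_C_mul_le _ _).trans ((Polynomial.natDegree_map_le).trans ?_)
    have := thinSet_lagP_natDegree_lt T₀ z hT₀ne
    omega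
  · intro a ha
    have hdvd := thinSet_lag_dvd T₀ P (by omega) z L (fun b hb => hL b (hT₀ hb)) a (hL a ha)
    have hbd := thinSet_lag_bound T₀ D hT₀card N₁ (fun b hb => hTN b (hT₀ hb)) z Zmax
      (fun b hb => hz b (hT₀ hb)) a (hTN a ha) (hz a ha)
    have h0 := Int.eq_zero_of_abs_lt_dvd hdvd (hbd.trans_lt hsmall)
    have h1 : ((thinSet_lagP T₀ z).eval a : ℤ) = thinSet_lagW T₀ * z a := by linarith
    rw [eval_mul, eval_C]
    have h2 : ((thinSet_lagP T₀ z).map (Int.castRingHom ℚ)).eval (a : ℚ)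
        = (((thinSet_lagP T₀ z).eval a : ℤ) : ℚ) := by
      have := Polynomial.eval_map_apply (p := thinSet_lagP T₀ z) (Int.castRingHom ℚ) a
      simp only [eq_intCast] at this
      exact this
    rw [h2, h1]
    push_cast
    field_simp

/-- Degree bound for `Φ(t, Q(t))`. -/
theorem thinSet_natDegree_eval_le (Φ : ℤ[X][X]) (m : ℕ) (hm : ∀ k, (Φ.coeff k).natDegree ≤ m)
    (Q : ℚ[X]) (D : ℕ) (hQ : Q.natDegree ≤ D) :
    ((Φ.map (mapRingHom (Int.castRingHom ℚ))).eval Q).natDegree ≤ m + Φ.natDegree * D := by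
  rw [Polynomial.eval_eq_sum_range' (n := Φ.natDegree + 1)
    (Nat.lt_succ_of_le (Polynomial.natDegree_map_le))]
  refine Polynomial.natDegree_sum_le_of_forall_le _ _ fun k hk => ?_
  have hk' : k ≤ Φ.natDegree := Nat.lt_succ_iff.1 (Finset.mem_range.1 hk)
  refine (Polynomial.natDegree_mul_le).trans ?_
  refine add_le_add ?_ ?_
  · rw [Polynomial.coeff_map]
    exact (Polynomial.natDegree_map_le).trans (hm k)
  · refine (Polynomial.natDegree_pow_le).trans ?_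
    exact Nat.mul_le_mul hk' hQ

/-- A rational polynomial graph through many integer solutions is a solution. -/
theorem thinSet_vanish (Φ : ℤ[X][X]) (m : ℕ) (hm : ∀ k, (Φ.coeff k).natDegree ≤ m)
    (Q : ℚ[X]) (D : ℕ) (hQ : Q.natDegree ≤ D) (T : Finset ℤ)
    (hT : m + Φ.natDegree * D < T.card) (τ z : ℤ → ℤ) (hτ : Function.Injective τ)
    (hsol : ∀ a ∈ T, Φ.evalEval (τ a) (z a) = 0)
    (hQz : ∀ a ∈ T, Q.eval ((τ a : ℤ) : ℚ) = z a) :
    (Φ.map (mapRingHom (Int.castRingHom ℚ))).eval Q = 0 := by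
  refine Polynomial.eq_zero_of_natDegree_lt_card_of_eval_eq_zero' _
    (T.image (fun a : ℤ => ((τ a : ℤ) : ℚ))) ?_ ?_
  · intro x hx
    obtain ⟨a, ha, rfl⟩ := Finset.mem_image.1 hx
    rw [thinSet_eval_eval, Polynomial.map_evalRingHom_eval, hQz a ha]
    have := Polynomial.map_mapRingHom_evalEval (Int.castRingHom ℚ) Φ (τ a) (z a)
    simp only [eq_intCast] at this
    rw [this, hsol a ha, Int.cast_zero]
  · rw [Finset.card_image_of_injective (f := fun a : ℤ => ((τ a : ℤ) : ℚ)) T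
      (fun a b h => hτ (Int.cast_injective h))]
    exact (thinSet_natDegree_eval_le Φ m hm Q D hQ).trans_lt hT

/-! ## 8. The thin-set lemma -/

/-- **Thin-set lemma.**  Let `Φ ∈ ℤ[t][Z]` be monic in `Z` with `Φ(0, Z)` separable
(Bezout form over `ℤ`).  If `Φ(M₀ s, Z)` has an integer root for every `s ≥ s₀`, then
`Φ(t, Q(t)) = 0` for some `Q ∈ ℚ[t]`. -/
theorem thinSet_exists_polynomial_root (Φ : ℤ[X][X]) (hΦ : Φ.Monic)
    (hsep : ∃ (U V : ℤ[X]) (c : ℤ), c ≠ 0 ∧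
      U * Φ.map (evalRingHom 0) + V * derivative (Φ.map (evalRingHom 0)) = C c)
    (M₀ : ℕ) (hM₀ : 0 < M₀) (s₀ : ℕ)
    (hroot : ∀ s : ℕ, s₀ ≤ s → ∃ z : ℤ, Φ.evalEval ((M₀ : ℤ) * s) z = 0) :
    ∃ Q : ℚ[X], (Φ.map (mapRingHom (Int.castRingHom ℚ))).eval Q = 0 := by
  classical
  obtain ⟨U, V, c, hc, hUV⟩ := hsep
  -- the prime `ℓ`
  obtain ⟨ℓ, hℓc, hℓ⟩ := Nat.exists_infinite_primes (c.natAbs + 1)
  have : Fact ℓ.Prime := ⟨hℓ⟩
  have : NeZero ℓ := ⟨hℓ.ne_zero⟩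
  have hcℓ : ((c : ℤ) : ZMod ℓ) ≠ 0 := by
    intro h
    have h1 := (ZMod.intCast_zmod_eq_zero_iff_dvd c ℓ).1 h
    have h2 : ℓ ∣ c.natAbs := Int.natCast_dvd.1 h1
    have h3 := Nat.le_of_dvd (Int.natAbs_pos.2 hc) h2
    omega
  -- degrees
  obtain ⟨m, hm⟩ : ∃ m : ℕ, ∀ k, (Φ.coeff k).natDegree ≤ m := by
    refine ⟨(Finset.range (Φ.natDegree + 1)).sup (fun k => (Φ.coeff k).natDegree), fun k => ?_⟩
    by_cases hk : k ≤ Φ.natDegree
    · exact Finset.le_sup (f := fun k => (Φ.coeff k).natDegree)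
        (Finset.mem_range.2 (Nat.lt_succ_of_le hk))
    · rw [Polynomial.coeff_eq_zero_of_natDegree_lt (not_le.1 hk)]; simp
  -- constants
  obtain ⟨K, hK⟩ : ∃ K : ℕ, K = m + Φ.natDegree * m + 1 := ⟨_, rfl⟩
  obtain ⟨N₁, hN₁⟩ : ∃ N₁ : ℕ, N₁ = ℓ * K := ⟨_, rfl⟩
  obtain ⟨C₁, hC₁⟩ : ∃ C₁ : ℤ, C₁ = 1 + thinSet_height Φ m := ⟨_, rfl⟩
  have hC₁pos : 0 < C₁ := by have := thinSet_height_nonneg Φ m; omega
  obtain ⟨C₂, hC₂⟩ : ∃ C₂ : ℤ,
      C₂ = ((m : ℤ) + 2) * (C₁ * ((M₀ : ℤ) * N₁) ^ m) * (N₁ : ℤ) ^ (m * (m + 1)) := ⟨_, rfl⟩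
  obtain ⟨n, hn⟩ : ∃ n : ℕ, n = C₂.toNat + s₀ + 1 := ⟨_, rfl⟩
  have hn1 : 1 ≤ n := by omega
  have hℓn : n < ℓ ^ n := Nat.lt_pow_self hℓ.one_lt
  have hC₂n : C₂ < ((ℓ : ℤ)) ^ n := by
    have h1 : C₂ ≤ (C₂.toNat : ℤ) := Int.self_le_toNat C₂
    have h2 : ((C₂.toNat : ℕ) : ℤ) < ((ℓ ^ n : ℕ) : ℤ) := by
      exact_mod_cast (by omega : C₂.toNat < ℓ ^ n)
    push_cast at h2
    linarith
  have hs₀n : s₀ ≤ ℓ ^ n := by omega
  have hℓpos : (0 : ℤ) < (ℓ : ℤ) ^ n := by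
    have : (0 : ℤ) < (ℓ : ℤ) := by exact_mod_cast hℓ.pos
    positivity
  have hM₀' : (0 : ℤ) < (M₀ : ℤ) := by exact_mod_cast hM₀
  -- the solutions
  have hex : ∀ x : ℤ, ∃ z : ℤ, 1 ≤ x → Φ.evalEval ((M₀ : ℤ) * (ℓ : ℤ) ^ n * x) z = 0 := by
    intro x
    by_cases hx : 1 ≤ x
    · obtain ⟨z, hz⟩ := hroot (ℓ ^ n * x.toNat) (by
        have : 1 ≤ x.toNat := by omega
        calc s₀ ≤ ℓ ^ n := hs₀n
          _ = ℓ ^ n * 1 := (mul_one _).symm
          _ ≤ ℓ ^ n * x.toNat := Nat.mul_le_mul_left _ this)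
      refine ⟨z, fun _ => ?_⟩
      have e : (M₀ : ℤ) * (ℓ : ℤ) ^ n * x = (M₀ : ℤ) * ((ℓ ^ n * x.toNat : ℕ) : ℤ) := by
        push_cast
        rw [Int.toNat_of_nonneg (by omega)]
        ring
      rw [e]; exact hz
    · exact ⟨0, fun h => absurd h hx⟩
  choose zfun hzfun using hex
  -- pigeonhole
  have hKpos : 1 ≤ K := by omega
  obtain ⟨y, -, hy⟩ := Finset.exists_le_card_fiber_of_mul_le_card_of_maps_to
    (s := Finset.Icc (1 : ℤ) N₁) (t := (Finset.univ : Finset (ZMod ℓ)))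
    (f := fun x => ((zfun x : ℤ) : ZMod ℓ)) (n := K) (fun _ _ => Finset.mem_univ _)
    Finset.univ_nonempty (by
      rw [Finset.card_univ, ZMod.card, Int.card_Icc, hN₁]
      have e : ((ℓ * K : ℕ) : ℤ) + 1 - 1 = ((ℓ * K : ℕ) : ℤ) := by ring
      rw [e, Int.toNat_natCast])
  obtain ⟨T, hT⟩ : ∃ T : Finset ℤ,
      T = (Finset.Icc (1 : ℤ) N₁).filter (fun x => ((zfun x : ℤ) : ZMod ℓ) = y) := ⟨_, rfl⟩
  rw [← hT] at hy
  have hTmem : ∀ a ∈ T, (1 ≤ a ∧ a ≤ (N₁ : ℤ)) ∧ ((zfun a : ℤ) : ZMod ℓ) = y := by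
    intro a ha
    rw [hT, Finset.mem_filter, Finset.mem_Icc] at ha
    exact ha
  obtain ⟨x₁, hx₁⟩ : T.Nonempty := Finset.card_pos.1 (by omega)
  -- the branch
  have hdvdt : ∀ a : ℤ, (ℓ : ℤ) ^ n ∣ (M₀ : ℤ) * (ℓ : ℤ) ^ n * a :=
    fun a => Dvd.dvd.mul_right (Dvd.intro_left _ rfl) _
  have hdvdt1 : ∀ a : ℤ, (ℓ : ℤ) ∣ (M₀ : ℤ) * (ℓ : ℤ) ^ n * a :=
    fun a => (dvd_pow_self (ℓ : ℤ) (by omega)).trans (hdvdt a)
  have hbranch : ∀ a ∈ T, (ℓ : ℤ) ∣ zfun a - zfun x₁ := by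
    intro a ha
    have h1 := (hTmem a ha).2
    have h2 := (hTmem x₁ hx₁).2
    have h3 : ((zfun x₁ : ℤ) : ZMod ℓ) = ((zfun a : ℤ) : ZMod ℓ) := h2.trans h1.symm
    exact (ZMod.intCast_eq_intCast_iff_dvd_sub _ _ _).1 h3
  have hroot0 : (((Φ.map (evalRingHom 0)).eval (zfun x₁) : ℤ) : ZMod ℓ) = 0 := by
    rw [← thinSet_cast_eval_eq ℓ Φ _ (zfun x₁) (zfun x₁) (hdvdt1 x₁) (by simp),
      Polynomial.map_evalRingHom_eval, hzfun x₁ (hTmem x₁ hx₁).1.1, Int.cast_zero]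
  have hder0 := thinSet_simple_root _ U V c hUV ℓ hcℓ (zfun x₁) hroot0
  obtain ⟨R, hRdeg, hR⟩ := thinSet_approximant Φ ℓ (zfun x₁) hroot0 hder0 n m hn1
  -- rescaled approximant
  obtain ⟨Rt, hRt⟩ : ∃ Rt : ℤ[X], Rt = R.comp (C ((M₀ : ℤ) * (ℓ : ℤ) ^ n) * X) := ⟨_, rfl⟩
  have hRtdeg : Rt.natDegree ≤ m := by
    rw [hRt]
    refine (Polynomial.natDegree_comp_le).trans ?_
    have : (C ((M₀ : ℤ) * (ℓ : ℤ) ^ n) * X : ℤ[X]).natDegree ≤ 1 :=
      (Polynomial.natDegree_C_mul_le _ _).trans (by simp)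
    calc R.natDegree * (C ((M₀ : ℤ) * (ℓ : ℤ) ^ n) * X : ℤ[X]).natDegree
        ≤ m * 1 := Nat.mul_le_mul hRdeg this
      _ = m := mul_one _
  have hRtclose : ∀ a ∈ T, (ℓ : ℤ) ^ (n * (m + 1)) ∣ zfun a - Rt.eval a := by
    intro a ha
    have := hR _ (zfun a) (hdvdt a) (hzfun a (hTmem a ha).1.1) (hbranch a ha)
    rw [hRt, eval_comp, eval_mul, eval_C, eval_X]
    exact this
  -- archimedean bound
  have hzbound : ∀ a ∈ T, |zfun a| ≤ C₁ * ((M₀ : ℤ) * N₁) ^ m * ((ℓ : ℤ) ^ n) ^ m := by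
    intro a ha
    obtain ⟨⟨ha1, haN⟩, -⟩ := hTmem a ha
    have htpos : 1 ≤ (M₀ : ℤ) * (ℓ : ℤ) ^ n * a := by
      have h1 : 1 ≤ (M₀ : ℤ) * (ℓ : ℤ) ^ n := by nlinarith
      nlinarith
    have habs : |(M₀ : ℤ) * (ℓ : ℤ) ^ n * a| = (M₀ : ℤ) * (ℓ : ℤ) ^ n * a :=
      abs_of_pos (by omega)
    have hb := thinSet_sol_bound Φ hΦ m hm _ (zfun a) (by rw [habs]; exact htpos)
      (hzfun a ha1)
    rw [habs, ← hC₁] at hb
    refine hb.trans ?_
    have h2 : (M₀ : ℤ) * (ℓ : ℤ) ^ n * a ≤ (M₀ : ℤ) * N₁ * (ℓ : ℤ) ^ n := by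
      have : (M₀ : ℤ) * (ℓ : ℤ) ^ n * a ≤ (M₀ : ℤ) * (ℓ : ℤ) ^ n * N₁ :=
        mul_le_mul_of_nonneg_left haN (by positivity)
      linarith
    have h3 : ((M₀ : ℤ) * (ℓ : ℤ) ^ n * a) ^ m ≤ ((M₀ : ℤ) * N₁ * (ℓ : ℤ) ^ n) ^ m :=
      pow_le_pow_left₀ (by omega) h2 m
    calc C₁ * ((M₀ : ℤ) * (ℓ : ℤ) ^ n * a) ^ m
        ≤ C₁ * ((M₀ : ℤ) * N₁ * (ℓ : ℤ) ^ n) ^ m := mul_le_mul_of_nonneg_left h3 hC₁pos.le
      _ = C₁ * ((M₀ : ℤ) * N₁) ^ m * ((ℓ : ℤ) ^ n) ^ m := by rw [mul_pow]; ring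
  -- smallness
  have hsmall : ((m : ℤ) + 2) * (C₁ * ((M₀ : ℤ) * N₁) ^ m * ((ℓ : ℤ) ^ n) ^ m)
      * (N₁ : ℤ) ^ (m * (m + 1)) < (ℓ : ℤ) ^ (n * (m + 1)) := by
    have e1 : ((m : ℤ) + 2) * (C₁ * ((M₀ : ℤ) * N₁) ^ m * ((ℓ : ℤ) ^ n) ^ m)
        * (N₁ : ℤ) ^ (m * (m + 1)) = C₂ * ((ℓ : ℤ) ^ n) ^ m := by rw [hC₂]; ring
    have e2 : (ℓ : ℤ) ^ (n * (m + 1)) = (ℓ : ℤ) ^ n * ((ℓ : ℤ) ^ n) ^ m := by
      rw [pow_mul, pow_succ]; ring
    rw [e1, e2]
    exact mul_lt_mul_of_pos_right hC₂n (by positivity)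
  -- the graph
  obtain ⟨Q, hQdeg, hQ⟩ := thinSet_graph_of_branch T m (by omega) N₁
    (fun a ha => (hTmem a ha).1) zfun _ hzbound Rt hRtdeg _ hRtclose (by exact_mod_cast hsmall)
  -- back to the variable `t`
  have hcne : ((M₀ : ℚ) * (ℓ : ℚ) ^ n) ≠ 0 := by
    have : (ℓ : ℚ) ≠ 0 := by exact_mod_cast hℓ.ne_zero
    have : (M₀ : ℚ) ≠ 0 := by exact_mod_cast hM₀.ne'
    positivity
  refine ⟨Q.comp (C ((M₀ : ℚ) * (ℓ : ℚ) ^ n)⁻¹ * X), ?_⟩
  refine thinSet_vanish Φ m hm _ m ?_ T (by omega) (fun a => (M₀ : ℤ) * (ℓ : ℤ) ^ n * a) zfun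
    ?_ (fun a ha => hzfun a (hTmem a ha).1.1) ?_
  · refine (Polynomial.natDegree_comp_le).trans ?_
    have : (C ((M₀ : ℚ) * (ℓ : ℚ) ^ n)⁻¹ * X : ℚ[X]).natDegree ≤ 1 :=
      (Polynomial.natDegree_C_mul_le _ _).trans (by simp)
    calc Q.natDegree * (C ((M₀ : ℚ) * (ℓ : ℚ) ^ n)⁻¹ * X : ℚ[X]).natDegree
        ≤ m * 1 := Nat.mul_le_mul hQdeg this
      _ = m := mul_one _
  · intro a b hab
    have h0 : (M₀ : ℤ) * (ℓ : ℤ) ^ n ≠ 0 := by positivity
    exact mul_left_cancel₀ h0 hab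
  · intro a ha
    rw [eval_comp, eval_mul, eval_C, eval_X, ← hQ a ha]
    congr 1
    have e : (((M₀ : ℤ) * (ℓ : ℤ) ^ n * a : ℤ) : ℚ)
        = ((M₀ : ℚ) * (ℓ : ℚ) ^ n) * (a : ℚ) := by push_cast; ring
    rw [e, ← mul_assoc, inv_mul_cancel₀ hcne, one_mul]

/-- Contrapositive form of the thin-set lemma: if `Φ(t, Z)` has no root in `ℚ[t]`, then
there are arbitrarily large `s` such that `Φ(M₀ s, Z)` has no integer root. -/
theorem thinSet_exists_no_root (Φ : ℤ[X][X]) (hΦ : Φ.Monic)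
    (hsep : ∃ (U V : ℤ[X]) (c : ℤ), c ≠ 0 ∧
      U * Φ.map (evalRingHom 0) + V * derivative (Φ.map (evalRingHom 0)) = C c)
    (hQ : ∀ Q : ℚ[X], (Φ.map (mapRingHom (Int.castRingHom ℚ))).eval Q ≠ 0)
    (M₀ : ℕ) (hM₀ : 0 < M₀) (s₀ : ℕ) :
    ∃ s : ℕ, s₀ ≤ s ∧ ∀ z : ℤ, Φ.evalEval ((M₀ : ℤ) * s) z ≠ 0 := by
  by_contra hcon
  have hroot : ∀ s : ℕ, s₀ ≤ s → ∃ z : ℤ, Φ.evalEval ((M₀ : ℤ) * s) z = 0 := by
    intro s hs
    by_contra h
    exact hcon ⟨s, hs, fun z hz => h ⟨z, hz⟩⟩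
  obtain ⟨Q, hQ0⟩ := thinSet_exists_polynomial_root Φ hΦ hsep M₀ hM₀ s₀ hroot
  exact hQ Q hQ0

/-- Separability over `ℚ` gives the Bezout form over `ℤ`. -/
theorem thinSet_bezout_of_separable (f : ℤ[X])
    (hf : (f.map (Int.castRingHom ℚ)).Separable) :
    ∃ (U V : ℤ[X]) (c : ℤ), c ≠ 0 ∧ U * f + V * derivative f = C c := by
  obtain ⟨a, b, hab⟩ := hf
  obtain ⟨ba, hbaM, hba⟩ := IsLocalization.integerNormalization_spec (nonZeroDivisors ℤ) a
  obtain ⟨bb, hbbM, hbb⟩ := IsLocalization.integerNormalization_spec (nonZeroDivisors ℤ) b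
  have hba0 : ba ≠ 0 := nonZeroDivisors.ne_zero hbaM
  have hbb0 : bb ≠ 0 := nonZeroDivisors.ne_zero hbbM
  have e : algebraMap ℤ ℚ = Int.castRingHom ℚ := rfl
  have hba' : (IsLocalization.integerNormalization (nonZeroDivisors ℤ) a).map
      (Int.castRingHom ℚ) = C (ba : ℚ) * a := by
    rw [← e, hba, zsmul_eq_mul]
    congr 1
  have hbb' : (IsLocalization.integerNormalization (nonZeroDivisors ℤ) b).map
      (Int.castRingHom ℚ) = C (bb : ℚ) * b := by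
    rw [← e, hbb, zsmul_eq_mul]
    congr 1
  refine ⟨C bb * IsLocalization.integerNormalization (nonZeroDivisors ℤ) a,
    C ba * IsLocalization.integerNormalization (nonZeroDivisors ℤ) b,
    ba * bb, mul_ne_zero hba0 hbb0, ?_⟩
  apply Polynomial.map_injective (Int.castRingHom ℚ) Int.cast_injective
  rw [Polynomial.map_add, Polynomial.map_mul, Polynomial.map_mul, Polynomial.map_mul,
    Polynomial.map_mul, Polynomial.map_C, Polynomial.map_C, Polynomial.map_C,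
    ← Polynomial.derivative_map, hba', hbb']
  have e3 : (Int.castRingHom ℚ) (ba * bb) = (ba : ℚ) * (bb : ℚ) := by simp
  rw [e3, C_mul]
  have e1 : (Int.castRingHom ℚ) ba = (ba : ℚ) := rfl
  have e2 : (Int.castRingHom ℚ) bb = (bb : ℚ) := rfl
  rw [e1, e2]
  linear_combination (C (ba : ℚ) * C (bb : ℚ)) * hab

/-- The thin-set lemma with separability over `ℚ` as hypothesis. -/
theorem thinSet_exists_polynomial_root_of_separable (Φ : ℤ[X][X]) (hΦ : Φ.Monic)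
    (hsep : ((Φ.map (evalRingHom 0)).map (Int.castRingHom ℚ)).Separable)
    (M₀ : ℕ) (hM₀ : 0 < M₀) (s₀ : ℕ)
    (hroot : ∀ s : ℕ, s₀ ≤ s → ∃ z : ℤ, Φ.evalEval ((M₀ : ℤ) * s) z = 0) :
    ∃ Q : ℚ[X], (Φ.map (mapRingHom (Int.castRingHom ℚ))).eval Q = 0 :=
  thinSet_exists_polynomial_root Φ hΦ (thinSet_bezout_of_separable _ hsep) M₀ hM₀ s₀ hroot

end Fermat.Agent.S52
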