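/-
S52 (D2a), part 1 (helper45): Hensel branches.

For a monic `f ∈ A[t][Z]` over any commutative ring `A` and a root `z₁` of `f(t₁, ·)` at which
`∂f/∂Z` is a unit, there is a polynomial `R ∈ A[u]` of degree `≤ D` with `R(0) = z₁` and
`f(t₁ + u₁, R(u₁)) = 0` for every `u₁` with `u₁ ^ (D + 1) = 0`.
Also: uniqueness of roots in a nilpotent neighbourhood.
-/
import Mathlib

set_option autoImplicit false

open Polynomial

namespace Fermat.Agent.S52H45

section Uniqueness

variable {A : Type*} [CommRing A]

/-- Two roots of `f` which differ by a nilpotent element coincide if `f'` is a unit at one of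
them. -/
theorem root_unique_of_nilpotent (f : A[X]) {a b : A} (ha : f.eval a = 0) (hb : f.eval b = 0)
    (hnil : IsNilpotent (b - a)) (hu : IsUnit (f.derivative.eval a)) : b = a := by
  obtain ⟨k, hk⟩ := Polynomial.binomExpansion f a (b - a)
  rw [add_sub_cancel, ha, hb, zero_add] at hk
  have h1 : (b - a) * (f.derivative.eval a + k * (b - a)) = 0 := by
    rw [hk]; ring
  have h2 : IsUnit (f.derivative.eval a + k * (b - a)) := by
    have hn : IsNilpotent (k * (b - a)) := (Commute.all _ _).isNilpotent_mul_left hnil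
    exact IsNilpotent.isUnit_add_left_of_commute hn hu (Commute.all _ _)
  have h3 := (IsUnit.mul_left_eq_zero h2).mp h1
  exact sub_eq_zero.mp h3

end Uniqueness


section Bivariate

variable {A B : Type*} [CommRing A] [CommRing B]

/-- Ring homomorphisms out of `A[t][Z]` are determined by the images of constants, `t` and `Z`. -/
theorem ringHom_ext_biv {φ ψ : A[X][X] →+* B}
    (hC : ∀ a : A, φ (C (C a)) = ψ (C (C a))) (hX : φ (C X) = ψ (C X)) (hY : φ X = ψ X) :
    φ = ψ := by
  apply Polynomial.ringHom_ext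
  · intro p
    have : φ.comp C = ψ.comp C := Polynomial.ringHom_ext (fun a => hC a) hX
    exact RingHom.congr_fun this p
  · exact hY

end Bivariate

section Hensel

variable {A : Type*} [CommRing A]

/-- The substitution `t ↦ t₁ + u`, followed by the inclusion of polynomials in power series. -/
noncomputable def shiftPS (t₁ : A) : A[X] →+* PowerSeries A :=
  (Polynomial.coeToPowerSeries.ringHom).comp (Polynomial.compRingHom (X + C t₁))

theorem constantCoeff_shiftPS (t₁ : A) (p : A[X]) :
    PowerSeries.constantCoeff (shiftPS t₁ p) = p.eval t₁ := by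
  have h : (PowerSeries.constantCoeff (R := A)).comp (shiftPS t₁) = Polynomial.evalRingHom t₁ := by
    apply Polynomial.ringHom_ext
    · intro a
      simp [shiftPS]
    · simp [shiftPS]
  exact RingHom.congr_fun h p

/-- `constantCoeff ((f.map shift).eval (C z₁)) = f(t₁, z₁)`. -/
theorem constantCoeff_eval_map_shiftPS (f : A[X][X]) (t₁ z₁ : A) :
    PowerSeries.constantCoeff ((f.map (shiftPS t₁)).eval (PowerSeries.C z₁)) =
      evalEval t₁ z₁ f := by
  have h : ((PowerSeries.constantCoeff (R := A)).comp
      ((Polynomial.evalRingHom (PowerSeries.C z₁)).comp (Polynomial.mapRingHom (shiftPS t₁)))) =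
      Polynomial.evalEvalRingHom t₁ z₁ := by
    apply ringHom_ext_biv
    · intro a
      simp [shiftPS]
    · simp [shiftPS]
    · simp
  exact RingHom.congr_fun h f


/-- the polynomial `G(u) = f(t₁ + u, R(u))`. -/
noncomputable def substPoly (f : A[X][X]) (t₁ : A) (R : A[X]) : A[X] :=
  (f.map (Polynomial.compRingHom (X + C t₁))).eval R

theorem eval_substPoly (f : A[X][X]) (t₁ : A) (R : A[X]) (u₁ : A) :
    (substPoly f t₁ R).eval u₁ = evalEval (t₁ + u₁) (R.eval u₁) f := by
  have h : ((Polynomial.evalRingHom u₁).comp ((Polynomial.evalRingHom R).comp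
      (Polynomial.mapRingHom (Polynomial.compRingHom (X + C t₁))))) =
      Polynomial.evalEvalRingHom (t₁ + u₁) (R.eval u₁) := by
    apply ringHom_ext_biv
    · intro a
      simp
    · simp [add_comm]
    · simp
  exact RingHom.congr_fun h f

theorem coe_substPoly (f : A[X][X]) (t₁ : A) (R : A[X]) :
    ((substPoly f t₁ R : A[X]) : PowerSeries A) = (f.map (shiftPS t₁)).eval (R : PowerSeries A) := by
  have h : (Polynomial.coeToPowerSeries.ringHom).comp ((Polynomial.evalRingHom R).comp
      (Polynomial.mapRingHom (Polynomial.compRingHom (X + C t₁)))) =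
      (Polynomial.evalRingHom (R : PowerSeries A)).comp (Polynomial.mapRingHom (shiftPS t₁)) := by
    apply ringHom_ext_biv
    · intro a
      simp [shiftPS]
    · simp [shiftPS]
    · simp
  exact RingHom.congr_fun h f

/-- **Hensel branch**: a polynomial `R` of degree `≤ D` with `R(0) = z₁` and
`f(t₁ + u₁, R(u₁)) = 0` whenever `u₁ ^ (D + 1) = 0`. -/
theorem hensel_branch (f : A[X][X]) (hf : f.Monic) (t₁ z₁ : A)
    (h0 : evalEval t₁ z₁ f = 0) (hu : IsUnit (evalEval t₁ z₁ (derivative f))) (D : ℕ) :
    ∃ R : A[X], R.natDegree ≤ D ∧ R.eval 0 = z₁ ∧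
      ∀ u₁ : A, u₁ ^ (D + 1) = 0 → evalEval (t₁ + u₁) (R.eval u₁) f = 0 := by
  set g : (PowerSeries A)[X] := f.map (shiftPS t₁) with hg
  have hgm : g.Monic := hf.map _
  have h1 : g.eval (PowerSeries.C z₁) ∈ Ideal.span {(PowerSeries.X : PowerSeries A)} := by
    rw [Ideal.mem_span_singleton, PowerSeries.X_dvd_iff, hg, constantCoeff_eval_map_shiftPS, h0]
  have h2 : IsUnit (Ideal.Quotient.mk (Ideal.span {(PowerSeries.X : PowerSeries A)})
      (g.derivative.eval (PowerSeries.C z₁))) := by
    apply IsUnit.map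
    rw [PowerSeries.isUnit_iff_constantCoeff, hg, Polynomial.derivative_map,
      constantCoeff_eval_map_shiftPS]
    exact hu
  obtain ⟨a, ha, ha'⟩ := HenselianRing.is_henselian (R := PowerSeries A)
    (I := Ideal.span {(PowerSeries.X : PowerSeries A)}) g hgm (PowerSeries.C z₁) h1 h2
  have hconst : PowerSeries.constantCoeff a = z₁ := by
    rw [Ideal.mem_span_singleton, PowerSeries.X_dvd_iff, map_sub, PowerSeries.constantCoeff_C,
      sub_eq_zero] at ha'
    exact ha'
  refine ⟨PowerSeries.trunc (D + 1) a, ?_, ?_, ?_⟩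
  · exact Nat.lt_succ_iff.mp (PowerSeries.natDegree_trunc_lt a D)
  · rw [← Polynomial.coeff_zero_eq_eval_zero, PowerSeries.coeff_trunc, if_pos (Nat.succ_pos D),
      PowerSeries.coeff_zero_eq_constantCoeff_apply, hconst]
  · intro u₁ hu₁
    rw [← eval_substPoly]
    set R := PowerSeries.trunc (D + 1) a with hR
    -- `X ^ (D+1) ∣ ↑R - a`
    have hd1 : (PowerSeries.X : PowerSeries A) ^ (D + 1) ∣ (R : PowerSeries A) - a := by
      rw [PowerSeries.X_pow_dvd_iff]
      intro m hm
      rw [map_sub, Polynomial.coeff_coe, hR, PowerSeries.coeff_trunc, if_pos hm, sub_self]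
    have hd2 : (R : PowerSeries A) - a ∣ g.eval (R : PowerSeries A) - g.eval a :=
      Polynomial.sub_dvd_eval_sub _ _ g
    have hroot : g.eval a = 0 := ha
    rw [hroot, sub_zero, hg, ← coe_substPoly] at hd2
    have hd3 := hd1.trans hd2
    have hd4 : (X : A[X]) ^ (D + 1) ∣ substPoly f t₁ R := by
      rw [Polynomial.X_pow_dvd_iff]
      intro m hm
      rw [PowerSeries.X_pow_dvd_iff] at hd3
      have := hd3 m hm
      rwa [Polynomial.coeff_coe] at this
    obtain ⟨G', hG'⟩ := hd4
    rw [hG', Polynomial.eval_mul, Polynomial.eval_pow, Polynomial.eval_X, hu₁, zero_mul]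

end Hensel

end Fermat.Agent.S52H45
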