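/-
S52 (D2a), part 2 (helper45): integral Lagrange interpolation.

For a finite set `S` of integer nodes and an integer `x` there are explicit integers
`lagW S ≠ 0` and `lagC S x j` (products of differences) such that, over every commutative ring,
`∑ j ∈ S, lagC S x j * f(j) = lagW S * f(x)` for all polynomials `f` of degree `< #S`.
-/
import Mathlib

set_option autoImplicit false

open Polynomial Finset

namespace Fermat.Agent.S52H45

/-- the product of all differences of distinct nodes. -/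
def lagW (S : Finset ℤ) : ℤ := ∏ j ∈ S, ∏ k ∈ S.erase j, (j - k)

/-- the integral Lagrange multipliers: `lagC S x j = lagW S * L_j(x)`. -/
def lagC (S : Finset ℤ) (x : ℤ) (j : ℤ) : ℤ :=
  (∏ k ∈ S.erase j, (x - k)) * ∏ j' ∈ S.erase j, ∏ k ∈ S.erase j', (j' - k)

theorem lagW_ne_zero (S : Finset ℤ) : lagW S ≠ 0 := by
  unfold lagW
  rw [Finset.prod_ne_zero_iff]
  intro j _
  rw [Finset.prod_ne_zero_iff]
  intro k hk
  exact sub_ne_zero.mpr (Finset.ne_of_mem_erase hk).symm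

theorem lagW_eq (S : Finset ℤ) {j : ℤ} (hj : j ∈ S) :
    lagW S = (∏ k ∈ S.erase j, (j - k)) * ∏ j' ∈ S.erase j, ∏ k ∈ S.erase j', (j' - k) := by
  unfold lagW
  rw [Finset.mul_prod_erase S (fun j' => ∏ k ∈ S.erase j', (j' - k)) hj]

theorem lagC_cast_eq (S : Finset ℤ) (x : ℤ) {j : ℤ} (hj : j ∈ S) :
    (lagC S x j : ℚ) = lagW S * (Lagrange.basis S (fun n : ℤ => (n : ℚ)) j).eval (x : ℚ) := by
  rw [lagW_eq S hj]
  unfold lagC Lagrange.basis Lagrange.basisDivisor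
  rw [Polynomial.eval_prod]
  simp only [Polynomial.eval_mul, Polynomial.eval_C, Polynomial.eval_sub, Polynomial.eval_X]
  rw [Finset.prod_mul_distrib]
  push_cast
  have hne : (∏ k ∈ S.erase j, ((j : ℚ) - (k : ℚ))) ≠ 0 := by
    rw [Finset.prod_ne_zero_iff]
    intro k hk
    have : j ≠ k := (Finset.ne_of_mem_erase hk).symm
    exact sub_ne_zero.mpr (by exact_mod_cast this)
  rw [Finset.prod_inv_distrib]
  field_simp

/-- the Lagrange identity over `ℚ`. -/
theorem lag_identity_rat (S : Finset ℤ) (x : ℤ) (f : ℚ[X]) (hf : f.degree < #S) :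
    ∑ j ∈ S, (lagC S x j : ℚ) * f.eval (j : ℚ) = lagW S * f.eval (x : ℚ) := by
  have hinj : Set.InjOn (fun n : ℤ => (n : ℚ)) S := fun a _ b _ h => Int.cast_injective h
  have h := Lagrange.eq_interpolate (v := fun n : ℤ => (n : ℚ)) hinj hf
  have h2 := congrArg (fun p => lagW S * Polynomial.eval (x : ℚ) p) h
  simp only [Lagrange.interpolate_apply, Polynomial.eval_finsetSum, Polynomial.eval_mul,
    Polynomial.eval_C] at h2
  rw [h2, Finset.mul_sum]
  apply Finset.sum_congr rfl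
  intro j hj
  rw [lagC_cast_eq S x hj]
  ring

/-- the Lagrange identity for monomials over `ℤ`. -/
theorem lag_identity_int (S : Finset ℤ) (x : ℤ) (i : ℕ) (hi : i < #S) :
    ∑ j ∈ S, lagC S x j * j ^ i = lagW S * x ^ i := by
  have h := lag_identity_rat S x (X ^ i) (by
    rw [Polynomial.degree_X_pow]; exact_mod_cast hi)
  simp only [Polynomial.eval_pow, Polynomial.eval_X] at h
  exact_mod_cast h

/-- the Lagrange identity over an arbitrary commutative ring. -/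
theorem lag_identity {A : Type*} [CommRing A] (S : Finset ℤ) (x : ℤ) (f : A[X])
    (hf : f.natDegree < #S) :
    ∑ j ∈ S, (lagC S x j : A) * f.eval (j : A) = (lagW S : A) * f.eval (x : A) := by
  simp only [Polynomial.eval_eq_sum_range]
  simp only [Finset.mul_sum]
  rw [Finset.sum_comm]
  apply Finset.sum_congr rfl
  intro i hi
  have hi' : i < #S := lt_of_le_of_lt (Nat.lt_succ_iff.mp (Finset.mem_range.mp hi)) hf
  have h := congrArg (fun n : ℤ => (n : A)) (lag_identity_int S x i hi')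
  simp only [Int.cast_sum, Int.cast_mul, Int.cast_pow] at h
  calc ∑ j ∈ S, (lagC S x j : A) * (f.coeff i * (j : A) ^ i)
      = f.coeff i * ∑ j ∈ S, (lagC S x j : A) * (j : A) ^ i := by
        rw [Finset.mul_sum]; apply Finset.sum_congr rfl; intro j _; ring
    _ = (lagW S : A) * (f.coeff i * (x : A) ^ i) := by rw [h]; ring

/-- value of the interpolation polynomial at an integer. -/
theorem lagW_mul_eval_interpolate (S : Finset ℤ) (x : ℤ) (r : ℤ → ℚ) :
    (lagW S : ℚ) * (Lagrange.interpolate S (fun n : ℤ => (n : ℚ)) r).eval (x : ℚ) =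
      ∑ j ∈ S, (lagC S x j : ℚ) * r j := by
  simp only [Lagrange.interpolate_apply, Polynomial.eval_finsetSum, Polynomial.eval_mul,
    Polynomial.eval_C]
  rw [Finset.mul_sum]
  apply Finset.sum_congr rfl
  intro j hj
  rw [lagC_cast_eq S x hj]
  ring


/-! ### Bounds -/

theorem abs_prod_sub_le (T : Finset ℤ) (a : ℤ) (N : ℕ) (hT : ∀ k ∈ T, 1 ≤ k ∧ k ≤ N)
    (ha : 1 ≤ a ∧ a ≤ N) : |∏ k ∈ T, (a - k)| ≤ (N : ℤ) ^ #T := by
  rw [Finset.abs_prod]
  calc ∏ k ∈ T, |a - k| ≤ ∏ _k ∈ T, (N : ℤ) :=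
        Finset.prod_le_prod (fun _ _ => abs_nonneg _) (fun k hk => by
          have := hT k hk
          rw [abs_le]
          constructor <;> omega)
    _ = (N : ℤ) ^ #T := by simp

theorem abs_prod_prod_sub_le (T S : Finset ℤ) (N : ℕ) (hN : 1 ≤ N)
    (hT : ∀ k ∈ T, 1 ≤ k ∧ k ≤ N) (hS : ∀ k ∈ S, 1 ≤ k ∧ k ≤ N) :
    |∏ j ∈ T, ∏ k ∈ S.erase j, (j - k)| ≤ (N : ℤ) ^ (#T * #S) := by
  rw [Finset.abs_prod]
  have hN' : (1 : ℤ) ≤ N := by exact_mod_cast hN
  calc ∏ j ∈ T, |∏ k ∈ S.erase j, (j - k)| ≤ ∏ _j ∈ T, (N : ℤ) ^ #S :=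
        Finset.prod_le_prod (fun _ _ => abs_nonneg _) (fun j hj => by
          refine (abs_prod_sub_le (S.erase j) j N
            (fun k hk => hS k (Finset.mem_of_mem_erase hk)) (hT j hj)).trans ?_
          exact pow_le_pow_right₀ hN' (Finset.card_erase_le))
    _ = (N : ℤ) ^ (#T * #S) := by
        rw [Finset.prod_const, ← pow_mul, mul_comm]

theorem abs_lagW_le (S : Finset ℤ) (N : ℕ) (hN : 1 ≤ N) (hS : ∀ k ∈ S, 1 ≤ k ∧ k ≤ N) :
    |lagW S| ≤ (N : ℤ) ^ (#S * #S) :=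
  abs_prod_prod_sub_le S S N hN hS hS

theorem abs_lagC_le (S : Finset ℤ) (x : ℤ) (N : ℕ) (hN : 1 ≤ N)
    (hS : ∀ k ∈ S, 1 ≤ k ∧ k ≤ N) (hx : 1 ≤ x ∧ x ≤ N) {j : ℤ} (hj : j ∈ S) :
    |lagC S x j| ≤ (N : ℤ) ^ (#S * #S) := by
  unfold lagC
  rw [abs_mul]
  have hN' : (1 : ℤ) ≤ N := by exact_mod_cast hN
  have h1 : |∏ k ∈ S.erase j, (x - k)| ≤ (N : ℤ) ^ #(S.erase j) :=
    abs_prod_sub_le (S.erase j) x N (fun k hk => hS k (Finset.mem_of_mem_erase hk)) hx
  have h2 : |∏ j' ∈ S.erase j, ∏ k ∈ S.erase j', (j' - k)| ≤ (N : ℤ) ^ (#(S.erase j) * #S) :=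
    abs_prod_prod_sub_le (S.erase j) S N hN (fun k hk => hS k (Finset.mem_of_mem_erase hk)) hS
  have hcard : #(S.erase j) + 1 = #S := Finset.card_erase_add_one hj
  calc |∏ k ∈ S.erase j, (x - k)| * |∏ j' ∈ S.erase j, ∏ k ∈ S.erase j', (j' - k)|
      ≤ (N : ℤ) ^ #(S.erase j) * (N : ℤ) ^ (#(S.erase j) * #S) :=
        mul_le_mul h1 h2 (abs_nonneg _) (by positivity)
    _ = (N : ℤ) ^ (#(S.erase j) + #(S.erase j) * #S) := by rw [pow_add]
    _ ≤ (N : ℤ) ^ (#S * #S) := by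
        apply pow_le_pow_right₀ hN'
        rw [← hcard]
        nlinarith [Nat.zero_le (#(S.erase j))]

end Fermat.Agent.S52H45
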