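import Fermat.Agent.S52.TorsionFive
import Fermat.Agent.S52.TorsionFiveSpan

/-!
# S52 (3-5 switch): nontriviality of `E[5]` and `E[5] = ⟨P, Q⟩` on a curve (helper50)

Complements helper48's `S52/TorsionFive.lean` and `S52/TorsionFiveSpan.lean`:

* `nontrivial_torsionBy_five_of_ne_zero` : `E[5] ≠ 0` over an algebraically closed field in which
  `2` and `5` are invertible;
* `span_torsionFive_of_ne_zero` : on a Weierstrass curve over a field with `2, 5 ≠ 0`, if `P ≠ 0`,
  `5P = 5Q = 0` and `Q ∉ ⟨P⟩` then every `R` with `5R = 0` is `a • P + b • Q`, `a, b : Fin 5`.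
-/

set_option autoImplicit false

open Polynomial

namespace Fermat.Agent.S52

open WeierstrassCurve WeierstrassCurve.Affine Fermat.Agent.S51Torsion

section curve

variable {F : Type*} [Field F] {W : WeierstrassCurve.Affine F}

/-- Over an algebraically closed field with `2 ≠ 0` every `x` is the `x`-coordinate of a point. -/
lemma tf_exists_equation_of_X [IsAlgClosed F] (h2 : (2 : F) ≠ 0) (x : F) :
    ∃ y : F, W.Equation x y := by
  obtain ⟨s, hs⟩ := IsAlgClosed.exists_eq_mul_self (fF W x)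
  refine ⟨(s - W.a₁ * x - W.a₃) / 2, ?_⟩
  rw [equation_iff]
  simp only [fF, WeierstrassCurve.b₂, WeierstrassCurve.b₄, WeierstrassCurve.b₆] at hs
  field_simp
  linear_combination -hs

lemma tf_exists_nonsingular_of_X [IsAlgClosed F] (h2 : (2 : F) ≠ 0) (hΔ : W.Δ ≠ 0) (x : F) :
    ∃ y : F, W.Nonsingular x y := by
  obtain ⟨y, hy⟩ := tf_exists_equation_of_X (W := W) h2 x
  exact ⟨y, (equation_iff_nonsingular_of_Δ_ne_zero hΔ).mp hy⟩

variable [DecidableEq F]

/-- `E[5]` is nontrivial over an algebraically closed field in which `2` and `5` are invertible. -/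
theorem nontrivial_torsionBy_five_of_ne_zero [IsAlgClosed F] (h2 : (2 : F) ≠ 0)
    (h5 : (5 : F) ≠ 0) (hΔ : W.Δ ≠ 0) :
    Nontrivial (Submodule.torsionBy ℤ W.Point ((5 : ℕ) : ℤ)) := by
  have hdeg : (W.preΨ' 5).degree ≠ 0 := by
    have hn := torsionFive_natDegree_preΨ' (W := W) h5
    intro h0
    have := natDegree_eq_of_degree_eq_some (n := 0) (by simpa using h0)
    omega
  obtain ⟨x, hx⟩ := IsAlgClosed.exists_root (W.preΨ' 5) hdeg
  rw [IsRoot.def, eval_preΨ'_five] at hx
  obtain ⟨y, hy⟩ := tf_exists_nonsingular_of_X h2 hΔ x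
  have h5' : ((5 : ℕ) : ℤ) • (Point.some x y hy) = 0 := by
    have := (torsionFive_zsmul_some_eq_zero_iff h2 hy).mpr hx
    simpa using this
  refine ⟨⟨⟨Point.some x y hy, (Submodule.mem_torsionBy_iff _ _).mpr h5'⟩, 0, ?_⟩⟩
  intro h0
  exact Point.some_ne_zero hy (congrArg Subtype.val h0)

/-- **`E[5] = ⟨P, Q⟩`** on a Weierstrass curve over a field in which `2` and `5` are invertible. -/
theorem span_torsionFive_of_ne_zero (h2 : (2 : F) ≠ 0) (h5 : (5 : F) ≠ 0)
    {P Q : W.Point} (hP : (5 : ℤ) • P = 0) (hP0 : P ≠ 0) (hQ : (5 : ℤ) • Q = 0)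
    (hQP : Q ∉ AddSubgroup.zmultiples P) (R : W.Point) (hR : (5 : ℤ) • R = 0) :
    ∃ a b : Fin 5, R = ((a : ℕ) : ℤ) • P + ((b : ℕ) : ℤ) • Q := by
  obtain ⟨hfin, hcard⟩ := torsionFive_card_le (W := W) h2 h5
  exact torsionFive_exists_fin hP hQ hP0 hQP hfin hcard hR

end curve

end Fermat.Agent.S52
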